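import Mathlib
import Fermat.Agent.M59.EP.Seams
import Fermat.Agent.LR.MTX.Homology

/-!
# M59 / block [P-STEP] = AtP (helper10, architect; chief's assignment #5344 (b)): THE SEAMS
Prefix `m59p_`.  Statements only (one definition, one structure, `Prop`s).  Case (III) of the engine.

The chain of [E'] (`m59ep_Chain_stmt`) raises the primes `l ≠ p`.  Case (III) (`W` multiplicative at
`p`, `ρ̄` peu ramifiée, `p ∤ N₁`) needs ONE more step, `N_m → N_m · p`, on the FULL modules.  There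
`p ∈ S₀`, so `T_p` is NOT an element of `heckeAlgebra N_m 2 S_m`: it enters as the Betti double
coset `α_* β^*` on the module, and its relation with the deformation ring is

* **(ES-p)₀**: `T_p = z + p z⁻¹` on the flat side, `z` = the eigenvalue of a Frobenius element at `p`
  on the unramified quotient of the representation of the Hecke–Galois datum
  (only the nilpotent form `(z T_p - z² - p)^e = 0`, `e` uniform in the Taylor–Wiles level, is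
  asked: referee helper12 #5341 (R-2), helper27 #5349 (3));
* **[STRICT-p]-nilpotent**: `(z'² - 1)^e` kills the `p`-new quotient `M₁ / im i_p`.

Contents:
* `m59p_IsUrEig ρ P σ z`  : `z` is the eigenvalue of `σ` on an unramified quotient line of `ρ` at `P`
  (a witness of the Prelude's `IsOrdinaryAt` at `P` + the scalar by which `σ` acts on `V / L`);
* `m59p_StepP L₀ L₁`      : the step at `l = p` (twin of `m59ep_Step`);
* `m59p_ChainP_stmt`      : the chain of [E'] with the `p`-step on top;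
* `m59p_EspForm_stmt`     : LAYER 1 of (ES-p)₀ = the statement at `Γ₀(N)`-level, one eigensystem
  (the unit root: `u² - a_p u + p = 0`);
* `m59p_StrictForm_stmt`  : the pointwise form of [STRICT-p] (`u² = 1` on a `p`-new eigenclass).
-/

set_option autoImplicit false
set_option linter.unusedSectionVars false

namespace Fermat.Agent.M59

open Polynomial CuspForm IsLocalRing Fermat.Agent.JT3 Fermat.Agent.TW Fermat.Agent.LR

noncomputable section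

/-- `z` is the eigenvalue of `σ` on an UNRAMIFIED QUOTIENT LINE of `ρ` at the place `P`: there is a
line `L = T b₀` (`b` a basis) stable under the decomposition group at `P`, with the inertia group at
`P` acting trivially on `V / L` (a witness of `GaloisRepAdic.IsOrdinaryAt` at `P`), and `σ` acts on
`V / L` through the scalar `z`. -/
def m59p_IsUrEig {T : Type} [CommRing T] [IsLocalRing T] (ρ : GaloisRepAdic T)
    (P : ValuationSubring (AlgebraicClosure ℚ))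
    (σ : AlgebraicClosure ℚ ≃ₐ[ℚ] AlgebraicClosure ℚ) (z : T) : Prop :=
  ∃ L : Submodule T ρ.V,
    (∃ b : Module.Basis (Fin 2) T ρ.V, L = T ∙ b 0) ∧
    (∀ g ∈ P.decompositionSubgroup ℚ, ∀ v ∈ L, ρ.ρ g v ∈ L) ∧
    (∀ g ∈ P.inertiaSubgroupIn ℚ, ∀ v : ρ.V, ρ.ρ g v - v ∈ L) ∧
    ∀ v : ρ.V, ρ.ρ σ v - z • v ∈ L

section step

variable {𝒪 : Type} [CommRing 𝒪] [IsDomain 𝒪] [IsDiscreteValuationRing 𝒪]
  [IsAdicComplete (maximalIdeal 𝒪) 𝒪]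
  {N₀ N₁ : ℕ} [NeZero N₀] [NeZero N₁] {S : Finset ℕ}
  {θ₀ : heckeAlgebra N₀ 2 (↑S : Set ℕ) →+* ResidueField 𝒪}
  {θ₁ : heckeAlgebra N₁ 2 (↑S : Set ℕ) →+* ResidueField 𝒪}
  {B₀ : twe_Base 𝒪 N₀ S θ₀} {B₁ : twe_Base 𝒪 N₁ S θ₁} {p : ℕ} {Q : Finset ℕ}
  [NeZero (twe_Nbal N₀ Q ∅)] [NeZero (twe_Nbal N₁ Q ∅)]

/-- **the step at `l = p`**: `L₀` at the level `N₀` (prime to `p`), `L₁` at the level `N₁ = N₀ · p`,
the SAME bad set `S ∋ p`, the same Taylor–Wiles set `Q`.  Twin of `m59ep_Step` with `l := p`;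
`T_p` is the endomorphism `Tp = α_* β^* = β_* α^*` of `L₀.M`. -/
structure m59p_StepP (L₀ : twe_Level B₀ p Q) (L₁ : twe_Level B₁ p Q) : Type where
  /-- `T'₁ → T'₀`, `T_q ↦ T_q` at the common good primes -/
  πT : L₁.T' →ₐ[𝒪] L₀.T'
  πT_T : ∀ (q : ℕ) (hq : q.Prime) (h1 : ¬ q ∣ twe_Nbal N₁ Q ∅) (h2 : q ∉ (↑(S ∪ Q) : Set ℕ))
    (h3 : ¬ q ∣ twe_Nbal N₀ Q ∅),
    πT (L₁.H'.π (heckeAlgebra.T hq h1 h2)) = L₀.H'.π (heckeAlgebra.T hq h3 h2)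
  /-- `α^*` -/
  A : L₀.M →ₗ[𝒪] L₁.M
  /-- `β^*` -/
  B : L₀.M →ₗ[𝒪] L₁.M
  /-- `α_*` -/
  At : L₁.M →ₗ[𝒪] L₀.M
  /-- `β_*` -/
  Bt : L₁.M →ₗ[𝒪] L₀.M
  /-- the Betti Hecke operator `T_p` on the module of the level prime to `p` -/
  Tp : L₀.M →ₗ[𝒪] L₀.M
  A_dia : ∀ (δ : twe_Delta p Q) (m : L₀.M),
    A (MonoidAlgebra.of 𝒪 (twe_Delta p Q) δ • m) = MonoidAlgebra.of 𝒪 (twe_Delta p Q) δ • A m
  B_dia : ∀ (δ : twe_Delta p Q) (m : L₀.M),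
    B (MonoidAlgebra.of 𝒪 (twe_Delta p Q) δ • m) = MonoidAlgebra.of 𝒪 (twe_Delta p Q) δ • B m
  At_dia : ∀ (δ : twe_Delta p Q) (m : L₁.M),
    At (MonoidAlgebra.of 𝒪 (twe_Delta p Q) δ • m) = MonoidAlgebra.of 𝒪 (twe_Delta p Q) δ • At m
  Bt_dia : ∀ (δ : twe_Delta p Q) (m : L₁.M),
    Bt (MonoidAlgebra.of 𝒪 (twe_Delta p Q) δ • m) = MonoidAlgebra.of 𝒪 (twe_Delta p Q) δ • Bt m
  A_hecke : ∀ (x : L₁.T') (m : L₀.M), x • A m = A (πT x • m)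
  B_hecke : ∀ (x : L₁.T') (m : L₀.M), x • B m = B (πT x • m)
  At_hecke : ∀ (x : L₁.T') (m : L₁.M), At (x • m) = πT x • At m
  Bt_hecke : ∀ (x : L₁.T') (m : L₁.M), Bt (x • m) = πT x • Bt m
  /-- `α_* α^* = p + 1` -/
  At_A : ∀ m : L₀.M, At (A m) = ((p : 𝒪) + 1) • m
  /-- `β_* β^* = p + 1` -/
  Bt_B : ∀ m : L₀.M, Bt (B m) = ((p : 𝒪) + 1) • m
  /-- `α_* β^* = T_p` -/
  At_B : ∀ m : L₀.M, At (B m) = Tp m
  /-- `β_* α^* = T_p` -/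
  Bt_A : ∀ m : L₀.M, Bt (A m) = Tp m
  /-- **(I1)** `i = α^* + β^* : M₀ × M₀ → M₁` has a retraction commuting with the diamonds -/
  split : ∃ r : L₁.M →ₗ[𝒪] L₀.M × L₀.M,
    (∀ (δ : twe_Delta p Q) (m : L₁.M),
      r (MonoidAlgebra.of 𝒪 (twe_Delta p Q) δ • m) =
        (MonoidAlgebra.of 𝒪 (twe_Delta p Q) δ • (r m).1,
          MonoidAlgebra.of 𝒪 (twe_Delta p Q) δ • (r m).2)) ∧
    ∀ x y : L₀.M, r (A x + B y) = (x, y)
  /-- **(I2)** `i' = (α_*, β_*) : M₁ → M₀ × M₀` is onto -/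
  onto : ∀ x y : L₀.M, ∃ m : L₁.M, At m = x ∧ Bt m = y
  /-- **(ES-p)₀** on the flat side: `z T_p - (z² + p)` is nilpotent on `M₀`, with the uniform
  exponent `rank_𝒪[Δ] M₀`, for EVERY eigenvalue `z` of a Frobenius element at `p` on an unramified
  quotient line of the representation of the datum at the level `N₀` -/
  esp : ∀ P : ValuationSubring (AlgebraicClosure ℚ), P.LiesOverPrime p →
    ∀ σ : AlgebraicClosure ℚ ≃ₐ[ℚ] AlgebraicClosure ℚ, P.IsFrobeniusAt σ p →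
    ∀ z : L₀.T', m59p_IsUrEig L₀.H'.ρ P σ z →
    ∀ m : L₀.M, ((fun m' : L₀.M => z • Tp m' - (z ^ 2 + (p : L₀.T')) • m')^[B₀.d * 2 ^ Q.card]) m = 0
  /-- **(I3) at `p`** = [STRICT-p]-nilpotent: `z'² - 1` is nilpotent on the `p`-new quotient
  `M₁ / im i`, for every eigenvalue `z'` of a Frobenius element at `p` on an unramified quotient
  line of the representation of the datum at the level `N₁ = N₀ p` -/
  new : ∀ P : ValuationSubring (AlgebraicClosure ℚ), P.LiesOverPrime p →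
    ∀ σ : AlgebraicClosure ℚ ≃ₐ[ℚ] AlgebraicClosure ℚ, P.IsFrobeniusAt σ p →
    ∀ z' : L₁.T', m59p_IsUrEig L₁.H'.ρ P σ z' →
    ∀ m : L₁.M, ∃ x y : L₀.M, (z' ^ 2 - 1) ^ (B₁.d * 2 ^ Q.card) • m = A x + B y

end step

/-- **[P-STEP], the chain with the `p`-step on top** (case (III)): the conclusion of
`m59ep_Chain_stmt` for the chain `l`, and ON THE SAME top level `L m` one more level at
`N_m · p` with the step `m59p_StepP`. -/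
def m59p_ChainP_stmt : Prop :=
  ∀ (p : ℕ) [Fact p.Prime], p ≠ 2 →
  ∀ (𝒪 : Type) [CommRing 𝒪] [IsDomain 𝒪] [IsDiscreteValuationRing 𝒪]
    [IsAdicComplete (maximalIdeal 𝒪) 𝒪] [Finite (ResidueField 𝒪)] [CharZero 𝒪],
    (p : 𝒪) ∈ maximalIdeal 𝒪 →
  ∀ (N : ℕ) [NeZero N], m59ep_Rigid p N → ¬ p ∣ N →
  ∀ (S₀ : Finset ℕ), p ∈ S₀ → (∀ ℓ : ℕ, ℓ.Prime → ℓ ∣ N → ℓ ∈ S₀) →
  ∀ (m : ℕ) (l : Fin m → ℕ), Function.Injective l →
    (∀ i, (l i).Prime ∧ l i ∉ S₀ ∧ l i ≠ p) →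
  ∀ [∀ k : ℕ, NeZero (m59ep_lvl N l k)] [NeZero (m59ep_lvl N l m * p)]
    (θ : ∀ k : ℕ, heckeAlgebra (m59ep_lvl N l k) 2 (↑(m59ep_bad S₀ l k) : Set ℕ) →+*
      ResidueField 𝒪)
    (θp : heckeAlgebra (m59ep_lvl N l m * p) 2 (↑(m59ep_bad S₀ l m) : Set ℕ) →+* ResidueField 𝒪)
    (ρbar : ResidualGaloisRep (ResidueField 𝒪)),
    (∀ k, twt_Compat (θ k) ρbar) → twt_Compat θp ρbar → ρbar.IsAbsolutelyIrreducible →
    ∃ (B : ∀ k : ℕ, twe_Base 𝒪 (m59ep_lvl N l k) (m59ep_bad S₀ l k) (θ k))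
      (Bp : twe_Base 𝒪 (m59ep_lvl N l m * p) (m59ep_bad S₀ l m) θp),
      ∀ (Q : Finset ℕ) [∀ k : ℕ, NeZero (twe_Nbal (m59ep_lvl N l k) Q ∅)]
        [NeZero (twe_Nbal (m59ep_lvl N l m * p) Q ∅)],
        (∀ t ∈ Q, t ∉ S₀ ∧ ∀ i, t ≠ l i) → (∀ k, twe_IsTWSet (θ k) p Q) → twe_IsTWSet θp p Q →
        Q.Nonempty →
        ∃ (L : ∀ k : ℕ, twe_Level (B k) p Q) (Lp : twe_Level Bp p Q),
          (∀ k, (L k).IsLG2) ∧ Lp.IsLG2 ∧
          (∀ k : Fin m, Nonempty (m59ep_Step (L (k : ℕ)) (L ((k : ℕ) + 1)) (l k))) ∧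
          Nonempty (m59p_StepP (L m) Lp)

/-- **(ES-p)₀, LAYER 1** (`Γ₀(N)`-level, one eigensystem): `p` odd, `p ∤ N`; `ρ` over a complete
DVR `𝒪` with the Frobenius characteristic polynomials of the eigensystem `χ` of level `N` away
from `S`, residually absolutely irreducible; `u` the eigenvalue of a Frobenius element at `p` on an
unramified quotient line.  Then `u² - u T_p + p` kills the `χ`-eigenspace of `Hom(H₁(X₀(N)), 𝒪)`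
(for a `T_p`-eigenvector: `a_p = u + p / u`, `u` is the unit root). -/
def m59p_EspForm_stmt : Prop :=
  ∀ (p : ℕ) [Fact p.Prime], p ≠ 2 →
  ∀ (N : ℕ) [NeZero N], ¬ p ∣ N →
  ∀ (S : Finset ℕ), p ∈ S → (∀ ℓ : ℕ, ℓ.Prime → ℓ ∣ N → ℓ ∈ S) →
  ∀ (𝒪 : Type) [CommRing 𝒪] [IsDomain 𝒪] [IsDiscreteValuationRing 𝒪]
    [IsAdicComplete (maximalIdeal 𝒪) 𝒪] [Finite (ResidueField 𝒪)] [CharZero 𝒪],
    (p : 𝒪) ∈ maximalIdeal 𝒪 →
  ∀ (ρ : GaloisRepAdic 𝒪) (χ : heckeAlgebra N 2 (↑S : Set ℕ) →+* 𝒪),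
    ρ.residual.IsAbsolutelyIrreducible →
    (∀ (ℓ : ℕ) (hℓ : ℓ.Prime) (hℓN : ¬ ℓ ∣ N) (hℓS : ℓ ∉ (↑S : Set ℕ)),
      ∀ A : ValuationSubring (AlgebraicClosure ℚ), A.LiesOverPrime ℓ →
        ∀ σ : AlgebraicClosure ℚ ≃ₐ[ℚ] AlgebraicClosure ℚ, A.IsFrobeniusAt σ ℓ →
          LinearMap.charpoly (ρ.ρ σ) =
            X ^ 2 - C (χ (heckeAlgebra.T hℓ hℓN hℓS)) * X + C ((ℓ : 𝒪))) →
  ∀ P : ValuationSubring (AlgebraicClosure ℚ), P.LiesOverPrime p →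
  ∀ σ : AlgebraicClosure ℚ ≃ₐ[ℚ] AlgebraicClosure ℚ, P.IsFrobeniusAt σ p →
  ∀ u : 𝒪, m59p_IsUrEig ρ P σ u →
  ∀ ψ : gh_H N →+ 𝒪,
    (∀ (ℓ : ℕ) (hℓ : ℓ.Prime) (hℓN : ¬ ℓ ∣ N) (hℓS : ℓ ∉ (↑S : Set ℕ)),
      ψ.comp (t2f_TH N ℓ).toAddMonoidHom = χ (heckeAlgebra.T hℓ hℓN hℓS) • ψ) →
    u ^ 2 • ψ - u • ψ.comp (t2f_TH N p).toAddMonoidHom + (p : 𝒪) • ψ = 0

/-- **[STRICT-p], pointwise form** (`Γ₀(A p)`-level, one `p`-new eigenclass): `p` odd, `p ∤ A`; `ψ`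
a nonzero class on `H₁(X₀(A p))` killed by both transfers to the level `A` (`p`-new), an
eigenvector with the eigensystem `χ`; `ρ` with the Frobenius characteristic polynomials of `χ`,
residually absolutely irreducible.  Then the eigenvalue `u` of a Frobenius element at `p` on an
unramified quotient line has `u² = 1`. -/
def m59p_StrictForm_stmt : Prop :=
  ∀ (p : ℕ) [Fact p.Prime], p ≠ 2 →
  ∀ (A : ℕ) [NeZero A] [NeZero (A * p)] (hpA : ¬ p ∣ A),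
  ∀ (S : Finset ℕ), p ∈ S → (∀ ℓ : ℕ, ℓ.Prime → ℓ ∣ A → ℓ ∈ S) →
  ∀ (𝒪 : Type) [CommRing 𝒪] [IsDomain 𝒪] [IsDiscreteValuationRing 𝒪]
    [IsAdicComplete (maximalIdeal 𝒪) 𝒪] [Finite (ResidueField 𝒪)] [CharZero 𝒪],
    (p : 𝒪) ∈ maximalIdeal 𝒪 →
  ∀ (ρ : GaloisRepAdic 𝒪) (χ : heckeAlgebra (A * p) 2 (↑S : Set ℕ) →+* 𝒪),
    ρ.residual.IsAbsolutelyIrreducible →
    (∀ (ℓ : ℕ) (hℓ : ℓ.Prime) (hℓN : ¬ ℓ ∣ A * p) (hℓS : ℓ ∉ (↑S : Set ℕ)),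
      ∀ P : ValuationSubring (AlgebraicClosure ℚ), P.LiesOverPrime ℓ →
        ∀ σ : AlgebraicClosure ℚ ≃ₐ[ℚ] AlgebraicClosure ℚ, P.IsFrobeniusAt σ ℓ →
          LinearMap.charpoly (ρ.ρ σ) =
            X ^ 2 - C (χ (heckeAlgebra.T hℓ hℓN hℓS)) * X + C ((ℓ : 𝒪))) →
  ∀ P : ValuationSubring (AlgebraicClosure ℚ), P.LiesOverPrime p →
  ∀ σ : AlgebraicClosure ℚ ≃ₐ[ℚ] AlgebraicClosure ℚ, P.IsFrobeniusAt σ p →
  ∀ u : 𝒪, m59p_IsUrEig ρ P σ u →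
  ∀ ψ : gh_H (A * p) →+ 𝒪, ψ ≠ 0 →
    (∀ (ℓ : ℕ) (hℓ : ℓ.Prime) (hℓN : ¬ ℓ ∣ A * p) (hℓS : ℓ ∉ (↑S : Set ℕ)),
      ψ.comp (t2f_TH (A * p) ℓ).toAddMonoidHom = χ (heckeAlgebra.T hℓ hℓN hℓS) • ψ) →
    ψ.comp (lrh_At hpA) = 0 → ψ.comp (lrh_Bt hpA) = 0 →
    u ^ 2 = 1

end

end Fermat.Agent.M59
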