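/-
S59 project, block [AtP] (helper10; prefix `m59p_`): CALCULUS OF `m59p_IsUrEig` (glue for [ORD-T],
[R_p-norm], the walk of case (III)).

* `m59p_isUrEig_of_ord`     : `ρ.IsOrdinaryAt p` ⟹ every `σ` in the decomposition group at `P ∣ p`
  has an eigenvalue `z` on the unramified quotient line (`∃ z, m59p_IsUrEig ρ P σ z`);
* `m59p_isUrEig_baseChange` : `m59p_IsUrEig` passes along a local ring homomorphism `φ`
  (`z ↦ φ z`, `ρ ↦ ρ.baseChangeAlong φ`);
* `m59p_isUrEig_trace`      : THE TRACE FORMULA `(1 - det ρ(τ)) z = tr ρ(σ τ) - det ρ(τ) tr ρ(σ)` for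
  `σ` in the decomposition group and `τ` in the inertia group (so `z` is determined by `σ` as soon as
  `1 - det ρ(τ)` is a unit for one `τ`, and it is compatible with every trace-compatible map);
* `m59p_isUrEig_unique`.
-/
import Mathlib
import Fermat.Agent.M59.AtP.Seams
import Fermat.Agent.S56.PS.BaseChange

set_option autoImplicit false
set_option linter.unusedSectionVars false
set_option linter.style.haveILetI false

noncomputable section

namespace Fermat.Agent.M59

open IsLocalRing TensorProduct Fermat.Agent.S56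

local notation "GQ" => (AlgebraicClosure ℚ ≃ₐ[ℚ] AlgebraicClosure ℚ)
local notation "Qbar" => AlgebraicClosure ℚ

section basic

variable {T : Type} [CommRing T] [IsLocalRing T]

/-- an ordinary representation has an eigenvalue on the unramified quotient line for every element
of the decomposition group. -/
theorem m59p_isUrEig_of_ord (ρ : GaloisRepAdic T) {p : ℕ} (h : ρ.IsOrdinaryAt p)
    (P : ValuationSubring Qbar) (hP : P.LiesOverPrime p) (σ : GQ)
    (hσ : σ ∈ P.decompositionSubgroup ℚ) : ∃ z : T, m59p_IsUrEig ρ P σ z := by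
  classical
  obtain ⟨L, ⟨b, hL⟩, hD, hI⟩ := h P hP
  subst hL
  refine ⟨b.repr (ρ.ρ σ (b 1)) 1, Submodule.span T {b 0}, ⟨b, rfl⟩, hD, hI, fun v => ?_⟩
  -- on the basis
  have h0 : ρ.ρ σ (b 0) - b.repr (ρ.ρ σ (b 1)) 1 • b 0 ∈ Submodule.span T {b 0} :=
    Submodule.sub_mem _ (hD σ hσ (b 0) (Submodule.mem_span_singleton_self _))
      (Submodule.smul_mem _ _ (Submodule.mem_span_singleton_self _))
  have h1 : ρ.ρ σ (b 1) - b.repr (ρ.ρ σ (b 1)) 1 • b 1 ∈ Submodule.span T {b 0} := by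
    have hs := b.sum_repr (ρ.ρ σ (b 1))
    rw [Fin.sum_univ_two] at hs
    have e : ρ.ρ σ (b 1) - b.repr (ρ.ρ σ (b 1)) 1 • b 1 = b.repr (ρ.ρ σ (b 1)) 0 • b 0 := by
      nth_rewrite 1 [← hs]
      abel
    rw [e]
    exact Submodule.smul_mem _ _ (Submodule.mem_span_singleton_self _)
  have hv := b.sum_repr v
  rw [Fin.sum_univ_two] at hv
  rw [← hv, map_add, map_smul, map_smul, smul_add, smul_comm _ (b.repr v 0),
    smul_comm _ (b.repr v 1), add_sub_add_comm, ← smul_sub, ← smul_sub]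
  exact Submodule.add_mem _ (Submodule.smul_mem _ _ h0) (Submodule.smul_mem _ _ h1)

/-- **the trace formula for the eigenvalue on the unramified quotient.** -/
theorem m59p_isUrEig_trace (ρ : GaloisRepAdic T) (P : ValuationSubring Qbar) (σ : GQ)
    (hσ : σ ∈ P.decompositionSubgroup ℚ) (z : T) (h : m59p_IsUrEig ρ P σ z) (τ : GQ)
    (hτ : τ ∈ P.inertiaSubgroupIn ℚ) :
    (1 - LinearMap.det (ρ.ρ τ)) * z =
      LinearMap.trace T ρ.V (ρ.ρ (σ * τ)) - LinearMap.det (ρ.ρ τ) * LinearMap.trace T ρ.V (ρ.ρ σ) := by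
  classical
  obtain ⟨L, ⟨b, hL⟩, hD, hI, hz⟩ := h
  subst hL
  -- the matrices
  set S := LinearMap.toMatrix b b (ρ.ρ σ) with hS
  set R := LinearMap.toMatrix b b (ρ.ρ τ) with hR
  have key10 : ∀ f : Module.End T ρ.V, f (b 0) ∈ Submodule.span T {b 0} →
      LinearMap.toMatrix b b f 1 0 = 0 := by
    intro f hf
    obtain ⟨a, ha⟩ := Submodule.mem_span_singleton.mp hf
    rw [LinearMap.toMatrix_apply, ← ha, map_smul, b.repr_self]
    simp
  have key11 : ∀ (f : Module.End T ρ.V) (y : T), f (b 1) - y • b 1 ∈ Submodule.span T {b 0} →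
      LinearMap.toMatrix b b f 1 1 = y := by
    intro f y hf
    obtain ⟨a, ha⟩ := Submodule.mem_span_singleton.mp hf
    have h1 : f (b 1) = y • b 1 + a • b 0 := by rw [ha]; abel
    rw [LinearMap.toMatrix_apply, h1, map_add, map_smul, map_smul, b.repr_self, b.repr_self]
    simp
  have hτD : τ ∈ P.decompositionSubgroup ℚ := by
    obtain ⟨x, -, rfl⟩ := Subgroup.mem_map.mp hτ
    exact x.2
  have hS10 : S 1 0 = 0 := key10 _ (hD σ hσ (b 0) (Submodule.mem_span_singleton_self _))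
  have hS11 : S 1 1 = z := key11 _ z (hz (b 1))
  have hR10 : R 1 0 = 0 := key10 _ (hD τ hτD (b 0) (Submodule.mem_span_singleton_self _))
  have hR11 : R 1 1 = 1 := key11 _ 1 (by rw [one_smul]; exact hI τ hτ (b 1))
  have hdet : LinearMap.det (ρ.ρ τ) = R 0 0 := by
    rw [← LinearMap.det_toMatrix b, Matrix.det_fin_two, ← hR, hR10, hR11, mul_one, mul_zero,
      sub_zero]
  have htr1 : LinearMap.trace T ρ.V (ρ.ρ σ) = S 0 0 + z := by
    rw [LinearMap.trace_eq_matrix_trace T b, Matrix.trace_fin_two, ← hS, hS11]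
  have htr2 : LinearMap.trace T ρ.V (ρ.ρ (σ * τ)) = S 0 0 * R 0 0 + z := by
    rw [map_mul, LinearMap.trace_eq_matrix_trace T b, Module.End.mul_eq_comp,
      LinearMap.toMatrix_comp b b b, Matrix.trace_fin_two, Matrix.mul_apply, Matrix.mul_apply,
      Fin.sum_univ_two, Fin.sum_univ_two, ← hS, ← hR, hR10, hS10, hS11, hR11]
    ring
  rw [hdet, htr1, htr2]
  ring

/-- the eigenvalue on the unramified quotient is unique (one inertia element with `1 - det` a unit
suffices). -/
theorem m59p_isUrEig_unique (ρ : GaloisRepAdic T) (P : ValuationSubring Qbar) (σ : GQ)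
    (hσ : σ ∈ P.decompositionSubgroup ℚ) (z z' : T) (h : m59p_IsUrEig ρ P σ z)
    (h' : m59p_IsUrEig ρ P σ z') (τ : GQ) (hτ : τ ∈ P.inertiaSubgroupIn ℚ)
    (hu : IsUnit (1 - LinearMap.det (ρ.ρ τ))) : z = z' := by
  have e := m59p_isUrEig_trace ρ P σ hσ z h τ hτ
  have e' := m59p_isUrEig_trace ρ P σ hσ z' h' τ hτ
  exact hu.mul_left_cancel (e.trans e'.symm)

end basic

section bc

variable {A B : Type} [CommRing A] [IsLocalRing A] [CommRing B] [IsLocalRing B]

/-- `m59p_IsUrEig` passes along a local homomorphism. -/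
theorem m59p_isUrEig_baseChange (φ : A →+* B) (hφ : IsLocalHom φ) (ρ : GaloisRepAdic A)
    (P : ValuationSubring Qbar) (σ : GQ) (z : A) (h : m59p_IsUrEig ρ P σ z) :
    m59p_IsUrEig (ρ.baseChangeAlong φ hφ) P σ (φ z) := by
  letI : Algebra A B := φ.toAlgebra
  obtain ⟨L, ⟨b, rfl⟩, hD, hI, hz⟩ := h
  refine ⟨Submodule.span B {(1 : B) ⊗ₜ[A] b 0}, ⟨b.baseChange B, ?_⟩, ?_, ?_, ?_⟩
  · exact s56bc_span_eq b
  · intro g hg v hv
    exact s56bc_stable (b 0) (ρ.ρ g) (hD g hg) v hv
  · intro g hg v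
    exact s56bc_one_sub_mem (b 0) (ρ.ρ g) (hI g hg) v
  · intro v
    exact s56bc_sub_smul_mem (b 0) (ρ.ρ σ) z hz v

end bc

end Fermat.Agent.M59
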