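import Mathlib
import Fermat.Agent.M59.E.AbsStep

/-!
# M59 / [P-STEP] / AbsStepP: the one-step datum of [D'] AT `l = p` (helper10; prefix `m59p_abs_`)

Twin of helper8's `m59eo_abs_step` (`M59/E/AbsStep.lean`) for the step at `p`: the Hecke operator at
`p` is NOT an element of the ring `R` acting on the modules; it is the MATRIX `Tm = α_* β^* = β_* α^*`.
Pure linear algebra over a commutative local ring `Λ`.

* `m59p_abs_Tm_comm`  : `Tm` commutes with the action of `R`;
* `m59p_abs_stepP`    : the six identities of the chain walk with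
  `X := al (l + 1) - ε Tm` in place of `al ((l + 1) - ε t)`, the (I3)-element an ARBITRARY `r : R`
  with `al' r = (A | B) Y`, and `X` commuting with `al`;
* `m59p_abs_stepP_nak`: the same with (I1), (I2) only required modulo the maximal ideal;
* `m59p_abs_X_nil`    : (ES-p)₀ in the nilpotent form `(al z * Tm - al (z² + l))^E = 0`, `z` a unit of
  `R`, gives `(X - al s)^E = 0` for `s := (l + 1) - ε (z + l z⁻¹)`: the fields `X_comm`, `X_nil`,
  `j'_Z` of the chain level (referee helper12 #5341 (R-2)).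
-/

set_option autoImplicit false

open Matrix

namespace Fermat.Agent.M59

section stepP

variable {Λ R : Type*} [CommRing Λ] [IsLocalRing Λ] [CommRing R]

omit [IsLocalRing Λ] in
/-- `Tm = α_* β^*` commutes with the action of `R`. -/
theorem m59p_abs_Tm_comm {d d' : ℕ}
    (al : R →+* Matrix (Fin d) (Fin d) Λ) (al' : R →+* Matrix (Fin d') (Fin d') Λ)
    (B : Matrix (Fin d') (Fin d) Λ) (A' : Matrix (Fin d) (Fin d') Λ)
    (Tm : Matrix (Fin d) (Fin d) Λ)
    (hB : ∀ f, al' f * B = B * al f) (hA' : ∀ f, A' * al' f = al f * A')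
    (hAB : A' * B = Tm) (f : R) : Tm * al f = al f * Tm := by
  rw [← hAB, Matrix.mul_assoc, ← hB f, ← Matrix.mul_assoc, hA' f, Matrix.mul_assoc]

/-- **THE ONE-STEP DATUM AT `p`.** -/
theorem m59p_abs_stepP {d d' e : ℕ} (he : e + 2 * d = d')
    (al : R →+* Matrix (Fin d) (Fin d) Λ) (al' : R →+* Matrix (Fin d') (Fin d') Λ)
    (A B : Matrix (Fin d') (Fin d) Λ) (A' B' : Matrix (Fin d) (Fin d') Λ)
    (l : ℕ) (ε : ℤ) (hε : ε * ε = 1) (Tm : Matrix (Fin d) (Fin d) Λ)
    (hA : ∀ f, al' f * A = A * al f) (hB : ∀ f, al' f * B = B * al f)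
    (hA' : ∀ f, A' * al' f = al f * A') (hB' : ∀ f, B' * al' f = al f * B')
    (hAA : A' * A = al ((l : R) + 1)) (hBB : B' * B = al ((l : R) + 1))
    (hAB : A' * B = Tm) (hBA : B' * A = Tm)
    (L1 L2 : Matrix (Fin d) (Fin d') Λ)
    (hL1A : L1 * A = 1) (hL1B : L1 * B = 0) (hL2A : L2 * A = 0) (hL2B : L2 * B = 1)
    (V1 : Matrix (Fin d') (Fin d) Λ) (hAV : A' * V1 = 1) (hBV : B' * V1 = 0)
    (r : R) (Y1 Y2 : Matrix (Fin d) (Fin d') Λ) (hY : al' r = A * Y1 + B * Y2) :
    ∃ (p : Matrix (Fin e) (Fin d') Λ) (q : Matrix (Fin d') (Fin e) Λ)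
      (alN : R →+* Matrix (Fin e) (Fin e) Λ),
      p * q = 1 ∧ (∀ f, p * al' f = alN f * p) ∧
      (A' - ε • B') * V1 = 1 ∧ (∀ f, (A' - ε • B') * al' f = al f * (A' - ε • B')) ∧
      (A' - ε • B') * (1 - q * p) = (al ((l : R) + 1) - ε • Tm) * (L1 - ε • L2) ∧
      alN r = 0 ∧
      (∀ f, (al ((l : R) + 1) - ε • Tm) * al f = al f * (al ((l : R) + 1) - ε • Tm)) := by
  classical
  have hLI : Matrix.fromRows L1 L2 * Matrix.fromCols A B = 1 := by
    rw [Matrix.fromRows_mul_fromCols, hL1A, hL1B, hL2A, hL2B, Matrix.fromBlocks_one]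
  have hIL : Matrix.fromCols A B * Matrix.fromRows L1 L2 = A * L1 + B * L2 :=
    Matrix.fromCols_mul_fromRows A B L1 L2
  have hcard : e + Fintype.card (Fin d ⊕ Fin d) = d' := by
    rw [Fintype.card_sum, Fintype.card_fin]
    omega
  obtain ⟨p, q, hpq, hqp⟩ := m59eo_abs_idem (Λ := Λ) hcard _ _ hLI
  rw [hIL] at hqp
  have hPA : q * p * A = 0 := by
    rw [hqp, Matrix.sub_mul, Matrix.one_mul, Matrix.add_mul, Matrix.mul_assoc, Matrix.mul_assoc,
      hL1A, hL2A, Matrix.mul_one, Matrix.mul_zero, add_zero, sub_self]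
  have hPB : q * p * B = 0 := by
    rw [hqp, Matrix.sub_mul, Matrix.one_mul, Matrix.add_mul, Matrix.mul_assoc, Matrix.mul_assoc,
      hL1B, hL2B, Matrix.mul_one, Matrix.mul_zero, zero_add, sub_self]
  have hpA : p * A = 0 := by
    have : p * (q * p * A) = 0 := by rw [hPA, Matrix.mul_zero]
    rwa [← Matrix.mul_assoc, ← Matrix.mul_assoc, hpq, Matrix.one_mul] at this
  have hpB : p * B = 0 := by
    have : p * (q * p * B) = 0 := by rw [hPB, Matrix.mul_zero]
    rwa [← Matrix.mul_assoc, ← Matrix.mul_assoc, hpq, Matrix.one_mul] at this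
  have hst : ∀ f, q * p * al' f = q * p * al' f * (q * p) := by
    intro f
    have h1 : q * p * al' f * (A * L1 + B * L2) = 0 := by
      rw [Matrix.mul_add, Matrix.mul_assoc (q * p) (al' f) (A * L1),
        Matrix.mul_assoc (q * p) (al' f) (B * L2), ← Matrix.mul_assoc (al' f) A L1,
        ← Matrix.mul_assoc (al' f) B L2, hA f, hB f, Matrix.mul_assoc A, Matrix.mul_assoc B,
        ← Matrix.mul_assoc (q * p) A, ← Matrix.mul_assoc (q * p) B, hPA, hPB, Matrix.zero_mul,
        Matrix.zero_mul, add_zero]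
    calc q * p * al' f = q * p * al' f * 1 - q * p * al' f * (A * L1 + B * L2) := by
          rw [h1, sub_zero, Matrix.mul_one]
      _ = q * p * al' f * (1 - (A * L1 + B * L2)) := by rw [Matrix.mul_sub]
      _ = q * p * al' f * (q * p) := by rw [← hqp]
  obtain ⟨alN, halN⟩ := m59eo_abs_compress al' p q hpq hst
  have hpP : p * (q * p) = p := by rw [← Matrix.mul_assoc, hpq, Matrix.one_mul]
  have hTc := m59p_abs_Tm_comm al al' B A' Tm hB hA' hAB
  refine ⟨p, q, alN, hpq, ?_, ?_, ?_, ?_, ?_, ?_⟩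
  · intro f
    rw [halN f]
    have h1 : p * al' f * (q * p) = p * al' f := by
      calc p * al' f * (q * p) = p * (q * p * al' f * (q * p)) := by
            rw [← Matrix.mul_assoc p, ← Matrix.mul_assoc p, hpP]
        _ = p * (q * p * al' f) := by rw [← hst f]
        _ = p * al' f := by rw [← Matrix.mul_assoc p, hpP]
    calc p * al' f = p * al' f * (q * p) := h1.symm
      _ = p * al' f * q * p := by rw [← Matrix.mul_assoc]
  · rw [Matrix.sub_mul, Matrix.smul_mul, hAV, hBV, smul_zero, sub_zero]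
  · intro f
    rw [Matrix.sub_mul, Matrix.smul_mul, hA' f, hB' f, Matrix.mul_sub, Matrix.mul_smul]
  · have hεε : ∀ X : Matrix (Fin d) (Fin d') Λ, ε • ε • X = X := by
      intro X
      rw [smul_smul, hε, one_smul]
    rw [hqp, sub_sub_cancel]
    have e1 : (A' - ε • B') * (A * L1 + B * L2) =
        (A' * A) * L1 - ε • ((B' * A) * L1) + ((A' * B) * L2 - ε • ((B' * B) * L2)) := by
      rw [Matrix.mul_add, Matrix.sub_mul, Matrix.sub_mul, Matrix.smul_mul, Matrix.smul_mul,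
        Matrix.mul_assoc, Matrix.mul_assoc, Matrix.mul_assoc, Matrix.mul_assoc]
    have e2 : (al ((l : R) + 1) - ε • Tm) * (L1 - ε • L2) =
        al ((l : R) + 1) * L1 - ε • (Tm * L1) +
          (ε • ε • (Tm * L2) - ε • (al ((l : R) + 1) * L2)) := by
      rw [Matrix.sub_mul, Matrix.mul_sub, Matrix.mul_sub, Matrix.smul_mul, Matrix.smul_mul,
        Matrix.mul_smul, Matrix.mul_smul]
      abel
    rw [e1, e2, hAA, hBB, hAB, hBA, hεε]
  · rw [halN, hY, Matrix.mul_add, ← Matrix.mul_assoc p A, ← Matrix.mul_assoc p B, hpA, hpB,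
      Matrix.zero_mul, Matrix.zero_mul, add_zero, Matrix.zero_mul]
  · intro f
    rw [Matrix.sub_mul, Matrix.mul_sub, Matrix.smul_mul, Matrix.mul_smul, hTc f, ← map_mul,
      ← map_mul, mul_comm]

/-- **THE ONE-STEP DATUM AT `p`, Nakayama form.** -/
theorem m59p_abs_stepP_nak {d d' e : ℕ} (he : e + 2 * d = d')
    (al : R →+* Matrix (Fin d) (Fin d) Λ) (al' : R →+* Matrix (Fin d') (Fin d') Λ)
    (A B : Matrix (Fin d') (Fin d) Λ) (A' B' : Matrix (Fin d) (Fin d') Λ)
    (l : ℕ) (ε : ℤ) (hε : ε * ε = 1) (Tm : Matrix (Fin d) (Fin d) Λ)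
    (hA : ∀ f, al' f * A = A * al f) (hB : ∀ f, al' f * B = B * al f)
    (hA' : ∀ f, A' * al' f = al f * A') (hB' : ∀ f, B' * al' f = al f * B')
    (hAA : A' * A = al ((l : R) + 1)) (hBB : B' * B = al ((l : R) + 1))
    (hAB : A' * B = Tm) (hBA : B' * A = Tm)
    (hinj : Function.Injective ((Matrix.fromCols A B).map (IsLocalRing.residue Λ)).mulVec)
    (hsurj : Function.Surjective ((Matrix.fromRows A' B').map (IsLocalRing.residue Λ)).mulVec)
    (r : R) (hY : ∃ Y : Matrix (Fin d ⊕ Fin d) (Fin d') Λ, al' r = Matrix.fromCols A B * Y) :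
    ∃ (p : Matrix (Fin e) (Fin d') Λ) (q : Matrix (Fin d') (Fin e) Λ)
      (alN : R →+* Matrix (Fin e) (Fin e) Λ) (ρ' : Matrix (Fin d') (Fin d) Λ)
      (Z : Matrix (Fin d) (Fin d') Λ),
      p * q = 1 ∧ (∀ f, p * al' f = alN f * p) ∧
      (A' - ε • B') * ρ' = 1 ∧ (∀ f, (A' - ε • B') * al' f = al f * (A' - ε • B')) ∧
      (A' - ε • B') * (1 - q * p) = (al ((l : R) + 1) - ε • Tm) * Z ∧
      alN r = 0 ∧
      (∀ f, (al ((l : R) + 1) - ε • Tm) * al f = al f * (al ((l : R) + 1) - ε • Tm)) := by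
  classical
  obtain ⟨L, hL⟩ := m59eo_abs_nak_left _ hinj
  obtain ⟨V, hV⟩ := m59eo_abs_nak_right _ hsurj
  obtain ⟨Y, hY⟩ := hY
  rw [← Matrix.fromRows_toRows L, Matrix.fromRows_mul_fromCols, ← Matrix.fromBlocks_one,
    Matrix.fromBlocks_inj] at hL
  rw [← Matrix.fromCols_toCols V, Matrix.fromRows_mul_fromCols, ← Matrix.fromBlocks_one,
    Matrix.fromBlocks_inj] at hV
  rw [← Matrix.fromRows_toRows Y, Matrix.fromCols_mul_fromRows] at hY
  obtain ⟨p, q, alN, h1, h2, h3, h4, h5, h6, h7⟩ :=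
    m59p_abs_stepP he al al' A B A' B' l ε hε Tm hA hB hA' hB' hAA hBB hAB hBA
      L.toRows₁ L.toRows₂ hL.1 hL.2.1 hL.2.2.1 hL.2.2.2 V.toCols₁ hV.1 hV.2.2.1
      r Y.toRows₁ Y.toRows₂ hY
  exact ⟨p, q, alN, V.toCols₁, L.toRows₁ - ε • L.toRows₂, h1, h2, h3, h4, h5, h6, h7⟩

omit [IsLocalRing Λ] in
/-- **(ES-p)₀ ⟹ `X_nil`**: if `al z * Tm - al (z² + l)` is nilpotent of exponent `E`, `z zi = 1`,
and `Tm` commutes with `al`, then `X := al (l + 1) - ε Tm` has `(X - al s)^E = 0` for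
`s := (l + 1) - ε (z + l zi)`. -/
theorem m59p_abs_X_nil {d : ℕ} (al : R →+* Matrix (Fin d) (Fin d) Λ)
    (l : ℕ) (ε : ℤ) (Tm : Matrix (Fin d) (Fin d) Λ) (hT : ∀ f, Tm * al f = al f * Tm)
    (z zi : R) (hz : z * zi = 1) (E : ℕ)
    (hnil : (al z * Tm - al (z ^ 2 + (l : R))) ^ E = 0) :
    ((al ((l : R) + 1) - ε • Tm) - al (((l : R) + 1) - ε • (z + (l : R) * zi))) ^ E = 0 := by
  have h1 : (al ((l : R) + 1) - ε • Tm) - al (((l : R) + 1) - ε • (z + (l : R) * zi)) =
      (-ε) • (al zi * (al z * Tm - al (z ^ 2 + (l : R)))) := by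
    have h2 : al zi * (al z * Tm - al (z ^ 2 + (l : R))) = Tm - al (z + (l : R) * zi) := by
      rw [Matrix.mul_sub, ← Matrix.mul_assoc, ← map_mul, ← map_mul, mul_comm zi z, hz, map_one,
        Matrix.one_mul]
      congr 2
      have : zi * (z ^ 2 + (l : R)) = z * (z * zi) + (l : R) * zi := by ring
      rw [this, hz, mul_one]
    rw [h2, map_sub, map_zsmul]
    rw [neg_smul, smul_sub]
    abel
  have hc : Commute (al zi) (al z * Tm - al (z ^ 2 + (l : R))) := by
    refine Commute.sub_right ?_ ?_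
    · refine Commute.mul_right ?_ ?_
      · show al zi * al z = al z * al zi
        rw [← map_mul, ← map_mul, mul_comm]
      · exact (hT zi).symm
    · show al zi * al (z ^ 2 + (l : R)) = al (z ^ 2 + (l : R)) * al zi
      rw [← map_mul, ← map_mul, mul_comm]
  rw [h1, smul_pow, hc.mul_pow, hnil, mul_zero, smul_zero]

end stepP

end Fermat.Agent.M59
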