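/-
Project M59 (S59), block [P-STEP] = AtP (architect helper10), LAYER 2: THE ALGEBRA OF (ES-p)₀, tag
`m59p_`.

`m59p_esp_alg`: `P₀` a free `𝒪[Δ]`-module (orbit basis `b₀`), `ψ₀ : T → End_𝒪 P₀` a commutative
Hecke action commuting with `Δ`, `Tp` an endomorphism of `P₀` commuting with `Δ` and with `ψ₀`,
`a b : T`.  If over an algebraically closed field `K ⊇ 𝒪` every common eigenvector `v` of `T` in
`K ⊗ P₀` (eigensystem `χ`) satisfies `χ(a) · Tp v = χ(b) · v`, then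
`(ψ₀ a ∘ Tp − ψ₀ b) ^ rank_{𝒪[Δ]} P₀ = 0`.

Route (helper22's [AlgJH], [AlgNew]): the commutative ring `T[X]` acts on `K ⊗ P₀` through `X ↦ Tp`;
`a X − b` kills every common eigenvector, hence is nilpotent (`m59epa_nil_on`); `𝒪[Δ]` is reduced, so
the `rank`-th power vanishes (`m59epa_pow_rank`).
-/
import Mathlib
import Fermat.Agent.M59.EP.AlgNew

set_option autoImplicit false
set_option linter.unusedSectionVars false
set_option linter.style.haveILetI false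

namespace Fermat.Agent.M59

open Fermat.Agent.TW TensorProduct Module Polynomial

noncomputable section

section alg

variable {𝒪 : Type*} [CommRing 𝒪] [IsDomain 𝒪] [IsLocalRing 𝒪] [CharZero 𝒪]
  {Δ : Type*} [CommGroup Δ] [Finite Δ]
  {P₀ : Type*} [AddCommGroup P₀] [Module 𝒪 P₀]
  {ι₀ : Type*} [Fintype ι₀]
  {T : Type*} [CommRing T] [Algebra 𝒪 T]

/-- **THE ALGEBRA OF (ES-p)₀**: see the header. -/
theorem m59p_esp_alg {K : Type*} [Field K] [IsAlgClosed K] [Algebra 𝒪 K]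
    (hK : Function.Injective (algebraMap 𝒪 K))
    (ρ₀ : Representation 𝒪 Δ P₀) (v₀ : ι₀ → P₀)
    (b₀ : Module.Basis (Δ × ι₀) 𝒪 P₀) (hb₀ : ∀ δ i, b₀ (δ, i) = ρ₀ δ (v₀ i))
    (ψ₀ : T →ₐ[𝒪] Module.End 𝒪 P₀)
    (comm₀ : ∀ x δ m, ψ₀ x (ρ₀ δ m) = ρ₀ δ (ψ₀ x m))
    (Tp : Module.End 𝒪 P₀) (hTρ : ∀ δ m, Tp (ρ₀ δ m) = ρ₀ δ (Tp m))
    (hTψ : ∀ x m, Tp (ψ₀ x m) = ψ₀ x (Tp m)) (a b : T)
    (hpt : ∀ (χ : T →ₐ[𝒪] K) (v : K ⊗[𝒪] P₀), v ≠ 0 →
      (∀ x, (ψ₀ x).baseChange K v = χ x • v) → χ a • Tp.baseChange K v = χ b • v) :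
    (ψ₀ a * Tp - ψ₀ b) ^ Fintype.card ι₀ = 0 := by
  classical
  haveI : Module.Finite 𝒪 P₀ := Module.Finite.of_basis b₀
  haveI : Module.Free 𝒪 P₀ := Module.Free.of_basis b₀
  haveI : FaithfulSMul 𝒪 K := (faithfulSMul_iff_algebraMap_injective 𝒪 K).2 hK
  let Y : Module.End 𝒪 P₀ := ψ₀ a * Tp - ψ₀ b
  -- over `K`
  let φ₀ : T →+* Module.End K (K ⊗[𝒪] P₀) :=
    ((Module.End.baseChangeHom 𝒪 K P₀ : Module.End 𝒪 P₀ →ₐ[𝒪] _) : Module.End 𝒪 P₀ →+* _).comp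
      (ψ₀ : T →+* Module.End 𝒪 P₀)
  have hφ₀ : ∀ x, φ₀ x = (ψ₀ x).baseChange K := fun x => rfl
  have hφ𝒪 : ∀ (c : 𝒪) (w : K ⊗[𝒪] P₀), φ₀ (algebraMap 𝒪 T c) w = algebraMap 𝒪 K c • w := by
    intro c w
    rw [hφ₀, AlgHom.commutes, Algebra.algebraMap_eq_smul_one, LinearMap.baseChange_smul,
      LinearMap.baseChange_one, LinearMap.smul_apply, Module.End.one_apply, algebraMap_smul]
  let TK : Module.End K (K ⊗[𝒪] P₀) := Tp.baseChange K
  have hcomm : ∀ x, Commute (φ₀ x) TK := by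
    intro x
    have h0 : (ψ₀ x) ∘ₗ Tp = Tp ∘ₗ (ψ₀ x) := LinearMap.ext fun m => (hTψ x m).symm
    show (ψ₀ x).baseChange K * Tp.baseChange K = Tp.baseChange K * (ψ₀ x).baseChange K
    rw [Module.End.mul_eq_comp, Module.End.mul_eq_comp, ← LinearMap.baseChange_comp,
      ← LinearMap.baseChange_comp, h0]
  let φ : T[X] →+* Module.End K (K ⊗[𝒪] P₀) := Polynomial.eval₂RingHom' φ₀ TK hcomm
  have hφC : ∀ x, φ (C x) = φ₀ x := fun x => Polynomial.eval₂_C _ _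
  have hφX : φ X = TK := Polynomial.eval₂_X _ _
  let X' : T[X] := C a * X - C b
  have hφX' : φ X' = φ₀ a * TK - φ₀ b := by
    show φ (C a * X - C b) = _
    rw [map_sub, map_mul, hφC, hφC, hφX]
  have hYK : Y.baseChange K = φ X' := by
    rw [hφX', hφ₀, hφ₀]
    show (ψ₀ a * Tp - ψ₀ b).baseChange K = _
    rw [LinearMap.baseChange_sub, Module.End.mul_eq_comp, LinearMap.baseChange_comp]
    rfl
  have hnil := m59epa_nil_on φ ⊤ (fun _ _ _ => Submodule.mem_top) X' (by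
    intro v _ hv0 hv1
    have hv1' : ∀ x, ∃ c : K, φ₀ x v = c • v := fun x => by
      obtain ⟨c, hc⟩ := hv1 (C x)
      exact ⟨c, by rw [← hφC, hc]⟩
    obtain ⟨χ, hχ⟩ := m59epa_eigenchar (𝒪 := 𝒪) φ₀ hφ𝒪 v hv0 hv1'
    have h0 := hpt χ v hv0 (fun x => hχ x)
    rw [hφX', LinearMap.sub_apply, Module.End.mul_apply]
    have h1 : φ₀ a (TK v) = TK (φ₀ a v) := by
      have := (hcomm a).eq
      rw [← Module.End.mul_apply, this, Module.End.mul_apply]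
    rw [h1, hχ a, map_smul, hχ b, h0, sub_self])
  -- `Y` is nilpotent
  have hYnil : IsNilpotent Y := by
    refine ⟨finrank K (K ⊗[𝒪] P₀), ?_⟩
    have h1 : (Y ^ finrank K (K ⊗[𝒪] P₀)).baseChange K = 0 := by
      rw [LinearMap.baseChange_pow, hYK]
      refine LinearMap.ext fun w => ?_
      rw [LinearMap.zero_apply]
      exact hnil w Submodule.mem_top
    refine LinearMap.ext fun m => ?_
    have h2 := LinearMap.congr_fun h1 ((1 : K) ⊗ₜ[𝒪] m)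
    rw [LinearMap.baseChange_tmul, LinearMap.zero_apply] at h2
    rw [LinearMap.zero_apply]
    apply Module.Flat.tensorProduct_mk_injective 𝒪 P₀ K
    rw [TensorProduct.mk_apply, h2, map_zero]
  have hYeq : ∀ δ m, Y (ρ₀ δ m) = ρ₀ δ (Y m) := by
    intro δ m
    show ψ₀ a (Tp (ρ₀ δ m)) - ψ₀ b (ρ₀ δ m) = ρ₀ δ (ψ₀ a (Tp m) - ψ₀ b m)
    rw [hTρ, comm₀, comm₀, map_sub]
  exact m59epa_pow_rank ρ₀ v₀ b₀ hb₀ Y hYeq hYnil

end alg

end

end Fermat.Agent.M59
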