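/-
Project M59 (S59), block [P-STEP] = AtP (architect helper10), cell [P-ASM], tag `m59p_`.

THE P-LEVEL INTERFACE OF THE STEP AT `l = p` (twin of helper3's `m59eps_StepData`, M59/EP/Asm.lean): for
two level data `D₀ : twe_mk_LevelData B₀ p Q`, `D₁ : twe_mk_LevelData B₁ p Q` with the SAME bad set
`S ∋ p`, the structure `m59p_StepDataP D₀ D₁` carries the four operators, the Betti operator `Tp` of the
lower level and the properties (I1), (I2), (ES-p)₀, (I3) at `p` in the language of the fields `P`, `ψ`,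
`ρ` of the data, and `m59p_StepDataP.toStepP` converts it into `m59p_StepP D₀.toLevel D₁.toLevel`
(M59/AtP/Seams.lean; pure plumbing).
-/
import Mathlib
import Fermat.Agent.TW.Aut.SeamMk
import Fermat.Agent.M59.EP.Asm
import Fermat.Agent.M59.AtP.Seams

set_option autoImplicit false
set_option linter.unusedSectionVars false

namespace Fermat.Agent.M59

open Polynomial CuspForm IsLocalRing Fermat.Agent.JT3 Fermat.Agent.TW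

noncomputable section

variable {𝒪 : Type} [CommRing 𝒪] [IsDomain 𝒪] [IsDiscreteValuationRing 𝒪]
  [IsAdicComplete (maximalIdeal 𝒪) 𝒪]
  {N₀ N₁ : ℕ} [NeZero N₀] [NeZero N₁] {S : Finset ℕ}
  {θ₀ : heckeAlgebra N₀ 2 (↑S : Set ℕ) →+* ResidueField 𝒪}
  {θ₁ : heckeAlgebra N₁ 2 (↑S : Set ℕ) →+* ResidueField 𝒪}
  {B₀ : twe_Base 𝒪 N₀ S θ₀} {B₁ : twe_Base 𝒪 N₁ S θ₁} {p : ℕ} {Q : Finset ℕ}
  [NeZero (twe_Nbal N₀ Q ∅)] [NeZero (twe_Nbal N₁ Q ∅)]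

/-- **the step at `l = p` at the level of the data** (`P`, `ψ`, `ρ`): the fields of `m59p_StepP` before
the passage to `ρ.asModule`. -/
structure m59p_StepDataP (D₀ : twe_mk_LevelData B₀ p Q) (D₁ : twe_mk_LevelData B₁ p Q) :
    Type where
  πT : D₁.B'.T →ₐ[𝒪] D₀.B'.T
  πT_T : ∀ (q : ℕ) (hq : q.Prime) (h1 : ¬ q ∣ twe_Nbal N₁ Q ∅) (h2 : q ∉ (↑(S ∪ Q) : Set ℕ))
    (h3 : ¬ q ∣ twe_Nbal N₀ Q ∅),
    πT (D₁.B'.H.π (heckeAlgebra.T hq h1 h2)) = D₀.B'.H.π (heckeAlgebra.T hq h3 h2)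
  A : D₀.P →ₗ[𝒪] D₁.P
  B : D₀.P →ₗ[𝒪] D₁.P
  At : D₁.P →ₗ[𝒪] D₀.P
  Bt : D₁.P →ₗ[𝒪] D₀.P
  Tp : D₀.P →ₗ[𝒪] D₀.P
  A_dia : ∀ (δ : twe_Delta p Q) (m : D₀.P), A (D₀.ρ δ m) = D₁.ρ δ (A m)
  B_dia : ∀ (δ : twe_Delta p Q) (m : D₀.P), B (D₀.ρ δ m) = D₁.ρ δ (B m)
  At_dia : ∀ (δ : twe_Delta p Q) (m : D₁.P), At (D₁.ρ δ m) = D₀.ρ δ (At m)
  Bt_dia : ∀ (δ : twe_Delta p Q) (m : D₁.P), Bt (D₁.ρ δ m) = D₀.ρ δ (Bt m)
  A_hecke : ∀ (x : D₁.B'.T) (m : D₀.P), D₁.ψ x (A m) = A (D₀.ψ (πT x) m)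
  B_hecke : ∀ (x : D₁.B'.T) (m : D₀.P), D₁.ψ x (B m) = B (D₀.ψ (πT x) m)
  At_hecke : ∀ (x : D₁.B'.T) (m : D₁.P), At (D₁.ψ x m) = D₀.ψ (πT x) (At m)
  Bt_hecke : ∀ (x : D₁.B'.T) (m : D₁.P), Bt (D₁.ψ x m) = D₀.ψ (πT x) (Bt m)
  At_A : ∀ m : D₀.P, At (A m) = ((p : 𝒪) + 1) • m
  Bt_B : ∀ m : D₀.P, Bt (B m) = ((p : 𝒪) + 1) • m
  At_B : ∀ m : D₀.P, At (B m) = Tp m
  Bt_A : ∀ m : D₀.P, Bt (A m) = Tp m
  /-- (I1) -/
  split : ∃ r : D₁.P →ₗ[𝒪] D₀.P × D₀.P,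
    (∀ (δ : twe_Delta p Q) (m : D₁.P), r (D₁.ρ δ m) = (D₀.ρ δ (r m).1, D₀.ρ δ (r m).2)) ∧
    ∀ x y : D₀.P, r (A x + B y) = (x, y)
  /-- (I2) -/
  onto : ∀ x y : D₀.P, ∃ m : D₁.P, At m = x ∧ Bt m = y
  /-- (ES-p)₀ -/
  esp : ∀ P : ValuationSubring (AlgebraicClosure ℚ), P.LiesOverPrime p →
    ∀ σ : AlgebraicClosure ℚ ≃ₐ[ℚ] AlgebraicClosure ℚ, P.IsFrobeniusAt σ p →
    ∀ z : D₀.B'.T, m59p_IsUrEig D₀.B'.H.ρ P σ z →
    ∀ m : D₀.P, ((fun m' : D₀.P => D₀.ψ z (Tp m') - D₀.ψ (z ^ 2 + (p : D₀.B'.T)) m')^[B₀.d *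
      2 ^ Q.card]) m = 0
  /-- (I3) at `p` -/
  new : ∀ P : ValuationSubring (AlgebraicClosure ℚ), P.LiesOverPrime p →
    ∀ σ : AlgebraicClosure ℚ ≃ₐ[ℚ] AlgebraicClosure ℚ, P.IsFrobeniusAt σ p →
    ∀ z' : D₁.B'.T, m59p_IsUrEig D₁.B'.H.ρ P σ z' →
    ∀ m : D₁.P, ∃ x y : D₀.P, D₁.ψ ((z' ^ 2 - 1) ^ (B₁.d * 2 ^ Q.card)) m = A x + B y

variable {D₀ : twe_mk_LevelData B₀ p Q} {D₁ : twe_mk_LevelData B₁ p Q}

/-- transport of the iterate of `z T_p - (z² + p)` through `asModuleEquiv`. -/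
theorem m59p_esp_aux (D₀ : twe_mk_LevelData B₀ p Q) (Tp : D₀.P →ₗ[𝒪] D₀.P)
    (Tp' : D₀.toLevel.M →ₗ[𝒪] D₀.toLevel.M)
    (hT : ∀ m : D₀.toLevel.M, D₀.ρ.asModuleEquiv (Tp' m) = Tp (D₀.ρ.asModuleEquiv m))
    (z : D₀.toLevel.T') (n : ℕ) (m : D₀.toLevel.M) :
    D₀.ρ.asModuleEquiv (((fun m' : D₀.toLevel.M => z • Tp' m' -
        (z ^ 2 + (p : D₀.toLevel.T')) • m')^[n]) m) =
      ((fun m' : D₀.P => D₀.ψ z (Tp m') - D₀.ψ (z ^ 2 + (p : D₀.toLevel.T')) m')^[n])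
        (D₀.ρ.asModuleEquiv m) := by
  induction n generalizing m with
  | zero => rfl
  | succ n ih =>
    rw [Function.iterate_succ_apply, Function.iterate_succ_apply, ih]
    congr 1
    rw [twe_mk_toLevel_smul, twe_mk_toLevel_smul]
    refine ((D₀.ρ.asModuleEquiv).map_sub _ _).trans ?_
    exact congrArg₂ (· - ·)
      (((D₀.ρ.asModuleEquiv).apply_symm_apply _).trans (congrArg (D₀.ψ z) (hT m)))
      ((D₀.ρ.asModuleEquiv).apply_symm_apply _)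

/-- **[P-ASM], the converter**: the `p`-step between the levels built from the data. -/
def m59p_StepDataP.toStepP (X : m59p_StepDataP D₀ D₁) :
    m59p_StepP D₀.toLevel D₁.toLevel where
  πT := X.πT
  πT_T := X.πT_T
  A := m59eps_lift D₀.ρ D₁.ρ X.A
  B := m59eps_lift D₀.ρ D₁.ρ X.B
  At := m59eps_lift D₁.ρ D₀.ρ X.At
  Bt := m59eps_lift D₁.ρ D₀.ρ X.Bt
  Tp := m59eps_lift D₀.ρ D₀.ρ X.Tp
  A_dia := m59eps_lift_dia D₀.ρ D₁.ρ X.A X.A_dia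
  B_dia := m59eps_lift_dia D₀.ρ D₁.ρ X.B X.B_dia
  At_dia := m59eps_lift_dia D₁.ρ D₀.ρ X.At X.At_dia
  Bt_dia := m59eps_lift_dia D₁.ρ D₀.ρ X.Bt X.Bt_dia
  A_hecke := fun x m => by
    rw [twe_mk_toLevel_smul, twe_mk_toLevel_smul]
    change D₁.ρ.asModuleEquiv.symm (D₁.ψ x (D₁.ρ.asModuleEquiv
        (D₁.ρ.asModuleEquiv.symm (X.A (D₀.ρ.asModuleEquiv m))))) =
      D₁.ρ.asModuleEquiv.symm (X.A (D₀.ρ.asModuleEquiv
        (D₀.ρ.asModuleEquiv.symm (D₀.ψ (X.πT x) (D₀.ρ.asModuleEquiv m)))))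
    rw [LinearEquiv.apply_symm_apply, LinearEquiv.apply_symm_apply, X.A_hecke]
  B_hecke := fun x m => by
    rw [twe_mk_toLevel_smul, twe_mk_toLevel_smul]
    change D₁.ρ.asModuleEquiv.symm (D₁.ψ x (D₁.ρ.asModuleEquiv
        (D₁.ρ.asModuleEquiv.symm (X.B (D₀.ρ.asModuleEquiv m))))) =
      D₁.ρ.asModuleEquiv.symm (X.B (D₀.ρ.asModuleEquiv
        (D₀.ρ.asModuleEquiv.symm (D₀.ψ (X.πT x) (D₀.ρ.asModuleEquiv m)))))
    rw [LinearEquiv.apply_symm_apply, LinearEquiv.apply_symm_apply, X.B_hecke]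
  At_hecke := fun x m => by
    rw [twe_mk_toLevel_smul, twe_mk_toLevel_smul]
    change D₀.ρ.asModuleEquiv.symm (X.At (D₁.ρ.asModuleEquiv
        (D₁.ρ.asModuleEquiv.symm (D₁.ψ x (D₁.ρ.asModuleEquiv m))))) =
      D₀.ρ.asModuleEquiv.symm (D₀.ψ (X.πT x) (D₀.ρ.asModuleEquiv
        (D₀.ρ.asModuleEquiv.symm (X.At (D₁.ρ.asModuleEquiv m)))))
    rw [LinearEquiv.apply_symm_apply, LinearEquiv.apply_symm_apply, X.At_hecke]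
  Bt_hecke := fun x m => by
    rw [twe_mk_toLevel_smul, twe_mk_toLevel_smul]
    change D₀.ρ.asModuleEquiv.symm (X.Bt (D₁.ρ.asModuleEquiv
        (D₁.ρ.asModuleEquiv.symm (D₁.ψ x (D₁.ρ.asModuleEquiv m))))) =
      D₀.ρ.asModuleEquiv.symm (D₀.ψ (X.πT x) (D₀.ρ.asModuleEquiv
        (D₀.ρ.asModuleEquiv.symm (X.Bt (D₁.ρ.asModuleEquiv m)))))
    rw [LinearEquiv.apply_symm_apply, LinearEquiv.apply_symm_apply, X.Bt_hecke]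
  At_A := fun m => by
    change D₀.ρ.asModuleEquiv.symm (X.At (D₁.ρ.asModuleEquiv
        (D₁.ρ.asModuleEquiv.symm (X.A (D₀.ρ.asModuleEquiv m))))) = _
    rw [LinearEquiv.apply_symm_apply, X.At_A, m59eps_smul_symm, LinearEquiv.symm_apply_apply]
    rfl
  Bt_B := fun m => by
    change D₀.ρ.asModuleEquiv.symm (X.Bt (D₁.ρ.asModuleEquiv
        (D₁.ρ.asModuleEquiv.symm (X.B (D₀.ρ.asModuleEquiv m))))) = _
    rw [LinearEquiv.apply_symm_apply, X.Bt_B, m59eps_smul_symm, LinearEquiv.symm_apply_apply]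
    rfl
  At_B := fun m => by
    change D₀.ρ.asModuleEquiv.symm (X.At (D₁.ρ.asModuleEquiv
        (D₁.ρ.asModuleEquiv.symm (X.B (D₀.ρ.asModuleEquiv m))))) =
      D₀.ρ.asModuleEquiv.symm (X.Tp (D₀.ρ.asModuleEquiv m))
    rw [LinearEquiv.apply_symm_apply, X.At_B]
  Bt_A := fun m => by
    change D₀.ρ.asModuleEquiv.symm (X.Bt (D₁.ρ.asModuleEquiv
        (D₁.ρ.asModuleEquiv.symm (X.A (D₀.ρ.asModuleEquiv m))))) =
      D₀.ρ.asModuleEquiv.symm (X.Tp (D₀.ρ.asModuleEquiv m))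
    rw [LinearEquiv.apply_symm_apply, X.Bt_A]
  split := by
    obtain ⟨r, hr1, hr2⟩ := X.split
    exact m59eps_split_aux D₀.ρ D₁.ρ X.A X.B r hr1 hr2
  onto := fun x y => by
    obtain ⟨m, h1, h2⟩ := X.onto (D₀.ρ.asModuleEquiv x) (D₀.ρ.asModuleEquiv y)
    refine ⟨D₁.ρ.asModuleEquiv.symm m, ?_, ?_⟩
    · change D₀.ρ.asModuleEquiv.symm (X.At (D₁.ρ.asModuleEquiv (D₁.ρ.asModuleEquiv.symm m))) = _
      rw [LinearEquiv.apply_symm_apply, h1, LinearEquiv.symm_apply_apply]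
    · change D₀.ρ.asModuleEquiv.symm (X.Bt (D₁.ρ.asModuleEquiv (D₁.ρ.asModuleEquiv.symm m))) = _
      rw [LinearEquiv.apply_symm_apply, h2, LinearEquiv.symm_apply_apply]
  esp := fun P hP σ hσ z hz m => by
    have h := X.esp P hP σ hσ z hz (D₀.ρ.asModuleEquiv m)
    apply D₀.ρ.asModuleEquiv.injective
    refine (m59p_esp_aux D₀ X.Tp (m59eps_lift D₀.ρ D₀.ρ X.Tp)
      (fun m' => ?_) z (B₀.d * 2 ^ Q.card) m).trans (h.trans (map_zero _).symm)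
    exact (D₀.ρ.asModuleEquiv).apply_symm_apply _
  new := fun P hP σ hσ z' hz' m => by
    obtain ⟨x, y, h⟩ := X.new P hP σ hσ z' hz' (D₁.ρ.asModuleEquiv m)
    refine ⟨D₀.ρ.asModuleEquiv.symm x, D₀.ρ.asModuleEquiv.symm y, ?_⟩
    rw [twe_mk_toLevel_smul]
    change D₁.ρ.asModuleEquiv.symm _ =
      D₁.ρ.asModuleEquiv.symm (X.A (D₀.ρ.asModuleEquiv (D₀.ρ.asModuleEquiv.symm x))) +
        D₁.ρ.asModuleEquiv.symm (X.B (D₀.ρ.asModuleEquiv (D₀.ρ.asModuleEquiv.symm y)))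
    rw [LinearEquiv.apply_symm_apply, LinearEquiv.apply_symm_apply, ← map_add, ← h]
    rfl

end

end Fermat.Agent.M59
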