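/-
S59 project, block [AtP] (helper10; prefix `m59p_`): twin of `MZ/Geo/PtSet.lean` with a NINTH export,
the CONVERSE of [GEO-SEP]: if `r_* Z - r_* Z'` is principal on the special fibre then the symmetric
functions of the reduced points of `D_z`, `D_z'` agree.  Headline: `m59p_pt_abs`.
-/
import Mathlib
import Fermat.Agent.MZ.Geo.PtSet

set_option autoImplicit false
set_option linter.style.haveILetI false
set_option linter.unusedSectionVars false

noncomputable section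

namespace Fermat.Agent.M59

open Fermat.Agent.MZ

open ModularCurve AlgebraicCurve IntermediateField Fermat.Agent.JT3 Fermat.Agent.S24
  Fermat.Agent.FF
open scoped TensorProduct

/-! ### the statement -/

/-- **[G-PT], abstract**: `ffi_pt_SeamABS` for a finite set of classes. -/
def m59p_pt_AbsStmt : Prop :=
  ∀ (O : Type) [CommRing O] [IsDomain O] [IsDiscreteValuationRing O]
    (𝒜 : Type) [CommRing 𝒜] [Algebra O 𝒜] (C : Type) [CommRing C] [Algebra O C] (π : O)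
    (Kb : Type) [Field Kb] [IsAlgClosed Kb] [Algebra O Kb]
    (κ : Type) [Field κ] [IsAlgClosed κ] [Algebra O κ]
    (Λ : ℕ → Submodule O 𝒜) (lead : ∀ m, ↥(Λ m) →ₗ[O] C) (g n m0 c0 : ℕ),
    ff_IsPkg O 𝒜 C π Kb κ Λ lead g n m0 c0 →
  ∀ (FK : Type) [Field FK] [Algebra Kb FK] (Fκ : Type) [Field Fκ] [Algebra κ Fκ]
    (ιK : Kb ⊗[O] 𝒜 →ₐ[Kb] FK) (ικ : κ ⊗[O] 𝒜 →ₐ[κ] Fκ) (m1 m1' : ℕ)
    (Av : ValuationSubring Kb) (res : ↥Av →+* κ) (r : Place Kb FK → Place κ Fκ) (X : 𝒜),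
    ffi_IsDict O 𝒜 C Kb Λ lead FK (ιK (1 ⊗ₜ[O] X)) ιK g m1 →
    ffi_IsDict O 𝒜 C κ Λ lead Fκ (ικ (1 ⊗ₜ[O] X)) ικ g m1' →
    ffi_pt_IsRed O 𝒜 Kb κ FK Fκ ιK ικ Av res r X →
  ∀ I : Set ↥(SemilinearAut Kb FK),
    (∀ τ ∈ I, ∀ a : 𝒜, τ • ιK (1 ⊗ₜ[O] a) = ιK (1 ⊗ₜ[O] a)) →
    (∀ τ ∈ I, ∀ c : ↥Av, ∃ h : SemilinearAut.baseAut τ (c : Kb) ∈ Av, res ⟨_, h⟩ = res c) →
    (∀ c : ↥Av, (∀ τ ∈ I, SemilinearAut.baseAut τ (c : Kb) = c) →
      (c : Kb) ∈ Set.range (algebraMap O Kb)) →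
  ∀ (M : Type) [Finite M] (cls : M → Pic0 Kb FK), Function.Injective cls →
    ∃ (PK : M → Fin g → 𝒜 →ₐ[O] Kb) (Pκ : M → Fin g → 𝒜 →ₐ[O] κ) (P0 : Fin g → 𝒜 →ₐ[O] O),
      (∀ z j a, ∃ h : PK z j a ∈ Av, res ⟨_, h⟩ = Pκ z j a) ∧
      (∀ w x y z : Option M,
        mzg_pt_optCls cls w + mzg_pt_optCls cls x = mzg_pt_optCls cls y + mzg_pt_optCls cls z →
        ff_LinEq O 𝒜 C Kb Λ lead (ff_ptIdeal Kb (mzg_pt_opt P0 PK w))
          (ff_ptIdeal Kb (mzg_pt_opt P0 PK x)) (ff_ptIdeal Kb (mzg_pt_opt P0 PK y))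
          (ff_ptIdeal Kb (mzg_pt_opt P0 PK z))) ∧
      (∀ z, ff_Uniq O 𝒜 C Kb Λ lead (ff_ptIdeal Kb (PK z))) ∧
      (∀ w x y z : Option M,
        mzg_pt_optCls cls w + mzg_pt_optCls cls x = mzg_pt_optCls cls y + mzg_pt_optCls cls z →
        ff_LinEq O 𝒜 C κ Λ lead (ff_ptIdeal κ (mzg_pt_opt P0 Pκ w))
          (ff_ptIdeal κ (mzg_pt_opt P0 Pκ x)) (ff_ptIdeal κ (mzg_pt_opt P0 Pκ y))
          (ff_ptIdeal κ (mzg_pt_opt P0 Pκ z))) ∧
      (∀ z, ff_Uniq O 𝒜 C κ Λ lead (ff_ptIdeal κ (Pκ z))) ∧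
      (∀ (τ : ↥(SemilinearAut Kb FK)) (φ : M → M),
        (∀ a : 𝒜, τ • ιK (1 ⊗ₜ[O] a) = ιK (1 ⊗ₜ[O] a)) →
        (∀ o : O, SemilinearAut.baseAut τ (algebraMap O Kb o) = algebraMap O Kb o) →
        (∀ z, cls (φ z) = τ • cls z) →
        ∀ z a i, ff_symFun PK a i (φ z) = SemilinearAut.baseAut τ (ff_symFun PK a i z)) ∧
      (∀ z z', z ≠ z' → ∃ a i, ff_symFun PK a i z ≠ ff_symFun PK a i z') ∧
      (∀ z z' : M,
        (∀ (a : 𝒜) (i : ℕ),
          ((Finset.univ : Finset (Fin g)).val.map fun j => Pκ z j a).esymm i =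
            ((Finset.univ : Finset (Fin g)).val.map fun j => Pκ z' j a).esymm i) →
        ∀ Z Z' : Divisor.degZero (K := Kb) (F := FK), Pic0.mk Z = cls z → Pic0.mk Z' = cls z' →
          Finsupp.mapDomain r (Z : Divisor Kb FK) - Finsupp.mapDomain r (Z' : Divisor Kb FK) ∈
            Divisor.principal (K := κ) (F := Fκ)) ∧
      (∀ z z' : M,
        ∀ Z Z' : Divisor.degZero (K := Kb) (F := FK), Pic0.mk Z = cls z → Pic0.mk Z' = cls z' →
          Finsupp.mapDomain r (Z : Divisor Kb FK) - Finsupp.mapDomain r (Z' : Divisor Kb FK) ∈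
            Divisor.principal (K := κ) (F := Fκ) →
        ∀ (a : 𝒜) (i : ℕ),
          ((Finset.univ : Finset (Fin g)).val.map fun j => Pκ z j a).esymm i =
            ((Finset.univ : Finset (Fin g)).val.map fun j => Pκ z' j a).esymm i)

/-! ### the assembly -/

theorem m59p_pt_abs_of_seams (hDEG : ffi_pt_SeamDEG) (hRED : ffi_pt_SeamRED)
    (hLE : ffi_pt_SeamLE) (hLIFT : ffi_pt_SeamLIFT) (hDZ : ffi_pt_SeamDZ) (hEQ : ffi_pt_SeamEQ)
    (hSEP : ffi_pt_SeamSEP) : m59p_pt_AbsStmt := by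
  intro O _ _ _ 𝒜 _ _ C _ _ π Kb _ _ _ κ _ _ _ Λ lead g n m0 c0 pkg FK _ _ Fκ _ _ ιK ικ m1 m1'
    Av res r X dictK dictκ hred I hI1 hI2 hI3 M _ cls hcls
  have hxK := dictK.sep
  have hxκ := dictκ.sep
  obtain ⟨hnK, hnκ⟩ := hDEG O 𝒜 C π Kb κ Λ lead g n m0 c0 pkg FK (ιK (1 ⊗ₜ[O] X)) ιK m1
    Fκ (ικ (1 ⊗ₜ[O] X)) ικ m1' dictK dictκ
  have hn : Module.finrank ↥Kb⟮ιK (1 ⊗ₜ[O] X)⟯ FK = Module.finrank ↥κ⟮ικ (1 ⊗ₜ[O] X)⟯ Fκ :=
    hnK.trans hnκ.symm
  have hreg : ∀ (a : 𝒜) (P : Place Kb FK), ιK (1 ⊗ₜ[O] X) ∈ P.toValuationSubring →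
      ιK (1 ⊗ₜ[O] a) ∈ P.toValuationSubring := fun a P hP =>
    (dictK.chart _).mp ⟨1 ⊗ₜ[O] a, rfl⟩ P hP
  obtain ⟨hT, hval, hfinr, -⟩ := hRED O 𝒜 Kb κ FK Fκ ιK ικ Av res r X hred hxK hxκ hn hreg
  have hKtf : Module.IsTorsionFree O Kb :=
    Module.isTorsionFree_iff_algebraMap_injective.mpr pkg.inj
  have hinclK : ∀ m, Function.Injective (ff_incl O 𝒜 Kb Λ m) := fun m =>
    ffa_res_fib_inj_flat Λ Kb m
  have hinclκ : ∀ m, Function.Injective (ff_incl O 𝒜 κ Λ m) := fun m =>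
    ffa_res_fib_inj_κ pkg m
  obtain ⟨evK, uniqK, lineqK, uniqlK⟩ :=
    hLE O 𝒜 C Kb Λ lead FK (ιK (1 ⊗ₜ[O] X)) ιK g m1 X dictK rfl hinclK
  obtain ⟨evκ, uniqκ, lineqκ, uniqlκ⟩ :=
    hLE O 𝒜 C κ Λ lead Fκ (ικ (1 ⊗ₜ[O] X)) ικ g m1' X dictκ rfl hinclκ
  let good : Set (Place Kb FK) :=
    {P | ∃ p0 : 𝒜 →ₐ[O] O, ffi_pt_At ιK ((Algebra.ofId O Kb).comp p0) P}
  have hlift : ∀ Q : Place κ Fκ, ικ (1 ⊗ₜ[O] X) ∈ Q.toValuationSubring →
      ∃ P ∈ good, r P = Q := by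
    intro Q hQ
    obtain ⟨P, p0, hPQ, hp0⟩ := hLIFT O 𝒜 C Kb κ Λ lead g m1 m1' FK Fκ ιK ικ Av res r X hred
      dictK dictκ hn pkg.inj pkg.res_surj hinclK hinclκ I hI1 hI2 hI3 Q hQ
    exact ⟨P, ⟨p0, hp0⟩, hPQ⟩
  -- representatives of the classes
  choose Zrep hZrep using fun z : M => Pic0.mk_surjective (cls z)
  have hZdeg : ∀ z, Divisor.degree ((Zrep z : Divisor Kb FK)) = 0 := fun z =>
    Divisor.mem_degZero.mp (Zrep z).2
  obtain ⟨P0pl, Dpl, hP0good, hP0fin, hDfin, hDlin, hlK, hlκ⟩ :=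
    hDZ Kb κ FK Fκ (ιK (1 ⊗ₜ[O] X)) (ικ (1 ⊗ₜ[O] X)) hxK hxκ g dictK.riemann dictκ.riemann r
      hred.prin hT good hlift M (fun z => (Zrep z : Divisor Kb FK)) hZdeg
  have hDfinK : ∀ z j, ιK (1 ⊗ₜ[O] X) ∈ (Dpl z j).toValuationSubring := fun z j =>
    ffi_red_mem_of_mem hxK hxκ r hT (hDfin z j)
  choose PK hPK using fun z j => evK (Dpl z j) (hDfinK z j)
  choose Pκ hPκ using fun z j => evκ (r (Dpl z j)) (hDfin z j)
  choose P0 hP0 using hP0good
  have hP0κ : ∀ i, ffi_pt_At ικ ((Algebra.ofId O κ).comp (P0 i)) (r (P0pl i)) := by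
    intro i
    obtain ⟨pb, hpb⟩ := evκ (r (P0pl i)) (hP0fin i)
    have hv := hval (P0pl i) _ pb (hP0 i) hpb
    have hpbeq : pb = (Algebra.ofId O κ).comp (P0 i) := by
      apply AlgHom.ext
      intro a
      obtain ⟨h, hh⟩ := hv a
      obtain ⟨h', hh'⟩ := hred.compat (P0 i a)
      rw [← hh]
      exact hh'
    rw [← hpbeq]
    exact hpb
  -- `Option`-indexed data
  let ZO : Option M → Divisor.degZero (K := Kb) (F := FK) := fun o => o.elim 0 Zrep
  let DO : Option M → Fin g → Place Kb FK := fun o => o.elim P0pl Dpl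
  have hZO : ∀ o, Pic0.mk (ZO o) = mzg_pt_optCls cls o := by
    intro o
    cases o with
    | none => rfl
    | some z => exact hZrep z
  have hDO : ∀ o, ffi_pt_sum (DO o) - ffi_pt_sum P0pl - ((ZO o : Divisor.degZero (K := Kb) (F := FK)) :
      Divisor Kb FK) ∈ Divisor.principal (K := Kb) (F := FK) := by
    intro o
    cases o with
    | none =>
      have : ffi_pt_sum (DO none) - ffi_pt_sum P0pl -
          ((ZO none : Divisor.degZero (K := Kb) (F := FK)) : Divisor Kb FK) = 0 := by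
        change ffi_pt_sum P0pl - ffi_pt_sum P0pl -
          ((0 : Divisor.degZero (K := Kb) (F := FK)) : Divisor Kb FK) = 0
        rw [sub_self, AddSubgroup.coe_zero, sub_zero]
      rw [this]
      exact zero_mem _
    | some z => exact hDlin z
  have hPKO : ∀ o j, ffi_pt_At ιK (mzg_pt_opt P0 PK o j) (DO o j) := by
    intro o j
    cases o with
    | none => exact hP0 j
    | some z => exact hPK z j
  have hPκO : ∀ o j, ffi_pt_At ικ (mzg_pt_opt P0 Pκ o j) (r (DO o j)) := by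
    intro o j
    cases o with
    | none => exact hP0κ j
    | some z => exact hPκ z j
  -- the relation among the representatives
  have hZrel : ∀ w x y z : Option M,
      mzg_pt_optCls cls w + mzg_pt_optCls cls x = mzg_pt_optCls cls y + mzg_pt_optCls cls z →
      ((ZO w : Divisor.degZero (K := Kb) (F := FK)) : Divisor Kb FK) + (ZO x : Divisor Kb FK) -
        ((ZO y : Divisor Kb FK) + (ZO z : Divisor Kb FK)) ∈
        Divisor.principal (K := Kb) (F := FK) := by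
    intro w x y z h
    have h1 : Pic0.mk (ZO w + ZO x) = Pic0.mk (ZO y + ZO z) := by
      rw [Pic0.mk_add, Pic0.mk_add, hZO, hZO, hZO, hZO, h]
    have h2 := ffi_pt_mk_eq_mk_iff.mp h1
    rwa [AddSubgroup.coe_add, AddSubgroup.coe_add] at h2
  have hlinK : ∀ w x y z : Option M,
      mzg_pt_optCls cls w + mzg_pt_optCls cls x = mzg_pt_optCls cls y + mzg_pt_optCls cls z →
      ffi_pt_sum (DO w) + ffi_pt_sum (DO x) - (ffi_pt_sum (DO y) + ffi_pt_sum (DO z)) ∈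
        Divisor.principal (K := Kb) (F := FK) := by
    intro w x y z h
    have e : ffi_pt_sum (DO w) + ffi_pt_sum (DO x) - (ffi_pt_sum (DO y) + ffi_pt_sum (DO z)) =
        (ffi_pt_sum (DO w) - ffi_pt_sum P0pl - (ZO w : Divisor Kb FK)) +
        (ffi_pt_sum (DO x) - ffi_pt_sum P0pl - (ZO x : Divisor Kb FK)) -
        (ffi_pt_sum (DO y) - ffi_pt_sum P0pl - (ZO y : Divisor Kb FK)) -
        (ffi_pt_sum (DO z) - ffi_pt_sum P0pl - (ZO z : Divisor Kb FK)) +
        ((ZO w : Divisor Kb FK) + (ZO x : Divisor Kb FK) -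
          ((ZO y : Divisor Kb FK) + (ZO z : Divisor Kb FK))) := by
      abel
    rw [e]
    exact add_mem (sub_mem (sub_mem (add_mem (hDO w) (hDO x)) (hDO y)) (hDO z)) (hZrel w x y z h)
  have hlinκ : ∀ w x y z : Option M,
      mzg_pt_optCls cls w + mzg_pt_optCls cls x = mzg_pt_optCls cls y + mzg_pt_optCls cls z →
      (ffi_pt_sum fun j => r (DO w j)) + (ffi_pt_sum fun j => r (DO x j)) -
        ((ffi_pt_sum fun j => r (DO y j)) + (ffi_pt_sum fun j => r (DO z j))) ∈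
        Divisor.principal (K := κ) (F := Fκ) := by
    intro w x y z h
    have h' := hred.prin _ (hlinK w x y z h)
    rwa [Finsupp.mapDomain_sub, Finsupp.mapDomain_add, Finsupp.mapDomain_add,
      ffi_pt_mapDomain_sum, ffi_pt_mapDomain_sum, ffi_pt_mapDomain_sum,
      ffi_pt_mapDomain_sum] at h'
  refine ⟨PK, Pκ, P0, ?_, ?_, ?_, ?_, ?_, ?_, ?_, ?_, ?_⟩
  · exact fun z j a => hval (Dpl z j) (PK z j) (Pκ z j) (hPK z j) (hPκ z j) a
  · exact fun w x y z h => lineqK (DO w) (DO x) (DO y) (DO z) (mzg_pt_opt P0 PK w)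
      (mzg_pt_opt P0 PK x) (mzg_pt_opt P0 PK y) (mzg_pt_opt P0 PK z) (hPKO w) (hPKO x) (hPKO y)
      (hPKO z) (hlinK w x y z h)
  · exact fun z => uniqlK (Dpl z) (PK z) (hPK z) (hlK z)
  · exact fun w x y z h => lineqκ (fun j => r (DO w j)) (fun j => r (DO x j))
      (fun j => r (DO y j)) (fun j => r (DO z j)) (mzg_pt_opt P0 Pκ w)
      (mzg_pt_opt P0 Pκ x) (mzg_pt_opt P0 Pκ y) (mzg_pt_opt P0 Pκ z) (hPκO w) (hPκO x) (hPκO y)
      (hPκO z) (hlinκ w x y z h)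
  · exact fun z => uniqlκ (fun j => r (Dpl z j)) (Pκ z) (hPκ z) (hlκ z)
  · -- Galois equivariance
    intro τ φ hτfix hτO hφ z a i
    obtain ⟨hEQa, hEQb⟩ := hEQ O 𝒜 C Kb Λ lead FK (ιK (1 ⊗ₜ[O] X)) ιK g m1 X dictK rfl τ hτfix
    have hτP0 : ∀ i, τ • P0pl i = P0pl i := by
      intro i
      have h1 : ffi_pt_At ιK ((Algebra.ofId O Kb).comp (P0 i)) (τ • P0pl i) :=
        hEQa (P0pl i) _ _ (hP0 i) (fun a => (hτO (P0 i a)).symm)
      exact uniqK _ _ _ h1 (hP0 i)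
    have hτE0 : τ • ffi_pt_sum P0pl = ffi_pt_sum P0pl := by
      rw [ffi_pt_smul_sum]
      congr 1
      funext i
      exact hτP0 i
    have hτZ : τ • (Zrep z : Divisor Kb FK) - (Zrep (φ z) : Divisor Kb FK) ∈
        Divisor.principal (K := Kb) (F := FK) := by
      have h1 : Pic0.mk (SemilinearAut.degZeroSMulHom τ (Zrep z)) = Pic0.mk (Zrep (φ z)) := by
        rw [← SemilinearAut.pic0_smul_mk, hZrep z, hZrep (φ z)]
        exact (hφ z).symm
      have := ffi_pt_mk_eq_mk_iff.mp h1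
      rwa [SemilinearAut.coe_degZeroSMulHom] at this
    have hτD : τ • ffi_pt_sum (Dpl z) = ffi_pt_sum (Dpl (φ z)) := by
      refine ffi_pt_eq_of_l_one hxK (ffi_pt_sum_nonneg' _) ?_ ?_ (hlK (φ z))
      · rw [ffi_pt_smul_sum]
        exact ffi_pt_sum_nonneg' _
      · have h1 := SemilinearAut.smul_mem_principal τ (hDlin z)
        rw [smul_sub, smul_sub, hτE0] at h1
        have e : τ • ffi_pt_sum (Dpl z) - ffi_pt_sum (Dpl (φ z)) =
            (τ • ffi_pt_sum (Dpl z) - ffi_pt_sum P0pl - τ • (Zrep z : Divisor Kb FK)) -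
            (ffi_pt_sum (Dpl (φ z)) - ffi_pt_sum P0pl - (Zrep (φ z) : Divisor Kb FK)) +
            (τ • (Zrep z : Divisor Kb FK) - (Zrep (φ z) : Divisor Kb FK)) := by
          abel
        rw [e]
        exact add_mem (sub_mem h1 (hDlin (φ z))) hτZ
    exact hEQb (Dpl z) (Dpl (φ z)) (PK z) (PK (φ z)) (hPK z) (hPK (φ z)) hτD a i
  · -- separation
    intro z z' hzz'
    by_contra hcon
    push Not at hcon
    haveI : Infinite O := Infinite.of_injective (fun n : ℕ => π ^ n)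
      (pow_injective_of_not_isUnit pkg.irr.not_isUnit pkg.irr.ne_zero)
    obtain ⟨e, he⟩ := hSEP O 𝒜 Kb pkg.inj g (PK z) (PK z') (fun a i => (hcon a i).symm)
    have hpl : ∀ j, Dpl z' j = Dpl z (e j) := fun j =>
      uniqK _ _ (PK z' j) (hPK z' j) (by rw [he j]; exact hPK z (e j))
    have hsum : ffi_pt_sum (Dpl z') = ffi_pt_sum (Dpl z) := by
      have h1 : Dpl z' = fun j => Dpl z (e j) := funext hpl
      rw [h1, ffi_pt_sum_perm]
    have hpr : (Zrep z : Divisor Kb FK) - (Zrep z' : Divisor Kb FK) ∈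
        Divisor.principal (K := Kb) (F := FK) := by
      have h1 := hDlin z
      have h2 := hDlin z'
      rw [hsum] at h2
      have e' : (Zrep z : Divisor Kb FK) - (Zrep z' : Divisor Kb FK) =
          (ffi_pt_sum (Dpl z) - ffi_pt_sum P0pl - (Zrep z' : Divisor Kb FK)) -
          (ffi_pt_sum (Dpl z) - ffi_pt_sum P0pl - (Zrep z : Divisor Kb FK)) := by
        abel
      rw [e']
      exact sub_mem h2 h1
    have hc : cls z = cls z' := by
      rw [← hZrep z, ← hZrep z']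
      exact ffi_pt_mk_eq_mk_iff.mpr hpr
    exact hzz' (hcls hc)
  · -- [GEO-SEP]
    intro z z' hsym Z Z' hZ hZ'
    -- the reduced points agree up to a permutation (SEP over `κ`)
    haveI : Infinite κ := IsAlgClosed.instInfinite
    have hκinj : Function.Injective (algebraMap κ κ) := fun _ _ h => h
    have hsym' : ∀ (b : κ ⊗[O] 𝒜) (i : ℕ),
        ((Finset.univ : Finset (Fin g)).val.map fun j => ff_pt κ (Pκ z' j) b).esymm i =
          ((Finset.univ : Finset (Fin g)).val.map fun j => ff_pt κ (Pκ z j) b).esymm i := by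
      intro b i
      obtain ⟨a, ha⟩ := ffa_t_exists_one_tmul pkg.res_surj b
      subst ha
      have h1 : ∀ (w : M) (j : Fin g), ff_pt κ (Pκ w j) ((1 : κ) ⊗ₜ[O] a) = Pκ w j a := by
        intro w j
        rw [ffa_t_pt_tmul, one_mul]
      simp only [h1]
      exact (hsym a i).symm
    obtain ⟨e, he⟩ := hSEP κ (κ ⊗[O] 𝒜) κ hκinj g (fun j => ff_pt κ (Pκ z j))
      (fun j => ff_pt κ (Pκ z' j)) hsym'
    have hPe : ∀ j, Pκ z' j = Pκ z (e j) := by
      intro j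
      apply AlgHom.ext
      intro a
      have h1 := congrArg (fun f => f ((1 : κ) ⊗ₜ[O] a)) (he j)
      simp only [ffa_t_pt_tmul, one_mul] at h1
      exact h1
    have hpl : ∀ j, r (Dpl z' j) = r (Dpl z (e j)) := fun j =>
      uniqκ _ _ (Pκ z' j) (hPκ z' j) (by rw [hPe j]; exact hPκ z (e j))
    have hsum : (ffi_pt_sum fun j => r (Dpl z' j)) = ffi_pt_sum fun j => r (Dpl z j) := by
      have h1 : (fun j => r (Dpl z' j)) = fun j => r (Dpl z (e j)) := funext hpl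
      rw [h1]
      exact ffi_pt_sum_perm (fun j => r (Dpl z j)) e
    -- compare with the representatives
    have hZZ : (Z : Divisor Kb FK) - (Zrep z : Divisor Kb FK) ∈
        Divisor.principal (K := Kb) (F := FK) :=
      ffi_pt_mk_eq_mk_iff.mp (hZ.trans (hZrep z).symm)
    have hZZ' : (Z' : Divisor Kb FK) - (Zrep z' : Divisor Kb FK) ∈
        Divisor.principal (K := Kb) (F := FK) :=
      ffi_pt_mk_eq_mk_iff.mp (hZ'.trans (hZrep z').symm)
    have h1 := hred.prin _ (hDlin z)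
    have h2 := hred.prin _ (hDlin z')
    have h3 := hred.prin _ hZZ
    have h4 := hred.prin _ hZZ'
    rw [Finsupp.mapDomain_sub, Finsupp.mapDomain_sub, ffi_pt_mapDomain_sum,
      ffi_pt_mapDomain_sum] at h1 h2
    rw [Finsupp.mapDomain_sub] at h3 h4
    rw [hsum] at h2
    have e' : Finsupp.mapDomain r (Z : Divisor Kb FK) - Finsupp.mapDomain r (Z' : Divisor Kb FK) =
        (Finsupp.mapDomain r (Z : Divisor Kb FK) - Finsupp.mapDomain r (Zrep z : Divisor Kb FK)) -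
        (Finsupp.mapDomain r (Z' : Divisor Kb FK) -
          Finsupp.mapDomain r (Zrep z' : Divisor Kb FK)) +
        (((ffi_pt_sum fun j => r (Dpl z j)) - (ffi_pt_sum fun j => r (P0pl j)) -
          Finsupp.mapDomain r (Zrep z' : Divisor Kb FK)) -
         ((ffi_pt_sum fun j => r (Dpl z j)) - (ffi_pt_sum fun j => r (P0pl j)) -
          Finsupp.mapDomain r (Zrep z : Divisor Kb FK))) := by
      abel
    rw [e']
    exact add_mem (sub_mem h3 h4) (sub_mem h2 h1)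

  · -- [GEO-SEP], CONVERSE (new)
    intro z z' Z Z' hZ hZ' hpr a i
    have hZZ : (Z : Divisor Kb FK) - (Zrep z : Divisor Kb FK) ∈
        Divisor.principal (K := Kb) (F := FK) :=
      ffi_pt_mk_eq_mk_iff.mp (hZ.trans (hZrep z).symm)
    have hZZ' : (Z' : Divisor Kb FK) - (Zrep z' : Divisor Kb FK) ∈
        Divisor.principal (K := Kb) (F := FK) :=
      ffi_pt_mk_eq_mk_iff.mp (hZ'.trans (hZrep z').symm)
    have h1 := hred.prin _ (hDlin z)
    have h2 := hred.prin _ (hDlin z')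
    have h3 := hred.prin _ hZZ
    have h4 := hred.prin _ hZZ'
    rw [Finsupp.mapDomain_sub, Finsupp.mapDomain_sub, ffi_pt_mapDomain_sum,
      ffi_pt_mapDomain_sum] at h1 h2
    rw [Finsupp.mapDomain_sub] at h3 h4
    have hE : (ffi_pt_sum fun j => r (Dpl z j)) - (ffi_pt_sum fun j => r (Dpl z' j)) ∈
        Divisor.principal (K := κ) (F := Fκ) := by
      have e' : (ffi_pt_sum fun j => r (Dpl z j)) - (ffi_pt_sum fun j => r (Dpl z' j)) =
          ((ffi_pt_sum fun j => r (Dpl z j)) - (ffi_pt_sum fun j => r (P0pl j)) -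
            Finsupp.mapDomain r (Zrep z : Divisor Kb FK)) -
          ((ffi_pt_sum fun j => r (Dpl z' j)) - (ffi_pt_sum fun j => r (P0pl j)) -
            Finsupp.mapDomain r (Zrep z' : Divisor Kb FK)) +
          (Finsupp.mapDomain r (Z : Divisor Kb FK) - Finsupp.mapDomain r (Z' : Divisor Kb FK)) -
          (Finsupp.mapDomain r (Z : Divisor Kb FK) -
            Finsupp.mapDomain r (Zrep z : Divisor Kb FK)) +
          (Finsupp.mapDomain r (Z' : Divisor Kb FK) -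
            Finsupp.mapDomain r (Zrep z' : Divisor Kb FK)) := by
        abel
      rw [e']
      exact add_mem (sub_mem (add_mem (sub_mem h1 h2) hpr) h3) h4
    have hEq : (ffi_pt_sum fun j => r (Dpl z j)) = ffi_pt_sum fun j => r (Dpl z' j) :=
      ffi_pt_eq_of_l_one hxκ (ffi_pt_sum_nonneg' _) (ffi_pt_sum_nonneg' _) hE (hlκ z')
    obtain ⟨-, hEQb⟩ := hEQ O 𝒜 C κ Λ lead Fκ (ικ (1 ⊗ₜ[O] X)) ικ g m1' X dictκ rfl
      (1 : ↥(SemilinearAut κ Fκ)) (fun a => one_smul _ _)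
    have := hEQb (fun j => r (Dpl z' j)) (fun j => r (Dpl z j)) (Pκ z') (Pκ z) (hPκ z') (hPκ z)
      (by rw [one_smul]; exact hEq.symm) a i
    rw [this]
    rfl

/-- **[G-PT], abstract, closed.** -/
theorem m59p_pt_abs : m59p_pt_AbsStmt :=
  m59p_pt_abs_of_seams ffi_pt_deg ffi_pt_red ffi_pt_le (ffi_pt_lift ffi_pt_red ffi_pt_le) ffi_pt_dz
    ffi_pt_eq ffi_pt_sep

end Fermat.Agent.M59


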