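/-
S59 project, block [AtP] (helper10; prefix `m59p_`): the bridge (BR') "red z = 0 ⟹ z ≡ 0 for an order".
* `m59p_pt_of_level`  : twin of `mzg_pt_of_level` with the ninth export (converse of [GEO-SEP]);
* `m59p_fin_isOrder`  : the IsOrder half of `mzg_fin_core` with its EXPLICIT witness;
* `m59p_cong_of_esymm`: equal symmetric functions of the reduced points ⟹ `mzo_Cong`;
* `m59p_BRprime`      : at every place `A` over `ℓ ∤ N`: an order `H'` on `J₀(N)[ℓ^k]` with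
                        `reductionModL A N z = 0 → mzo_Cong A H' z 0`.
-/
import Mathlib
import Fermat.Agent.MZ.Geo.Final
import Fermat.Agent.MZ.Hopf.DualDefs
import Fermat.Agent.M59.AtP.PtSetConv

set_option autoImplicit false
set_option linter.style.haveILetI false
set_option linter.unusedSectionVars false

noncomputable section

namespace Fermat.Agent.M59

open Fermat.Agent.MZ

open ModularCurve AlgebraicCurve IntermediateField Fermat.Agent.JT3 Fermat.Agent.S24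
  Fermat.Agent.FF
open scoped TensorProduct

/-- **the points over a generic level**: the analogue of `ffi_SeamPT` for a finite set. -/
theorem m59p_pt_of_level (N : ℕ) [NeZero N] (ℓ : ℕ) (hℓ : ℓ.Prime) (hℓN : ¬ ℓ ∣ N)
    (A : ValuationSubring ff_Qb) (hA : A.LiesOverPrime ℓ)
    (L : Type) [Field L] [Algebra ℚ L] [Algebra L ff_Qb] [IsScalarTower ℚ L ff_Qb]
    (lvl : ffi_LvlOK A L ℓ)
    (κ : Type) [Field κ] [IsAlgClosed κ] [Algebra ↥(ffi_O A L) κ] (π : ↥A →+* κ)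
    (hres : ffi_ResOK A L κ π)
    (r : Place ff_Qb ↥(modularFunctionFieldBar N) → Place κ ↥(modularFunctionFieldFullC κ N))
    (hr : IsPlaceReductionAlong A π N r) (hgen : PrincipalGeneratedByIntegral A π N)
    (g n m0 c0 : ℕ)
    (ιK : ff_Qb ⊗[↥(ffi_O A L)] ↥(ffi_A1 A L N) →ₐ[ff_Qb] ↥(modularFunctionFieldBar N))
    (ικ : κ ⊗[↥(ffi_O A L)] ↥(ffi_A1 A L N) →ₐ[κ] ↥(modularFunctionFieldFullC κ N))
    (D : ffi_PkgData A L κ N ℓ g n m0 c0 ιK ικ)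
    (S : Set (JZero N)) (hS : S.Finite) :
    ∃ (PK : ↥S → Fin g → ↥(ffi_A1 A L N) →ₐ[↥(ffi_O A L)] ff_Qb)
      (Pκ : ↥S → Fin g → ↥(ffi_A1 A L N) →ₐ[↥(ffi_O A L)] κ)
      (P0 : Fin g → ↥(ffi_A1 A L N) →ₐ[↥(ffi_O A L)] ↥(ffi_O A L)),
      (∀ z j a, ∃ h : PK z j a ∈ A, π ⟨_, h⟩ = Pκ z j a) ∧
      (∀ w x y z : Option ↥S,
        mzg_pt_optCls (mzg_pt_cls N S) w + mzg_pt_optCls (mzg_pt_cls N S) x =
          mzg_pt_optCls (mzg_pt_cls N S) y + mzg_pt_optCls (mzg_pt_cls N S) z →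
        ff_LinEq ↥(ffi_O A L) ↥(ffi_A1 A L N) (ffi_gC ↥(ffi_O A L) (ffi_j L N)) ff_Qb
          (ffi_gLam ↥(ffi_O A L) (ffi_j L N)) (ffi_gLead ↥(ffi_O A L) (ffi_j L N))
          (ff_ptIdeal ff_Qb (mzg_pt_opt P0 PK w)) (ff_ptIdeal ff_Qb (mzg_pt_opt P0 PK x))
          (ff_ptIdeal ff_Qb (mzg_pt_opt P0 PK y)) (ff_ptIdeal ff_Qb (mzg_pt_opt P0 PK z))) ∧
      (∀ z, ff_Uniq ↥(ffi_O A L) ↥(ffi_A1 A L N) (ffi_gC ↥(ffi_O A L) (ffi_j L N)) ff_Qb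
        (ffi_gLam ↥(ffi_O A L) (ffi_j L N)) (ffi_gLead ↥(ffi_O A L) (ffi_j L N))
        (ff_ptIdeal ff_Qb (PK z))) ∧
      (∀ w x y z : Option ↥S,
        mzg_pt_optCls (mzg_pt_cls N S) w + mzg_pt_optCls (mzg_pt_cls N S) x =
          mzg_pt_optCls (mzg_pt_cls N S) y + mzg_pt_optCls (mzg_pt_cls N S) z →
        ff_LinEq ↥(ffi_O A L) ↥(ffi_A1 A L N) (ffi_gC ↥(ffi_O A L) (ffi_j L N)) κ
          (ffi_gLam ↥(ffi_O A L) (ffi_j L N)) (ffi_gLead ↥(ffi_O A L) (ffi_j L N))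
          (ff_ptIdeal κ (mzg_pt_opt P0 Pκ w)) (ff_ptIdeal κ (mzg_pt_opt P0 Pκ x))
          (ff_ptIdeal κ (mzg_pt_opt P0 Pκ y)) (ff_ptIdeal κ (mzg_pt_opt P0 Pκ z))) ∧
      (∀ z, ff_Uniq ↥(ffi_O A L) ↥(ffi_A1 A L N) (ffi_gC ↥(ffi_O A L) (ffi_j L N)) κ
        (ffi_gLam ↥(ffi_O A L) (ffi_j L N)) (ffi_gLead ↥(ffi_O A L) (ffi_j L N))
        (ff_ptIdeal κ (Pκ z))) ∧
      (∀ σ : ff_GQ, (∀ c : L, σ (algebraMap L ff_Qb c) = algebraMap L ff_Qb c) →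
        (∀ x ∈ S, σ • x ∈ S) → ∀ z z' : ↥S, (z' : JZero N) = σ • (z : JZero N) →
        ∀ a i, ff_symFun PK a i z' = σ (ff_symFun PK a i z)) ∧
      (∀ z z', z ≠ z' → ∃ a i, ff_symFun PK a i z ≠ ff_symFun PK a i z') ∧
      (∀ z z' : ↥S,
        (∀ (a : ↥(ffi_A1 A L N)) (i : ℕ),
          ((Finset.univ : Finset (Fin g)).val.map fun j => Pκ z j a).esymm i =
            ((Finset.univ : Finset (Fin g)).val.map fun j => Pκ z' j a).esymm i) →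
        ∀ Z Z' : Divisor.degZero (K := ff_Qb) (F := ↥(modularFunctionFieldBar N)),
          Pic0.mk Z = (z : JZero N) → Pic0.mk Z' = (z' : JZero N) →
          Finsupp.mapDomain r (Z : Divisor ff_Qb ↥(modularFunctionFieldBar N)) -
            Finsupp.mapDomain r (Z' : Divisor ff_Qb ↥(modularFunctionFieldBar N)) ∈
            Divisor.principal (K := κ) (F := ↥(modularFunctionFieldFullC κ N))) ∧
      (∀ z z' : ↥S,
        ∀ Z Z' : Divisor.degZero (K := ff_Qb) (F := ↥(modularFunctionFieldBar N)),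
          Pic0.mk Z = (z : JZero N) → Pic0.mk Z' = (z' : JZero N) →
          Finsupp.mapDomain r (Z : Divisor ff_Qb ↥(modularFunctionFieldBar N)) -
            Finsupp.mapDomain r (Z' : Divisor ff_Qb ↥(modularFunctionFieldBar N)) ∈
            Divisor.principal (K := κ) (F := ↥(modularFunctionFieldFullC κ N)) →
        ∀ (a : ↥(ffi_A1 A L N)) (i : ℕ),
          ((Finset.univ : Finset (Fin g)).val.map fun j => Pκ z j a).esymm i =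
            ((Finset.univ : Finset (Fin g)).val.map fun j => Pκ z' j a).esymm i) := by
  obtain ⟨hred, hxK, hxκ, hfixL, hinA, hinL⟩ :=
    ffi_pt_wire N ℓ hℓ hℓN A hA L lvl κ π hres r hr hgen g n m0 c0 ιK ικ D
  haveI := lvl.dvr
  haveI : Finite ↥S := hS.to_subtype
  set X := ffi_gX ↥(ffi_O A L) (ffi_j L N) with hX
  have dictK : ffi_IsDict ↥(ffi_O A L) ↥(ffi_A1 A L N) (ffi_gC ↥(ffi_O A L) (ffi_j L N)) ff_Qb
      (ffi_gLam ↥(ffi_O A L) (ffi_j L N)) (ffi_gLead ↥(ffi_O A L) (ffi_j L N))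
      ↥(modularFunctionFieldBar N) (ιK (1 ⊗ₜ[↥(ffi_O A L)] X)) ιK g 0 := by
    rw [hxK]; exact D.dictK
  have dictκ : ffi_IsDict ↥(ffi_O A L) ↥(ffi_A1 A L N) (ffi_gC ↥(ffi_O A L) (ffi_j L N)) κ
      (ffi_gLam ↥(ffi_O A L) (ffi_j L N)) (ffi_gLead ↥(ffi_O A L) (ffi_j L N))
      ↥(modularFunctionFieldFullC κ N) (ικ (1 ⊗ₜ[↥(ffi_O A L)] X)) ικ g m0 := by
    rw [hxκ]; exact D.dictκ
  -- the inertia set
  let I : Set ↥(SemilinearAut ff_Qb ↥(modularFunctionFieldBar N)) :=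
    {τ | ∃ σ ∈ A.inertiaSubgroupIn ℚ, τ = ffi_pt_gal N σ}
  have hI1 : ∀ τ ∈ I, ∀ a : ↥(ffi_A1 A L N), τ • ιK (1 ⊗ₜ[↥(ffi_O A L)] a) =
      ιK (1 ⊗ₜ[↥(ffi_O A L)] a) := by
    rintro τ ⟨σ, hσ, rfl⟩ a
    exact hfixL σ (hinL σ hσ) a
  have hI2 : ∀ τ ∈ I, ∀ c : ↥A, ∃ h : SemilinearAut.baseAut τ (c : ff_Qb) ∈ A,
      π ⟨_, h⟩ = π c := by
    rintro τ ⟨σ, hσ, rfl⟩ c
    exact hinA σ hσ c
  have hI3 : ∀ c : ↥A, (∀ τ ∈ I, SemilinearAut.baseAut τ (c : ff_Qb) = c) →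
      (c : ff_Qb) ∈ Set.range (algebraMap ↥(ffi_O A L) ff_Qb) := by
    intro c hc
    have h1 : (c : ff_Qb) ∈ (algebraMap L ff_Qb).range :=
      (lvl.fix (c : ff_Qb)).mpr fun σ hσ => hc _ ⟨σ, hσ, rfl⟩
    obtain ⟨b, hb⟩ := h1
    have hbO : b ∈ ffi_O A L := by
      rw [ffi_mem_O, hb]; exact c.2
    exact ⟨⟨b, hbO⟩, hb⟩
  have hcls : Function.Injective (mzg_pt_cls N S) := Subtype.val_injective
  obtain ⟨PK, Pκ, P0, h1, h2, h3, h4, h5, h6, h7, h8, h9⟩ :=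
    m59p_pt_abs ↥(ffi_O A L) ↥(ffi_A1 A L N) (ffi_gC ↥(ffi_O A L) (ffi_j L N))
      ((ℓ : ℕ) : ↥(ffi_O A L)) ff_Qb κ (ffi_gLam ↥(ffi_O A L) (ffi_j L N))
      (ffi_gLead ↥(ffi_O A L) (ffi_j L N)) g n m0 c0 D.pkg
      ↥(modularFunctionFieldBar N) ↥(modularFunctionFieldFullC κ N) ιK ικ 0 m0 A π r X
      dictK dictκ hred I hI1 hI2 hI3 ↥S (mzg_pt_cls N S) hcls
  refine ⟨PK, Pκ, P0, h1, h2, h3, h4, h5, ?_, h7, h8, h9⟩
  intro σ hσ hstab z z' hzz' a i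
  have h := h6 (ffi_pt_gal N σ) (fun z => ⟨σ • (z : JZero N), hstab _ z.2⟩) (hfixL σ hσ)
    (fun o => hσ (o : L)) (fun z => rfl) z a i
  have hz' : z' = ⟨σ • (z : JZero N), hstab _ z.2⟩ := Subtype.ext hzz'
  rw [hz']
  exact h


/-! ### the order with its explicit witness -/

section Core

variable {N : ℕ} [NeZero N] {m : ℤ} [Finite ↥(Submodule.torsionBy ℤ (JZero N) m)]
  (A : ValuationSubring ff_Qb) (L₁ : IntermediateField ℚ ff_Qb)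
  {O : Type} [CommRing O] [IsDomain O] [IsDiscreteValuationRing O] [Algebra O ff_Qb]
  {κ : Type} [Field κ] [IsAlgClosed κ] [Algebra O κ] (res : ↥A →+* κ)
  {𝒜 : Type} [CommRing 𝒜] [Algebra O 𝒜] {C : Type} [CommRing C] [Algebra O C] {π : O}
  {Λ : ℕ → Submodule O 𝒜} {lead : ∀ m, ↥(Λ m) →ₗ[O] C} {g n m0 c0 : ℕ}
  (T : Set (JZero N))
  (PK : ↥(mzg_fin_S N m T) → Fin g → 𝒜 →ₐ[O] ff_Qb)
  (Pκ : ↥(mzg_fin_S N m T) → Fin g → 𝒜 →ₐ[O] κ)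
  (P0 : Fin g → 𝒜 →ₐ[O] O)

/-- the IsOrder half of `mzg_fin_core`, with the explicit witness `ff_symAlg (D_{0 + t})`. -/
theorem m59p_fin_isOrder
    (hfix : ∀ a : ff_Qb, a ∈ L₁ ↔ ∀ σ ∈ A.inertiaSubgroupIn ℚ, σ a = a)
    (hO : Set.range (algebraMap O ff_Qb) = (A : Set ff_Qb) ∩ (L₁ : Set ff_Qb))
    (hker : ∀ c : ↥A, res c = 0 ↔ (c : ff_Qb) ∈ A.nonunits)
    (hresO : ∀ (o : O) (h : algebraMap O ff_Qb o ∈ A), res ⟨_, h⟩ = algebraMap O κ o)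
    (hpkg : ff_IsPkg O 𝒜 C π ff_Qb κ Λ lead g n m0 c0)
    (hT : ∀ x₀ ∈ T, ∀ σ ∈ A.inertiaSubgroupIn ℚ, σ • (m • x₀) = m • x₀)
    (h1 : ∀ z j a, ∃ h : PK z j a ∈ A, res ⟨_, h⟩ = Pκ z j a)
    (h2 : ∀ w x y z : Option ↥(mzg_fin_S N m T),
      mzg_pt_optCls (mzg_pt_cls N (mzg_fin_S N m T)) w +
        mzg_pt_optCls (mzg_pt_cls N (mzg_fin_S N m T)) x =
        mzg_pt_optCls (mzg_pt_cls N (mzg_fin_S N m T)) y +
          mzg_pt_optCls (mzg_pt_cls N (mzg_fin_S N m T)) z →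
      ff_LinEq O 𝒜 C ff_Qb Λ lead
        (ff_ptIdeal ff_Qb (mzg_pt_opt P0 PK w)) (ff_ptIdeal ff_Qb (mzg_pt_opt P0 PK x))
        (ff_ptIdeal ff_Qb (mzg_pt_opt P0 PK y)) (ff_ptIdeal ff_Qb (mzg_pt_opt P0 PK z)))
    (h3 : ∀ z, ff_Uniq O 𝒜 C ff_Qb Λ lead (ff_ptIdeal ff_Qb (PK z)))
    (h4 : ∀ w x y z : Option ↥(mzg_fin_S N m T),
      mzg_pt_optCls (mzg_pt_cls N (mzg_fin_S N m T)) w +
        mzg_pt_optCls (mzg_pt_cls N (mzg_fin_S N m T)) x =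
        mzg_pt_optCls (mzg_pt_cls N (mzg_fin_S N m T)) y +
          mzg_pt_optCls (mzg_pt_cls N (mzg_fin_S N m T)) z →
      ff_LinEq O 𝒜 C κ Λ lead
        (ff_ptIdeal κ (mzg_pt_opt P0 Pκ w)) (ff_ptIdeal κ (mzg_pt_opt P0 Pκ x))
        (ff_ptIdeal κ (mzg_pt_opt P0 Pκ y)) (ff_ptIdeal κ (mzg_pt_opt P0 Pκ z)))
    (h5 : ∀ z, ff_Uniq O 𝒜 C κ Λ lead (ff_ptIdeal κ (Pκ z)))
    (h6 : ∀ σ ∈ L₁.fixingSubgroup, (∀ x ∈ mzg_fin_S N m T, σ • x ∈ mzg_fin_S N m T) →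
      ∀ z z' : ↥(mzg_fin_S N m T), (z' : JZero N) = σ • (z : JZero N) →
      ∀ a i, ff_symFun PK a i z' = σ (ff_symFun PK a i z))
    (h7 : ∀ z z', z ≠ z' → ∃ a i, ff_symFun PK a i z ≠ ff_symFun PK a i z')
    (h0 : (0 : JZero N) ∈ insert (0 : JZero N) T) :
    mzo_IsOrder A ↥(A.inertiaSubgroupIn ℚ) ↥(Submodule.torsionBy ℤ (JZero N) m)
      (ff_symAlg (mzg_fin_PK T PK 0 h0)) := by
  have hH : ∀ (x₀ : JZero N) (hx₀ : x₀ ∈ insert (0 : JZero N) T),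
      ffa_HHyp (mzg_fin_PK T PK x₀ hx₀) (mzg_fin_Pκ T Pκ x₀ hx₀) A.toSubring res :=
    mzg_fin_hhyp A L₁ res T PK Pκ hfix hO hker hresO hT h1 h6
  have hint : ∀ (x₀ : JZero N) (hx₀ : x₀ ∈ insert (0 : JZero N) T),
      ∀ φ ∈ ff_symAlg (mzg_fin_PK T PK x₀ hx₀), ∀ x, φ x ∈ A := fun x₀ hx₀ =>
    mzg_hh_int A L₁ O hO _ 𝒜 g _ (fun z j a => (h1 _ j a).1)
  have heqv : ∀ (x₀ : JZero N) (hx₀ : x₀ ∈ insert (0 : JZero N) T),
      ∀ φ ∈ ff_symAlg (mzg_fin_PK T PK x₀ hx₀),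
        mzg_q_Eq (A.inertiaSubgroupIn ℚ : Set ff_GQ)
          (fun σ (t t' : ↥(Submodule.torsionBy ℤ (JZero N) m)) =>
            x₀ + (t' : JZero N) = σ • (x₀ + (t : JZero N))) φ := fun x₀ hx₀ =>
    mzg_hh_eqv A L₁ O hO (A.inertiaSubgroupIn ℚ : Set ff_GQ) (fun y => hfix y) _ _ 𝒜 g _
      (mzg_fin_eqv A L₁ T PK hfix hT h6 x₀ hx₀)
  have hsep : ∀ (x₀ : JZero N) (hx₀ : x₀ ∈ insert (0 : JZero N) T)
      (x y : ↥(Submodule.torsionBy ℤ (JZero N) m)), x ≠ y →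
      ∃ φ ∈ ff_symAlg (mzg_fin_PK T PK x₀ hx₀), φ x ≠ φ y := by
    intro x₀ hx₀ x y hxy
    have hne : mzg_fin_e N m T x₀ hx₀ x ≠ mzg_fin_e N m T x₀ hx₀ y := by
      intro h
      have h' := congrArg (fun z : ↥(mzg_fin_S N m T) => (z : JZero N)) h
      simp only [mzg_fin_e_coe] at h'
      exact hxy (Subtype.ext (add_left_cancel h'))
    obtain ⟨a, i, hai⟩ := h7 _ _ hne
    exact ⟨ff_symFun (mzg_fin_PK T PK x₀ hx₀) a i, Algebra.subset_adjoin ⟨a, i, rfl⟩, hai⟩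
  refine ⟨hint 0 h0, ?_, hsep 0 h0, (hH 0 h0).fin, ?_⟩
  · intro φ hφ σ x
    refine heqv 0 h0 φ hφ (σ : ff_GQ) σ.2 x (σ • x) ?_
    change (0 : JZero N) + (σ : ff_GQ) • (x : JZero N) = (σ : ff_GQ) • (0 + (x : JZero N))
    rw [zero_add, zero_add]
  · exact mzg_add_co_all hpkg (hH 0 h0) (hH 0 h0) (mzg_fin_PK T PK 0 h0) (mzg_fin_Pκ T Pκ 0 h0) P0
      (fun x y => x + y)
      (fun x y => h2 (some (mzg_fin_e N m T 0 h0 (x + y))) none (some (mzg_fin_e N m T 0 h0 x))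
        (some (mzg_fin_e N m T 0 h0 y)) (mzg_fin_rel_co T 0 h0 h0 x y))
      (fun x y => h3 (mzg_fin_e N m T 0 h0 (x + y)))
      (fun x y => h4 (some (mzg_fin_e N m T 0 h0 (x + y))) none (some (mzg_fin_e N m T 0 h0 x))
        (some (mzg_fin_e N m T 0 h0 y)) (mzg_fin_rel_co T 0 h0 h0 x y))
      (fun x y => h5 (mzg_fin_e N m T 0 h0 (x + y)))

end Core

/-! ### the glue: equal symmetric functions of the reduced points ⟹ congruent -/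

section Glue

variable {O : Type} [CommRing O] [Algebra O ff_Qb] {𝒜 : Type} [CommRing 𝒜] [Algebra O 𝒜]
  {κ : Type} [Field κ] [Algebra O κ] {M : Type} {g : ℕ}
  (A : ValuationSubring ff_Qb) (res : ↥A →+* κ)

theorem m59p_cong_of_esymm
    (hker : ∀ c : ↥A, res c = 0 ↔ (c : ff_Qb) ∈ A.nonunits)
    (hOA : ∀ o : O, algebraMap O ff_Qb o ∈ A)
    (PK : M → Fin g → 𝒜 →ₐ[O] ff_Qb) (Pκ : M → Fin g → 𝒜 →ₐ[O] κ)
    (h1 : ∀ z j a, ∃ h : PK z j a ∈ A, res ⟨_, h⟩ = Pκ z j a)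
    (x y : M)
    (hsym : ∀ (a : 𝒜) (i : ℕ),
      ((Finset.univ : Finset (Fin g)).val.map fun j => Pκ x j a).esymm i =
        ((Finset.univ : Finset (Fin g)).val.map fun j => Pκ y j a).esymm i) :
    mzo_Cong A (ff_symAlg PK) x y := by
  -- the stronger statement: every `φ ∈ H` is `A`-valued at `x`, `y` with equal residues
  have key : ∀ φ ∈ ff_symAlg PK, ∃ (hx : φ x ∈ A) (hy : φ y ∈ A), res ⟨_, hx⟩ = res ⟨_, hy⟩ := by
    intro φ hφ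
    induction hφ using Algebra.adjoin_induction with
    | mem φ hφ =>
      obtain ⟨a, i, rfl⟩ := hφ
      -- `e_i` of integral elements, residue = `e_i` of the residues
      have hval : ∀ z : M, ∃ hz : ff_symFun PK a i z ∈ A,
          res ⟨_, hz⟩ = ((Finset.univ : Finset (Fin g)).val.map fun j => Pκ z j a).esymm i := by
        intro z
        choose hm hr using fun j => h1 z j a
        let c : Fin g → ↥A := fun j => ⟨PK z j a, hm j⟩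
        have e1 : ff_symFun PK a i z = A.subtype
            (∑ t ∈ Finset.powersetCard i (Finset.univ : Finset (Fin g)), ∏ j ∈ t, c j) := by
          unfold ff_symFun
          rw [Finset.esymm_map_val, map_sum]
          refine Finset.sum_congr rfl fun t _ => ?_
          rw [map_prod]
          rfl
        have hz : ff_symFun PK a i z ∈ A := by
          rw [e1]
          exact Subtype.property _
        refine ⟨hz, ?_⟩
        have e2 : (⟨ff_symFun PK a i z, hz⟩ : ↥A) =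
            ∑ t ∈ Finset.powersetCard i (Finset.univ : Finset (Fin g)), ∏ j ∈ t, c j :=
          Subtype.ext e1
        rw [e2, map_sum, Finset.esymm_map_val]
        refine Finset.sum_congr rfl fun t _ => ?_
        rw [map_prod]
        exact Finset.prod_congr rfl fun j _ => hr j
      obtain ⟨hx, hxr⟩ := hval x
      obtain ⟨hy, hyr⟩ := hval y
      exact ⟨hx, hy, by rw [hxr, hyr, hsym a i]⟩
    | algebraMap o =>
      refine ⟨hOA o, hOA o, rfl⟩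
    | add φ ψ _ _ ihφ ihψ =>
      obtain ⟨a1, a2, a3⟩ := ihφ
      obtain ⟨b1, b2, b3⟩ := ihψ
      refine ⟨A.add_mem _ _ a1 b1, A.add_mem _ _ a2 b2, ?_⟩
      have e1 : (⟨(φ + ψ) x, A.add_mem _ _ a1 b1⟩ : ↥A) = ⟨φ x, a1⟩ + ⟨ψ x, b1⟩ := rfl
      have e2 : (⟨(φ + ψ) y, A.add_mem _ _ a2 b2⟩ : ↥A) = ⟨φ y, a2⟩ + ⟨ψ y, b2⟩ := rfl
      rw [e1, e2, map_add, map_add, a3, b3]
    | mul φ ψ _ _ ihφ ihψ =>
      obtain ⟨a1, a2, a3⟩ := ihφ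
      obtain ⟨b1, b2, b3⟩ := ihψ
      refine ⟨A.mul_mem _ _ a1 b1, A.mul_mem _ _ a2 b2, ?_⟩
      have e1 : (⟨(φ * ψ) x, A.mul_mem _ _ a1 b1⟩ : ↥A) = ⟨φ x, a1⟩ * ⟨ψ x, b1⟩ := rfl
      have e2 : (⟨(φ * ψ) y, A.mul_mem _ _ a2 b2⟩ : ↥A) = ⟨φ y, a2⟩ * ⟨ψ y, b2⟩ := rfl
      rw [e1, e2, map_mul, map_mul, a3, b3]
  intro φ hφ
  obtain ⟨hx, hy, hxy⟩ := key φ hφ
  have h0 : res (⟨φ x, hx⟩ - ⟨φ y, hy⟩) = 0 := by rw [map_sub, hxy, sub_self]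
  exact (hker _).mp h0

end Glue

/-! ### (BR') -/

/-- `red x = 0` in terms of representatives. -/
theorem m59p_red_zero (N : ℕ) [NeZero N] (A : ValuationSubring ff_Qb)
    (hE : ReductionInputsModL A N)
    (Z : Divisor.degZero (K := ff_Qb) (F := ↥(modularFunctionFieldBar N)))
    (h : reductionModL A N (Pic0.mk Z) = 0) :
    Finsupp.mapDomain (placeReductionModL hE) (Z : Divisor ff_Qb ↥(modularFunctionFieldBar N)) ∈
      Divisor.principal (K := IsLocalRing.ResidueField ↥A)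
        (F := ↥(modularFunctionFieldFullC (IsLocalRing.ResidueField ↥A) N)) := by
  rw [reductionModL_mk hE] at h
  have h2 := (QuotientAddGroup.eq_zero_iff _).mp h
  rw [AddSubgroup.mem_addSubgroupOf] at h2
  exact h2

/-- **(BR') over a generic level.** -/
theorem m59p_BRprime_of_level (N : ℕ) [NeZero N] (ℓ : ℕ) [Fact ℓ.Prime] (hℓN : ¬ ℓ ∣ N) (k : ℕ)
    (hPKG : ffi_SeamPKG N ℓ)
    (A : ValuationSubring ff_Qb) (hA : A.LiesOverPrime ℓ) (hE : ReductionInputsModL A N)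
    (L : Type) [Field L] [Algebra ℚ L] [Algebra L ff_Qb] [IsScalarTower ℚ L ff_Qb]
    (lvl : ffi_LvlOK A L ℓ) :
    ∃ H : Subalgebra ↥(ffi_O A L) (↥(Submodule.torsionBy ℤ (JZero N) ((ℓ : ℤ) ^ k)) → ff_Qb),
      mzo_IsOrder A ↥(A.inertiaSubgroupIn ℚ)
        ↥(Submodule.torsionBy ℤ (JZero N) ((ℓ : ℤ) ^ k)) H ∧
      ∀ z : ↥(Submodule.torsionBy ℤ (JZero N) ((ℓ : ℤ) ^ k)),
        reductionModL A N (z : JZero N) = 0 → mzo_Cong A H z 0 := by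
  have hℓ : ℓ.Prime := Fact.out
  letI algκ : Algebra ↥(ffi_O A L) (IsLocalRing.ResidueField ↥A) := ffi_algOκ A L
  haveI := lvl.algClosed
  haveI := lvl.dvr
  haveI := ff_finite_tors N ℓ k
  have res : ffi_ResOK A L (IsLocalRing.ResidueField ↥A) (IsLocalRing.residue ↥A) :=
    ⟨IsLocalRing.residue_surjective, fun a => by
      rw [IsLocalRing.residue_eq_zero_iff, A.mem_nonunits_iff_exists_mem_maximalIdeal]
      exact ⟨fun h => ⟨a.2, h⟩, fun ⟨_, h⟩ => h⟩, fun _ => rfl⟩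
  obtain ⟨g, n, m0, c0, ιK, ικ, hD⟩ := hPKG hℓ hℓN A hA L lvl
  set T : Set (JZero N) := ∅ with hTdef
  have hTfin : T.Finite := Set.finite_empty
  have hT : ∀ x₀ ∈ T, ∀ σ ∈ A.inertiaSubgroupIn ℚ,
      σ • (((ℓ : ℤ) ^ k) • x₀) = ((ℓ : ℤ) ^ k) • x₀ := fun x₀ hx₀ => absurd hx₀ (by simp [hTdef])
  obtain ⟨PK, Pκ, P0, h1, h2, h3, h4, h5, h6, h7, -, h9⟩ :=
    m59p_pt_of_level N ℓ hℓ hℓN A hA L lvl (IsLocalRing.ResidueField ↥A) (IsLocalRing.residue ↥A)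
      res (placeReductionModL hE) (isPlaceReductionModL_placeReductionModL hE)
      hE.choose_spec.2 g n m0 c0 ιK ικ hD (mzg_fin_S N ((ℓ : ℤ) ^ k) T)
      (mzg_fin_S_finite N ((ℓ : ℤ) ^ k) T hTfin)
  have h0 : (0 : JZero N) ∈ insert (0 : JZero N) T := Set.mem_insert _ _
  have hO : Set.range (algebraMap ↥(ffi_O A L) ff_Qb) =
      (A : Set ff_Qb) ∩ ((IsScalarTower.toAlgHom ℚ L ff_Qb).fieldRange : Set ff_Qb) := by
    ext a
    constructor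
    · rintro ⟨o, rfl⟩
      exact ⟨o.2, ⟨(o : L), rfl⟩⟩
    · rintro ⟨haA, ⟨c, rfl⟩⟩
      exact ⟨⟨c, haA⟩, rfl⟩
  refine ⟨ff_symAlg (mzg_fin_PK T PK 0 h0), ?_, ?_⟩
  · refine m59p_fin_isOrder A (IsScalarTower.toAlgHom ℚ L ff_Qb).fieldRange
      (IsLocalRing.residue ↥A) T PK Pκ P0 (fun a => lvl.fix a) hO res.ker (fun o h => rfl) hD.pkg hT
      h1 h2 h3 h4 h5 ?_ h7 h0
    intro σ hσ hstab z z' hzz' a i
    refine h6 σ (fun c => ?_) hstab z z' hzz' a i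
    exact hσ ⟨algebraMap L ff_Qb c, ⟨c, rfl⟩⟩
  · intro z hz
    refine m59p_cong_of_esymm A (IsLocalRing.residue ↥A) res.ker
      (fun o => by
        have : algebraMap ↥(ffi_O A L) ff_Qb o ∈ (A : Set ff_Qb) ∩
            ((IsScalarTower.toAlgHom ℚ L ff_Qb).fieldRange : Set ff_Qb) := by
          rw [← hO]; exact ⟨o, rfl⟩
        exact this.1)
      (mzg_fin_PK T PK 0 h0) (mzg_fin_Pκ T Pκ 0 h0) (fun t j a => h1 _ j a) z 0 ?_
    obtain ⟨Z, hZ⟩ := Pic0.mk_surjective (z : JZero N)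
    have hpr := m59p_red_zero N A hE Z (by rw [hZ]; exact hz)
    refine h9 (mzg_fin_e N ((ℓ : ℤ) ^ k) T 0 h0 z) (mzg_fin_e N ((ℓ : ℤ) ^ k) T 0 h0 0) Z 0 ?_ ?_ ?_
    · rw [hZ, mzg_fin_e_coe, zero_add]
    · rw [mzg_fin_e_coe, zero_add]
      rfl
    · rw [AddSubgroup.coe_zero, Finsupp.mapDomain_zero, sub_zero]
      exact hpr

/-- **(BR')**: at every place `A` over `ℓ ∤ N` there is an order `H'` on `J₀(N)[ℓ^k]` for which every
point with trivial reduction in `Pic⁰(F̃_N)` is congruent to `0`. -/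
theorem m59p_BRprime (N : ℕ) [NeZero N] (ℓ : ℕ) [Fact ℓ.Prime] (hℓN : ¬ ℓ ∣ N) (k : ℕ)
    (A : ValuationSubring ff_Qb) (hA : A.LiesOverPrime ℓ) :
    ∃ H : Subalgebra ↥(ffi_O A ↥(ffi_L A))
        (↥(Submodule.torsionBy ℤ (JZero N) ((ℓ : ℤ) ^ k)) → ff_Qb),
      mzo_IsOrder A ↥(A.inertiaSubgroupIn ℚ)
        ↥(Submodule.torsionBy ℤ (JZero N) ((ℓ : ℤ) ^ k)) H ∧
      ∀ z : ↥(Submodule.torsionBy ℤ (JZero N) ((ℓ : ℤ) ^ k)),
        reductionModL A N (z : JZero N) = 0 → mzo_Cong A H z 0 := by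
  have hℓ : ℓ.Prime := Fact.out
  have hPKG : ffi_SeamPKG N ℓ :=
    ffi_pkg_of_seams N ℓ (ffi_ch N ℓ) ffi_fb1 ffi_fb2 ffi_gn ffi_pd ffi_gr (ffi_dk N ℓ)
      (ffi_dkap N ℓ)
  exact m59p_BRprime_of_level N ℓ hℓN k hPKG A hA (rpw_nodeE N ℓ hℓ hℓN A hA) ↥(ffi_L A)
    (ffi_lvi ℓ A hA)

end Fermat.Agent.M59


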