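/-
Project M59 (S59), block [P-STEP] = AtP (architect helper10), LAYER 2: THE TWO POINTWISE LEAVES, tag
`m59p_`.  Statements only.

The step at `l = p` in the contexts of helper3's `PrimRing.lean`: `C₀` at `(M₀, H₀)`, `C₁` at
`(M₀ p, m59epo_Hl M₀ p H₀)`, a link `Λ : m59epr_Link C₀ C₁` with `l := p` (legal once the field `hlS`
of the link reads `l ≠ p → l ∉ S₀`; nothing below mentions the arithmetic fields of the link).

* `m59p_EspPt_stmt`  : (P3), the pointwise form of (ES-p)₀: over an algebraically closed field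
  `K ⊇ 𝒪`, on a common eigenvector `v` of the Hecke ring of the LOWER level in `K ⊗ P₀` with
  eigensystem `χ`:  `χ(z) · (α_* β^*) v = (χ(z)² + p) · v`  for the eigenvalue `z` of a Frobenius
  element at `p` on an unramified quotient line of the representation of the lower datum
  (= `m59p_espGal` (M59/AtP/GalP.lean) + the transport of helper2);
* `m59p_NewPtP_stmt` : (P4), the pointwise form of (I3) at `p`: a common eigenvector of the Hecke ring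
  of the UPPER level in `K ⊗ P₁` killed by the two transfers has `χ(z'² − 1) = 0`
  (= helper2's `m59epn_bridge` + `m59p_newGal`).
-/
import Mathlib
import Fermat.Agent.M59.EP.PrimRing
import Fermat.Agent.M59.AtP.Seams

set_option autoImplicit false
set_option linter.unusedSectionVars false
set_option linter.unusedVariables false

noncomputable section

namespace Fermat.Agent.M59

open IsLocalRing Polynomial CuspForm Fermat.Agent.JT3 Fermat.Agent.LR Fermat.Agent.TW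
  CongruenceSubgroup TensorProduct
open scoped MatrixGroups

/-- **leaf (P3)**: (ES-p)₀ pointwise over an algebraically closed field `K ⊇ 𝒪`. -/
def m59p_EspPt_stmt : Prop :=
  ∀ {p : ℕ} [Fact p.Prime]
    {𝒪 : Type} [CommRing 𝒪] [IsDomain 𝒪] [IsDiscreteValuationRing 𝒪]
    [IsAdicComplete (maximalIdeal 𝒪) 𝒪] [Finite (ResidueField 𝒪)] [CharZero 𝒪]
    {N₀ N₁ : ℕ} [NeZero N₀] [NeZero N₁] {S₀ S₁ : Finset ℕ}
    {θ₀ : heckeAlgebra N₀ 2 (↑S₀ : Set ℕ) →+* ResidueField 𝒪}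
    {θ₁ : heckeAlgebra N₁ 2 (↑S₁ : Set ℕ) →+* ResidueField 𝒪}
    {ρbar : ResidualGaloisRep (ResidueField 𝒪)}
    {B₀ : twe_Base 𝒪 N₀ S₀ θ₀} {B₁ : twe_Base 𝒪 N₁ S₁ θ₁}
    {Q : Finset ℕ} [NeZero (twe_Nbal N₀ Q ∅)] [NeZero (twe_Nbal N₁ Q ∅)]
    {M₀ : ℕ} [NeZero M₀] [NeZero (M₀ * p)] {H₀ : Subgroup (ZMod M₀)ˣ}
    (C₀ : m59epr_Ctx ρbar B₀ p Q M₀ H₀)
    (C₁ : m59epr_Ctx ρbar B₁ p Q (M₀ * p) (m59epo_Hl M₀ p H₀)) (Λ : m59epr_Link C₀ C₁),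
    (∀ (htM : ∀ t : ↥Q, (t : ℕ) ∣ M₀) (u : (ZMod M₀)ˣ),
      (∀ t : ↥Q, ZMod.unitsMap (htM t) u = 1) → u ∈ H₀) →
    ∀ (K : Type) [Field K] [IsAlgClosed K] [Algebra 𝒪 K],
    Function.Injective (algebraMap 𝒪 K) →
    ∀ P : ValuationSubring (AlgebraicClosure ℚ), P.LiesOverPrime p →
    ∀ σ : AlgebraicClosure ℚ ≃ₐ[ℚ] AlgebraicClosure ℚ, P.IsFrobeniusAt σ p →
    ∀ z : C₀.data.B'.T, m59p_IsUrEig C₀.data.B'.H.ρ P σ z →
    ∀ (χ : C₀.data.B'.T →ₐ[𝒪] K) (v : K ⊗[𝒪] C₀.data.P), v ≠ 0 →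
      (∀ x, (C₀.data.ψ x).baseChange K v = χ x • v) →
      χ z • (m59epr_cAt Λ).baseChange K ((m59epr_cB Λ).baseChange K v) =
        (χ z ^ 2 + (p : K)) • v

/-- **leaf (P4)**: (I3) at `p` pointwise over an algebraically closed field `K ⊇ 𝒪`. -/
def m59p_NewPtP_stmt : Prop :=
  ∀ {p : ℕ} [Fact p.Prime]
    {𝒪 : Type} [CommRing 𝒪] [IsDomain 𝒪] [IsDiscreteValuationRing 𝒪]
    [IsAdicComplete (maximalIdeal 𝒪) 𝒪] [Finite (ResidueField 𝒪)] [CharZero 𝒪]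
    {N₀ N₁ : ℕ} [NeZero N₀] [NeZero N₁] {S₀ S₁ : Finset ℕ}
    {θ₀ : heckeAlgebra N₀ 2 (↑S₀ : Set ℕ) →+* ResidueField 𝒪}
    {θ₁ : heckeAlgebra N₁ 2 (↑S₁ : Set ℕ) →+* ResidueField 𝒪}
    {ρbar : ResidualGaloisRep (ResidueField 𝒪)}
    {B₀ : twe_Base 𝒪 N₀ S₀ θ₀} {B₁ : twe_Base 𝒪 N₁ S₁ θ₁}
    {Q : Finset ℕ} [NeZero (twe_Nbal N₀ Q ∅)] [NeZero (twe_Nbal N₁ Q ∅)]
    {M₀ : ℕ} [NeZero M₀] [NeZero (M₀ * p)] {H₀ : Subgroup (ZMod M₀)ˣ}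
    (C₀ : m59epr_Ctx ρbar B₀ p Q M₀ H₀)
    (C₁ : m59epr_Ctx ρbar B₁ p Q (M₀ * p) (m59epo_Hl M₀ p H₀)) (Λ : m59epr_Link C₀ C₁),
    (∀ (htM : ∀ t : ↥Q, (t : ℕ) ∣ M₀) (u : (ZMod M₀)ˣ),
      (∀ t : ↥Q, ZMod.unitsMap (htM t) u = 1) → u ∈ H₀) →
    ∀ (K : Type) [Field K] [IsAlgClosed K] [Algebra 𝒪 K],
    Function.Injective (algebraMap 𝒪 K) →
    ∀ P : ValuationSubring (AlgebraicClosure ℚ), P.LiesOverPrime p →
    ∀ σ : AlgebraicClosure ℚ ≃ₐ[ℚ] AlgebraicClosure ℚ, P.IsFrobeniusAt σ p →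
    ∀ z' : C₁.data.B'.T, m59p_IsUrEig C₁.data.B'.H.ρ P σ z' →
    ∀ (χ : C₁.data.B'.T →ₐ[𝒪] K) (v : K ⊗[𝒪] C₁.data.P), v ≠ 0 →
      (∀ x, (C₁.data.ψ x).baseChange K v = χ x • v) →
      (m59epr_cAt Λ).baseChange K v = 0 → (m59epr_cBt Λ).baseChange K v = 0 →
      χ (z' ^ 2 - 1) = 0

end Fermat.Agent.M59
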