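/-
Project M59 (S59), block [P-STEP] = AtP (architect helper10), LAYER 2: THE CELLS OF THE STEP AT `l = p`,
tag `m59p_`.

For two contexts `C₀` at `(M₀, H₀)`, `C₁` at `(M₀ p, m59epo_Hl M₀ p H₀)` of helper3's `PrimRing.lean`
and a link `Λ : m59epr_Link C₀ C₁` with `l := p`:

* `m59p_cTp Λ := α_* β^*`, `m59p_cBt_cA : β_* α^* = α_* β^*` (both are the Betti `T_p`);
* `m59p_piT_surjective` : the good primes of the two levels coincide (`p` is bad for both), hence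
  `m59epr_piT Λ : T'₁ → T'₀` is onto; `m59p_cTp_hecke`, `m59p_cTp_dia`;
* `m59p_cell_esp` : the field `esp` from the pointwise leaf (P3) (`m59p_esp_alg`);
* `m59p_stepDataP_of` : the step `m59p_StepDataP C₀.data C₁.data` from (L1), (L2), (P3), (P4).
-/
import Mathlib
import Fermat.Agent.M59.EP.AsmCells
import Fermat.Agent.M59.AtP.SeamsP
import Fermat.Agent.M59.AtP.AsmP
import Fermat.Agent.M59.AtP.AlgP

set_option autoImplicit false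
set_option linter.unusedSectionVars false
set_option linter.unusedVariables false
set_option linter.style.haveILetI false
set_option synthInstance.maxHeartbeats 400000
set_option maxHeartbeats 1000000

noncomputable section

namespace Fermat.Agent.M59

open IsLocalRing Polynomial CuspForm Fermat.Agent.JT3 Fermat.Agent.LR Fermat.Agent.TW
  CongruenceSubgroup TensorProduct
open scoped MatrixGroups

section general

variable {p : ℕ} [Fact p.Prime]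
  {𝒪 : Type} [CommRing 𝒪] [IsDomain 𝒪] [IsDiscreteValuationRing 𝒪]
  [IsAdicComplete (maximalIdeal 𝒪) 𝒪] [Finite (ResidueField 𝒪)] [CharZero 𝒪]
  {N₀ N₁ : ℕ} [NeZero N₀] [NeZero N₁] {S₀ S₁ : Finset ℕ}
  {θ₀ : heckeAlgebra N₀ 2 (↑S₀ : Set ℕ) →+* ResidueField 𝒪}
  {θ₁ : heckeAlgebra N₁ 2 (↑S₁ : Set ℕ) →+* ResidueField 𝒪}
  {ρbar : ResidualGaloisRep (ResidueField 𝒪)}
  {B₀ : twe_Base 𝒪 N₀ S₀ θ₀} {B₁ : twe_Base 𝒪 N₁ S₁ θ₁}
  {Q : Finset ℕ} [NeZero (twe_Nbal N₀ Q ∅)] [NeZero (twe_Nbal N₁ Q ∅)]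
  {M₀ : ℕ} [NeZero M₀] [NeZero (M₀ * p)] {H₀ : Subgroup (ZMod M₀)ˣ}
  {C₀ : m59epr_Ctx ρbar B₀ p Q M₀ H₀}
  {C₁ : m59epr_Ctx ρbar B₁ p Q (M₀ * p) (m59epo_Hl M₀ p H₀)}

/-- the Betti operator `T_p = α_* β^*` on the primary part of the lower level. -/
def m59p_cTp (Λ : m59epr_Link C₀ C₁) : C₀.data.P →ₗ[𝒪] C₀.data.P :=
  (m59epr_cAt Λ) ∘ₗ (m59epr_cB Λ)

theorem m59p_cTp_apply (Λ : m59epr_Link C₀ C₁) (z : C₀.data.P) :
    m59p_cTp Λ z = m59epr_cAt Λ (m59epr_cB Λ z) := rfl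

/-- `β_* α^* = α_* β^*`. -/
theorem m59p_cBt_cA (Λ : m59epr_Link C₀ C₁) (z : C₀.data.P) :
    m59epr_cBt Λ (m59epr_cA Λ z) = m59p_cTp Λ z := by
  apply Subtype.ext
  show ((m59epr_pBt Λ.hlM H₀ Λ.s Λ.hs Λ.hnice C₀.F C₁.F Λ.hm Λ.hHm Λ.e Λ.hq C₀.a C₁.a Λ.hres
      Λ.hInd (m59epr_pA Λ.hlM H₀ Λ.s Λ.hs Λ.hnice C₀.F C₁.F Λ.hm Λ.hHm Λ.e Λ.hq C₀.a C₁.a
        Λ.hres z) : ↥(twe_pr_prim (twe_sm_TY 𝒪 C₀.F) C₀.a)) :
        ↥(twe_wl_V 𝒪 𝒪 (twe_GamH M₀ H₀))) =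
    ((m59epr_pAt Λ.hlM H₀ Λ.s Λ.hs Λ.hnice C₀.F C₁.F Λ.hm Λ.hHm Λ.e Λ.hq C₀.a C₁.a Λ.hres
      Λ.hInd (m59epr_pB Λ.hlM H₀ Λ.s Λ.hs Λ.hnice C₀.F C₁.F Λ.hm Λ.hHm Λ.e Λ.hq C₀.a C₁.a
        Λ.hres z) : ↥(twe_pr_prim (twe_sm_TY 𝒪 C₀.F) C₀.a)) :
        ↥(twe_wl_V 𝒪 𝒪 (twe_GamH M₀ H₀)))
  rw [m59epr_pBt_coe, m59epr_pA_coe, m59epo_lBt_lA, m59epr_pAt_coe, m59epr_pB_coe, m59epo_lAt_lB]

theorem m59p_cTp_dia (Λ : m59epr_Link C₀ C₁) (δ : twe_Delta p Q) (z : C₀.data.P) :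
    m59p_cTp Λ (C₀.data.ρ δ z) = C₀.data.ρ δ (m59p_cTp Λ z) := by
  rw [m59p_cTp_apply, m59p_cTp_apply, m59epr_cB_dia, m59epr_cAt_dia]

/-- at `l = p` the good primes of the lower level are good for the upper level. -/
theorem m59p_e_surjective (Λ : m59epr_Link C₀ C₁) : Function.Surjective Λ.e := by
  intro j
  have hjp : j.1 ≠ p := by
    intro h
    exact j.2.2.2 (Finset.mem_coe.2 (Finset.mem_union_left _ (h ▸ C₀.hpS)))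
  have hjS : j.1 ∉ (↑(S₁ ∪ Q) : Set ℕ) := by
    intro h
    rcases Finset.mem_union.1 (Finset.mem_coe.1 h) with h1 | h1
    · rcases (Λ.hS j.1).1 h1 with h2 | h2
      · exact j.2.2.2 (Finset.mem_coe.2 (Finset.mem_union_left _ h2))
      · exact hjp h2
    · exact j.2.2.2 (Finset.mem_coe.2 (Finset.mem_union_right _ h1))
  have hjN : ¬ j.1 ∣ twe_Nbal N₁ Q ∅ := fun h =>
    hjS (Finset.mem_coe.2 (C₁.hNS' j.1 j.2.1 h))
  exact ⟨⟨j.1, j.2.1, hjN, hjS⟩, rfl⟩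

/-- at `l = p` the ring map `T'₁ → T'₀` is onto. -/
theorem m59p_piT_surjective (Λ : m59epr_Link C₀ C₁) : Function.Surjective (m59epr_piT Λ) := by
  have hgen := twe_sa_gen C₀.B' C₀.hNS'
  have hle : Algebra.adjoin 𝒪 (Set.range (twe_sa_tau C₀.B')) ≤ (m59epr_piT Λ).range := by
    refine Algebra.adjoin_le ?_
    rintro _ ⟨j, rfl⟩
    obtain ⟨i, rfl⟩ := m59p_e_surjective Λ j
    exact ⟨twe_sa_tau C₁.B' i, m59epr_piT_tau Λ i⟩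
  rw [hgen] at hle
  intro y
  obtain ⟨x, hx⟩ := hle (Algebra.mem_top (R := 𝒪) (x := y))
  exact ⟨x, hx⟩

/-- `T_p` commutes with the Hecke ring of the lower level. -/
theorem m59p_cTp_hecke (Λ : m59epr_Link C₀ C₁) (y : C₀.data.B'.T) (z : C₀.data.P) :
    m59p_cTp Λ (C₀.data.ψ y z) = C₀.data.ψ y (m59p_cTp Λ z) := by
  obtain ⟨x, rfl⟩ := m59p_piT_surjective Λ y
  rw [m59p_cTp_apply, m59p_cTp_apply, ← m59epr_cB_hecke, m59epr_cAt_hecke]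

/-- **the field `esp`** of the step at `p` from the pointwise leaf (P3). -/
theorem m59p_cell_esp (h3 : m59p_EspPt_stmt) (Λ : m59epr_Link C₀ C₁)
    (hH : ∀ (htM : ∀ t : ↥Q, (t : ℕ) ∣ M₀) (u : (ZMod M₀)ˣ),
      (∀ t : ↥Q, ZMod.unitsMap (htM t) u = 1) → u ∈ H₀)
    (P : ValuationSubring (AlgebraicClosure ℚ)) (hP : P.LiesOverPrime p)
    (σ : AlgebraicClosure ℚ ≃ₐ[ℚ] AlgebraicClosure ℚ) (hσ : P.IsFrobeniusAt σ p)
    (z : C₀.data.B'.T) (hz : m59p_IsUrEig C₀.data.B'.H.ρ P σ z) (m : C₀.data.P) :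
    ((fun m' : C₀.data.P => C₀.data.ψ z (m59p_cTp Λ m') -
      C₀.data.ψ (z ^ 2 + (p : C₀.data.B'.T)) m')^[B₀.d * 2 ^ Q.card]) m = 0 := by
  have hK : Function.Injective (algebraMap 𝒪 (AlgebraicClosure (FractionRing 𝒪))) :=
    (algebraMap (FractionRing 𝒪) (AlgebraicClosure (FractionRing 𝒪))).injective.comp
      (IsFractionRing.injective 𝒪 (FractionRing 𝒪))
  have h := m59p_esp_alg (K := AlgebraicClosure (FractionRing 𝒪)) hK C₀.data.ρ C₀.data.v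
    C₀.data.b C₀.data.hb C₀.data.ψ C₀.data.comm (m59p_cTp Λ) (m59p_cTp_dia Λ)
    (m59p_cTp_hecke Λ) z (z ^ 2 + (p : C₀.data.B'.T))
    (fun χ v hv hχ => by
      have h0 := h3 C₀ C₁ Λ hH (AlgebraicClosure (FractionRing 𝒪)) hK P hP σ hσ z hz χ v hv hχ
      have h1 : (m59p_cTp Λ).baseChange (AlgebraicClosure (FractionRing 𝒪)) v =
          (m59epr_cAt Λ).baseChange (AlgebraicClosure (FractionRing 𝒪))
            ((m59epr_cB Λ).baseChange (AlgebraicClosure (FractionRing 𝒪)) v) := by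
        rw [m59p_cTp, LinearMap.baseChange_comp]
        rfl
      rw [h1, h0, map_add, map_pow, map_natCast])
  rw [Fintype.card_fin, m59epa_rank C₀.data] at h
  have h2 := LinearMap.congr_fun h m
  rw [LinearMap.zero_apply, Module.End.pow_apply] at h2
  exact h2

end general

section same

variable {p : ℕ} [Fact p.Prime]
  {𝒪 : Type} [CommRing 𝒪] [IsDomain 𝒪] [IsDiscreteValuationRing 𝒪]
  [IsAdicComplete (maximalIdeal 𝒪) 𝒪] [Finite (ResidueField 𝒪)] [CharZero 𝒪]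
  {N₀ N₁ : ℕ} [NeZero N₀] [NeZero N₁] {S : Finset ℕ}
  {θ₀ : heckeAlgebra N₀ 2 (↑S : Set ℕ) →+* ResidueField 𝒪}
  {θ₁ : heckeAlgebra N₁ 2 (↑S : Set ℕ) →+* ResidueField 𝒪}
  {ρbar : ResidualGaloisRep (ResidueField 𝒪)}
  {B₀ : twe_Base 𝒪 N₀ S θ₀} {B₁ : twe_Base 𝒪 N₁ S θ₁}
  {Q : Finset ℕ} [NeZero (twe_Nbal N₀ Q ∅)] [NeZero (twe_Nbal N₁ Q ∅)]
  {M₀ : ℕ} [NeZero M₀] [NeZero (M₀ * p)] {H₀ : Subgroup (ZMod M₀)ˣ}
  {C₀ : m59epr_Ctx ρbar B₀ p Q M₀ H₀}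
  {C₁ : m59epr_Ctx ρbar B₁ p Q (M₀ * p) (m59epo_Hl M₀ p H₀)}

/-- **the step at `l = p` from the four leaves** (L1), (L2), (P3), (P4). -/
def m59p_stepDataP_of (h1 : m59eps_IhInv_stmt) (h2 : m59eps_IhOnto_stmt)
    (h3 : m59p_EspPt_stmt) (h4 : m59p_NewPtP_stmt) (Λ : m59epr_Link C₀ C₁)
    (hH : ∀ (htM : ∀ t : ↥Q, (t : ℕ) ∣ M₀) (u : (ZMod M₀)ˣ),
      (∀ t : ↥Q, ZMod.unitsMap (htM t) u = 1) → u ∈ H₀) :
    m59p_StepDataP C₀.data C₁.data :=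
  have hsplit : ∃ r : C₁.data.P →ₗ[𝒪] C₀.data.P × C₀.data.P,
      (∀ (δ : twe_Delta p Q) (m : C₁.data.P),
        r (C₁.data.ρ δ m) = (C₀.data.ρ δ (r m).1, C₀.data.ρ δ (r m).2)) ∧
      ∀ x y : C₀.data.P, r (m59epr_cA Λ x + m59epr_cB Λ y) = (x, y) :=
    m59epa_step_split_inv C₀.hp𝒪 C₀.data C₁.data (m59epr_cA Λ) (m59epr_cB Λ) (m59epr_cA_dia Λ)
      (m59epr_cB_dia Λ) (h1 C₀ C₁ Λ)
  { πT := m59epr_piT Λ
    πT_T := fun q hq h1 h2 h3 => m59epr_piT_T Λ q hq h1 h2 h3 h2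
    A := m59epr_cA Λ
    B := m59epr_cB Λ
    At := m59epr_cAt Λ
    Bt := m59epr_cBt Λ
    Tp := m59p_cTp Λ
    A_dia := m59epr_cA_dia Λ
    B_dia := m59epr_cB_dia Λ
    At_dia := m59epr_cAt_dia Λ
    Bt_dia := m59epr_cBt_dia Λ
    A_hecke := m59epr_cA_hecke Λ
    B_hecke := m59epr_cB_hecke Λ
    At_hecke := m59epr_cAt_hecke Λ
    Bt_hecke := m59epr_cBt_hecke Λ
    At_A := fun z => m59epr_pAt_pA Λ.hlM H₀ Λ.s Λ.hs Λ.hnice C₀.F C₁.F Λ.hm Λ.hHm Λ.e Λ.hq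
      C₀.a C₁.a Λ.hres Λ.hInd z
    Bt_B := fun z => m59epr_pBt_pB Λ.hlM H₀ Λ.s Λ.hs Λ.hnice C₀.F C₁.F Λ.hm Λ.hHm Λ.e Λ.hq
      C₀.a C₁.a Λ.hres Λ.hInd z
    At_B := fun z => rfl
    Bt_A := fun z => m59p_cBt_cA Λ z
    split := hsplit
    onto := m59epa_step_onto C₀.hp𝒪 C₀.data C₁.data (m59epr_cAt Λ) (m59epr_cBt Λ)
      (m59epr_cAt_dia Λ) (m59epr_cBt_dia Λ) (h2 C₀ C₁ Λ)
    esp := fun P hP σ hσ z hz m => m59p_cell_esp h3 Λ hH P hP σ hσ z hz m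
    new := fun P hP σ hσ z' hz' =>
      m59epa_step_new C₀.data C₁.data (m59epr_piT Λ) (m59epr_cA Λ) (m59epr_cB Λ) (m59epr_cAt Λ)
        (m59epr_cBt Λ) (m59epr_cA_dia Λ) (m59epr_cB_dia Λ) (m59epr_cA_hecke Λ)
        (m59epr_cB_hecke Λ) (m59epr_cAt_hecke Λ) (m59epr_cBt_hecke Λ) hsplit
        (K := AlgebraicClosure (FractionRing 𝒪))
        ((algebraMap (FractionRing 𝒪) (AlgebraicClosure (FractionRing 𝒪))).injective.comp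
          (IsFractionRing.injective 𝒪 (FractionRing 𝒪)))
        (z' ^ 2 - 1)
        (fun χ v hv hχ hAt hBt =>
          h4 C₀ C₁ Λ hH (AlgebraicClosure (FractionRing 𝒪))
            ((algebraMap (FractionRing 𝒪) (AlgebraicClosure (FractionRing 𝒪))).injective.comp
              (IsFractionRing.injective 𝒪 (FractionRing 𝒪))) P hP σ hσ z' hz' χ v hv hχ hAt hBt) }

end same

end Fermat.Agent.M59
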