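/-
S59 project, block [AtP] (helper10; prefix `m59p_`): IHARA'S LEMMA AT `q = p`.
On main (`LR/IH/Glue.lean`, `LR/IH/Closed.lean`) the hypothesis `q ≠ p` is consumed at exactly one
line (`lrih_unip`).  Here: if `V` is killed by `q` (e.g. `V = ZMod p`, `q = p`), a trace-2 element `g`
of `Γ₀(N)[1/q]` is a `q`-th power `g = h ^ q` with `h` again in `Γ₀(N)[1/q]`, so `Φ g = q • Φ h = 0`.
Headline: `m59p_ihara` (= `lrih_ihara` with `q = p`, `V = ZMod p`).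
-/
import Mathlib
import Fermat.Agent.LR.IH.Closed

set_option autoImplicit false

noncomputable section

open CongruenceSubgroup Matrix.SpecialLinearGroup
open scoped MatrixGroups OnePoint
open Fermat.Agent.JT3

universe u

namespace Fermat.Agent.M59

open Fermat.Agent.LR

/-- the `q`-th root of a trace-2 element -/
def m59p_root (q : ℕ) (hq : q ≠ 0) (g : CspM) (ht : g.a + g.d = 2) : CspM :=
  ⟨1 + (g.a - 1) / q, g.b / q, g.c / q, 1 + (g.d - 1) / q, by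
    have hq' : (q : ℚ) ≠ 0 := by exact_mod_cast hq
    have hdet := g.det
    have hd : g.d = 2 - g.a := by linarith
    rw [hd] at hdet ⊢
    field_simp
    linear_combination hdet⟩

theorem m59p_root_trace (q : ℕ) (hq : q ≠ 0) (g : CspM) (ht : g.a + g.d = 2) :
    (m59p_root q hq g ht).a + (m59p_root q hq g ht).d = 2 := by
  have hq' : (q : ℚ) ≠ 0 := by exact_mod_cast hq
  have hd : g.d = 2 - g.a := by linarith
  simp only [m59p_root]
  rw [hd]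
  field_simp
  ring

theorem m59p_root_pow (q : ℕ) (hq : q ≠ 0) (g : CspM) (ht : g.a + g.d = 2) :
    (m59p_root q hq g ht) ^ q = g := by
  have hq' : (q : ℚ) ≠ 0 := by exact_mod_cast hq
  obtain ⟨pa, pb, pc, pd⟩ := lrih_pow_unip (m59p_root q hq g ht) (m59p_root_trace q hq g ht) q
  ext
  · rw [pa]; simp only [m59p_root]; field_simp; ring
  · rw [pb]; simp only [m59p_root]; field_simp
  · rw [pc]; simp only [m59p_root]; field_simp
  · rw [pd]; simp only [m59p_root]; field_simp; ring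

theorem m59p_root_mem {q : ℕ} (hq : q ≠ 0) {N : ℤ} {g : CspM} (hg : g ∈ csp_Gam0 q N)
    (ht : g.a + g.d = 2) : m59p_root q hq g ht ∈ csp_Gam0 q N := by
  obtain ⟨hA, hcI⟩ := hg
  obtain ⟨ha, hb, hc, hd⟩ := csp_GamA_mem_iff.1 hA
  have hinv := csp_A_qinv hq
  have one := Subring.one_mem (csp_A q)
  refine ⟨csp_GamA_mem_iff.2 ⟨?_, ?_, ?_, ?_⟩, ?_⟩
  · show 1 + (g.a - 1) / q ∈ csp_A q
    rw [div_eq_mul_inv]
    exact Subring.add_mem _ one (Subring.mul_mem _ (Subring.sub_mem _ ha one) hinv)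
  · show g.b / q ∈ csp_A q
    rw [div_eq_mul_inv]; exact Subring.mul_mem _ hb hinv
  · show g.c / q ∈ csp_A q
    rw [div_eq_mul_inv]; exact Subring.mul_mem _ hc hinv
  · show 1 + (g.d - 1) / q ∈ csp_A q
    rw [div_eq_mul_inv]
    exact Subring.add_mem _ one (Subring.mul_mem _ (Subring.sub_mem _ hd one) hinv)
  · show g.c / q ∈ csp_I q N
    rw [div_eq_mul_inv]; exact csp_I_mul_right hcI hinv

/-- **twin of `lrih_unip` for `q = p`**: no `q ≠ p`, no `csp_PTors`; `V` is killed by `q`. -/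
theorem m59p_unip {N q : ℕ} (hq : q.Prime)
    {V : Type*} [AddCommGroup V] (hqV : ∀ v : V, q • v = 0) {Φ : CspM → V}
    (hmul : ∀ g h, g ∈ csp_Gam0 q (N : ℤ) → h ∈ csp_Gam0 q (N : ℤ) → Φ (g * h) = Φ g + Φ h)
    (g : CspM) (hg : g ∈ csp_Gam0 q (N : ℤ)) (ht : g.a + g.d = 2) : Φ g = 0 := by
  have hmem := m59p_root_mem hq.ne_zero hg ht
  rw [← m59p_root_pow q hq.ne_zero g ht, lrih_map_pow hmul hmem]
  exact hqV _

/-- twin of `lrih_congr` -/
theorem m59p_congr (hA : lrih_Amalg_stmt.{u}) (hX : csp_X_stmt.{u}) {N q : ℕ} [Fact q.Prime]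
    (hN : 1 < N) (hqN : ¬ q ∣ N) (hq2 : q ≠ 2)
    {V : Type u} [AddCommGroup V] (hV : csp_PTors q V) (hqV : ∀ v : V, q • v = 0)
    (x y : Additive (Gamma0 N) →+ V) (hx : x ∈ gh_parEllHoms N V)
    (hxy : lrm_resA N q x + lrm_resB hqN y = 0) :
    (∀ g h : Gamma0 N, (N : ℤ) ∣ (g : SL(2, ℤ)) 0 0 - (h : SL(2, ℤ)) 0 0 →
      x (Additive.ofMul g) = x (Additive.ofMul h)) ∧ y = -x := by
  have hq : q.Prime := Fact.out
  have hcop : IsCoprime (N : ℤ) (q : ℤ) :=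
    (Nat.isCoprime_iff_coprime.mpr ((Nat.Prime.coprime_iff_not_dvd hq).mpr hqN)).symm
  obtain ⟨Φ, hmul, hΦx, hΦy⟩ := hA N q hqN x y hxy
  have hun : ∀ g, g ∈ csp_Gam0 q (N : ℤ) → g.a + g.d = 2 → Φ g = 0 :=
    fun g hg ht => m59p_unip hq hqV hmul g hg ht
  have hXΦ := hX q q (N : ℤ) hq hq hq2 (by exact_mod_cast hN) hcop hV Φ hmul hun
  refine ⟨fun g h hdvd => ?_, ?_⟩
  · rw [← hΦx g, ← hΦx h]
    refine hXΦ _ _ (lrih_toCsp_mem q g) (lrih_toCsp_mem q h) ?_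
    rw [lrih_toCsp_a, lrih_toCsp_a, ← Int.cast_sub]
    exact csp_I_of_int hdvd
  · refine AddMonoidHom.ext fun γ' => ?_
    obtain ⟨γ, rfl⟩ := Additive.ofMul.surjective γ'
    have h1 : Φ (lrih_i2 q (γ : SL(2, ℤ))) = Φ (lrih_toCsp (γ : SL(2, ℤ))) := by
      refine hXΦ _ _ (lrih_i2_mem hq.ne_zero γ) (lrih_toCsp_mem q γ) ?_
      rw [lrih_toCsp_a, lrih_i2_a hq.ne_zero, sub_self]
      exact zero_mem _
    rw [hΦy, hΦx] at h1
    rw [AddMonoidHom.neg_apply, ← h1, neg_neg]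

/-- twin of `lrih_eisenstein` -/
theorem m59p_eisenstein (hA : lrih_Amalg_stmt.{u}) (hX : csp_X_stmt.{u}) {N q : ℕ} [Fact q.Prime]
    (hN : 0 < N) (hqN : ¬ q ∣ N) (hq2 : q ≠ 2)
    {V : Type u} [AddCommGroup V] (hV : csp_PTors q V) (hqV : ∀ v : V, q • v = 0)
    (x y : Additive (Gamma0 N) →+ V) (hx : x ∈ gh_parEllHoms N V) (hy : y ∈ gh_parEllHoms N V)
    (hxy : lrm_resA N q x + lrm_resB hqN y = 0)
    (l : ℕ) [Fact l.Prime] (hlN : ¬ l ∣ N) :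
    t2c_Tadd hlN x = (l + 1) • x ∧ t2c_Tadd hlN y = (l + 1) • y := by
  rcases Nat.lt_or_ge 1 N with h1 | h1
  · obtain ⟨hK, hyx⟩ := m59p_congr hA hX h1 hqN hq2 hV hqV x y hx hxy
    have e := lrih_hecke_of_congr hlN x hK
    refine ⟨e, ?_⟩
    rw [hyx, map_neg, e, smul_neg]
  · have : N = 1 := by omega
    subst this
    rw [lrih_level_one x hx, lrih_level_one y hy]
    simp

/-- twin of `lrih_eisenstein_H` -/
theorem m59p_eisenstein_H (hA : lrih_Amalg_stmt.{u}) (hX : csp_X_stmt.{u}) {N q : ℕ}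
    [Fact q.Prime] (hN : 0 < N) (hqN : ¬ q ∣ N) (hq2 : q ≠ 2)
    {V : Type u} [AddCommGroup V] (hV : csp_PTors q V) (hqV : ∀ v : V, q • v = 0)
    (ψ : (gh_H N →+ V) × (gh_H N →+ V)) (hψ : lrh_i hqN V ψ = 0)
    (l : ℕ) [Fact l.Prime] (hlN : ¬ l ∣ N) :
    ψ.1.comp (t2e_TH hlN) = (l + 1) • ψ.1 ∧ ψ.2.comp (t2e_TH hlN) = (l + 1) • ψ.2 := by
  have hxy : lrm_resA N q (ψ.1.comp (gh_mk N)) + lrm_resB hqN (ψ.2.comp (gh_mk N)) = 0 := by
    rw [← lrh_pull_A, ← lrh_pull_B, ← AddMonoidHom.add_comp]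
    have : ψ.1.comp (lrh_A N q) + ψ.2.comp (lrh_B hqN) = 0 := hψ
    rw [this, AddMonoidHom.zero_comp]
  obtain ⟨e1, e2⟩ := m59p_eisenstein hA hX hN hqN hq2 hV hqV _ _
    (gh_comp_mk_parEll ψ.1) (gh_comp_mk_parEll ψ.2) hxy l hlN
  constructor
  · apply lrh_comp_mk_injective
    rw [t2e_comp_TH, e1]
    rfl
  · apply lrh_comp_mk_injective
    rw [t2e_comp_TH, e2]
    rfl

/-- **Ihara's lemma at `q = p`, closed** (`V = ZMod p`). -/
theorem m59p_ihara {N p : ℕ} [Fact p.Prime] (hN : 0 < N) (hpN : ¬ p ∣ N) (hp2 : p ≠ 2)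
    (ψ : (gh_H N →+ ZMod p) × (gh_H N →+ ZMod p)) (hψ : lrh_i hpN (ZMod p) ψ = 0)
    (l : ℕ) [Fact l.Prime] (hlN : ¬ l ∣ N) :
    ψ.1.comp (t2e_TH hlN) = (l + 1) • ψ.1 ∧ ψ.2.comp (t2e_TH hlN) = (l + 1) • ψ.2 :=
  m59p_eisenstein_H lra_amalg_stmt.{0} csp_x_closed.{0} hN hpN hp2
    (lrih_pTors_zmod (Fact.out : p.Prime))
    (fun v => by
      rw [nsmul_eq_mul]
      have : ((p : ℕ) : ZMod p) = 0 := ZMod.natCast_self p
      rw [this, zero_mul]) ψ hψ l hlN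

end Fermat.Agent.M59


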