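/-
Project M59 (S59), block [P-STEP] = AtP (architect helper10), THE CLOSER, tag `m59p_`.

`m59p_stepOfLinkP` : helper3's single Prop `m59eps_StepOfLinkP_stmt` (M59/EP/AsmChainP.lean) from the two
                     pointwise leaves (P3), (P4) of `SeamsP.lean`  ((L1), (L2) are used closed);
`m59p_chainP_of`   : `m59p_EspPt_stmt → m59p_NewPtP_stmt → m59p_ChainP_stmt`
                     (= helper3's `m59eps_chainP_of` on top of it).
-/
import Mathlib
import Fermat.Agent.M59.EP.AsmChainP
import Fermat.Agent.M59.EP.IhGlueClosed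
import Fermat.Agent.M59.EP.IhOnto
import Fermat.Agent.M59.AtP.CellsP

set_option autoImplicit false
set_option linter.unusedVariables false

namespace Fermat.Agent.M59

/-- the step at `l = p` for every link, from the two pointwise leaves. -/
theorem m59p_stepOfLinkP (h3 : m59p_EspPt_stmt) (h4 : m59p_NewPtP_stmt) :
    m59eps_StepOfLinkP_stmt :=
  fun C₀ C₁ Λ hH =>
    ⟨(m59p_stepDataP_of m59epg_ihInv_closed m59epgo_ihOnto h3 h4 Λ hH).toStepP⟩

/-- **[P-STEP]**: the chain with the `p`-step on top, from the two pointwise leaves. -/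
theorem m59p_chainP_of (h3 : m59p_EspPt_stmt) (h4 : m59p_NewPtP_stmt) : m59p_ChainP_stmt :=
  m59eps_chainP_of (m59p_stepOfLinkP h3 h4)

end Fermat.Agent.M59
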