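/-
S59 project, block [AtP] (helper10; prefix `m59p_`): (ES-p)₀, LAYER 1, the EXACT Cayley–Hamilton
identity on an eigenspace.

`𝒪` a complete DVR, `ρ : GaloisRepAdic 𝒪` with the Frobenius characteristic polynomials of the
eigensystem `χ` (level `N`, away from `S ∋ p`); `X` a finite `𝒪`-module with an adically continuous
`𝒪`-linear action `ρX` of `Gal(Q̄/ℚ)` and endomorphisms `Tl ℓ` with the Eichler–Shimura relation
`ρX(φ)² - Tl ℓ ρX(φ) + ℓ = 0` at the Frobenius elements at the good primes.  Then every common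
eigenvector `x` of the `Tl ℓ` with the eigenvalues `χ(T_ℓ)` satisfies
`ρX(g)² x - tr ρ(g) ρX(g) x + det ρ(g) x = 0` for ALL `g` (`m59p_ch_exact`).

Proof = the twin of main's `ur_approx` (weak Chebotarev `wc_main` + Lucas sequences + continuity)
on the single vector `x`, then `𝔪`-adic separatedness of `X`.
-/
import Mathlib
import Fermat.Agent.JT3.Unram.Main
import Fermat.Agent.TW.Top.DetAdic

set_option autoImplicit false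
set_option linter.unusedSectionVars false
set_option linter.style.haveILetI false

namespace Fermat.Agent.M59

open IsLocalRing Polynomial CuspForm Fermat.Agent.JT3 Fermat.Agent.TW

local notation "GQ" => (AlgebraicClosure ℚ ≃ₐ[ℚ] AlgebraicClosure ℚ)
local notation "Qbar" => AlgebraicClosure ℚ

/-- Lucas sequences on an eigenvector. -/
theorem m59p_luc_eigen {O : Type*} [CommRing O] {X : Type*} [AddCommGroup X] [Module O X]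
    (T : Module.End O X) (e a : O) (x : X) (hx : T x = a • x) (k : ℕ) :
    ur_luc T (e • (1 : Module.End O X)) k x = gcl_luc a e k • x := by
  induction k using Nat.twoStepInduction with
  | zero =>
    show (2 : Module.End O X) x = (2 : O) • x
    rw [two_smul, ← one_add_one_eq_two, LinearMap.add_apply, Module.End.one_apply]
  | one => exact hx
  | more k ih0 ih1 =>
    rw [ur_luc_succ_succ, LinearMap.sub_apply, Module.End.mul_apply, Module.End.mul_apply, ih0,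
      ih1, map_smul, hx, LinearMap.smul_apply, Module.End.one_apply]
    show _ = (a * gcl_luc a e (k + 1) - e * gcl_luc a e k) • x
    rw [sub_smul, mul_smul, mul_smul, smul_comm a]

section main

variable {p : ℕ} [Fact p.Prime] {N : ℕ} [NeZero N] {S : Finset ℕ}
  {𝒪 : Type} [CommRing 𝒪] [IsDomain 𝒪] [IsDiscreteValuationRing 𝒪]
  [IsAdicComplete (maximalIdeal 𝒪) 𝒪]

/-- the approximation: `w(g) x ≡ tr ρ(g) x` modulo `𝔪 ^ n X`. -/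
theorem m59p_ch_approx (hp : (p : 𝒪) ∈ maximalIdeal 𝒪) (hpS : p ∈ S)
    (hNS : ∀ ℓ : ℕ, ℓ.Prime → ℓ ∣ N → ℓ ∈ S)
    (ρ : GaloisRepAdic 𝒪) (χ : heckeAlgebra N 2 (↑S : Set ℕ) →+* 𝒪) (hcompat : twt_CompatAdic χ ρ)
    {X : Type} [AddCommGroup X] [Module 𝒪 X]
    (ρX : GQ →* Module.End 𝒪 X) (hcont : GaloisActionIsAdicContinuous 𝒪 ρX)
    (Tl : ℕ → Module.End 𝒪 X)
    (hfrob : ∀ ℓ : ℕ, pk_Good N S ℓ → ∀ A : ValuationSubring Qbar, A.LiesOverPrime ℓ →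
      ∀ φ : GQ, A.IsFrobeniusAt φ ℓ → ρX φ * ρX φ - Tl ℓ * ρX φ + (ℓ : 𝒪) • 1 = 0)
    (x : X) (hx : ∀ (ℓ : ℕ) (hℓ : ℓ.Prime) (hℓN : ¬ ℓ ∣ N) (hℓS : ℓ ∉ (↑S : Set ℕ)),
      Tl ℓ x = χ (heckeAlgebra.T hℓ hℓN hℓS) • x)
    (g : GQ) (n : ℕ) :
    ur_w ρX (cya_eps p 𝒪 hp) g x - LinearMap.trace 𝒪 ρ.V (ρ.ρ g) • x ∈
      (maximalIdeal 𝒪 ^ n) • (⊤ : Submodule 𝒪 X) := by
  obtain ⟨L₁, hL₁, h1⟩ := ρ.isAdicContinuous n
  obtain ⟨L₂, hL₂, h2⟩ := hcont n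
  obtain ⟨L₃, hL₃, h3⟩ := cya_eps_continuous p 𝒪 hp n
  obtain ⟨L, hLfd, hLn, h1L, h2L, h3L⟩ := ur_exists_normal L₁ L₂ L₃ hL₁ hL₂ hL₃
  haveI := hLfd
  haveI := hLn
  obtain ⟨ℓ, A, φ, k, hℓ, hℓS, hA, hφ, hk⟩ := Fermat.Agent.WC.wc_main L S g
  have hℓN : ¬ ℓ ∣ N := fun h => hℓS (hNS ℓ hℓ h)
  have hℓp : ℓ ≠ p := fun h => hℓS (h ▸ hpS)
  have hℓS' : ℓ ∉ (↑S : Set ℕ) := fun h => hℓS (Finset.mem_coe.mp h)
  obtain ⟨δ, hgδ, hδL, hδL'⟩ : ∃ δ : GQ, φ ^ k = g * δ ∧ (∀ x ∈ L, δ x = x) ∧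
      (∀ x ∈ L, δ⁻¹ x = x) := by
    refine ⟨g⁻¹ * φ ^ k, (mul_inv_cancel_left g (φ ^ k)).symm, ?_, ?_⟩
    · intro x hx
      rw [AlgEquiv.mul_apply, hk x hx]
      show (g⁻¹ * g) x = x
      rw [inv_mul_cancel]
      rfl
    · intro x hx
      rw [mul_inv_rev, inv_inv, AlgEquiv.mul_apply]
      have h5 : g x = (φ ^ k) x := (hk x hx).symm
      rw [h5]
      show ((φ ^ k)⁻¹ * (φ ^ k)) x = x
      rw [inv_mul_cancel]
      rfl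
  -- the `ρ`-side
  have hT1 : LinearMap.trace 𝒪 ρ.V (ρ.ρ (φ ^ k)) =
      gcl_luc (χ (heckeAlgebra.T hℓ hℓN hℓS')) (ℓ : 𝒪) k := by
    rw [map_pow]
    exact ur_lt_trace_pow ρ.finrank_eq _ _ _ (hcompat ℓ hℓ hℓN hℓS' A hA φ hφ) k
  have hT2 : LinearMap.trace 𝒪 ρ.V (ρ.ρ (g * δ)) - LinearMap.trace 𝒪 ρ.V (ρ.ρ g) ∈
      maximalIdeal 𝒪 ^ n := by
    rw [← map_sub, map_mul]
    have h5 : ρ.ρ g * ρ.ρ δ - ρ.ρ g = ρ.ρ g * (ρ.ρ δ - 1) := by rw [mul_sub, mul_one]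
    rw [h5]
    refine ur_lt_trace_small _ _ ?_
    have hs : gcl_Small (maximalIdeal 𝒪 ^ n) (ρ.ρ δ - 1) := fun v => by
      rw [LinearMap.sub_apply, Module.End.one_apply]
      exact h1 δ (fun x hx => hδL x (h1L hx)) v
    exact hs.mul_left _
  -- the `X`-side
  have hW1 : ur_w ρX (cya_eps p 𝒪 hp) (φ ^ k) =
      ur_luc (Tl ℓ) ((ℓ : 𝒪) • (1 : Module.End 𝒪 X)) k :=
    ur_w_frob_pow ρX (cya_eps p 𝒪 hp) φ (Tl ℓ) (ℓ : 𝒪)
      (cya_eps_frob p 𝒪 hp hℓ hℓp A hA φ hφ) (hfrob ℓ ⟨hℓ, hℓN, hℓS'⟩ A hA φ hφ) k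
  have hW2 : gcl_Small (maximalIdeal 𝒪 ^ n)
      (ur_w ρX (cya_eps p 𝒪 hp) (g * δ) - ur_w ρX (cya_eps p 𝒪 hp) g) := by
    refine ur_w_congr _ ρX _ g δ (fun v => ?_) (fun v => ?_) (h3 δ (fun x hx => hδL x (h3L hx)))
    · rw [LinearMap.sub_apply, Module.End.one_apply]
      exact h2 δ (fun x hx => hδL x (h2L hx)) v
    · rw [LinearMap.sub_apply, Module.End.one_apply]
      exact h2 δ⁻¹ (fun x hx => hδL' x (h2L hx)) v
  have hluc : ur_w ρX (cya_eps p 𝒪 hp) (g * δ) x =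
      LinearMap.trace 𝒪 ρ.V (ρ.ρ (g * δ)) • x := by
    rw [← hgδ, hW1, hT1]
    exact m59p_luc_eigen (Tl ℓ) (ℓ : 𝒪) _ x (hx ℓ hℓ hℓN hℓS') k
  have h6 : ur_w ρX (cya_eps p 𝒪 hp) g x - LinearMap.trace 𝒪 ρ.V (ρ.ρ g) • x =
      (LinearMap.trace 𝒪 ρ.V (ρ.ρ (g * δ)) - LinearMap.trace 𝒪 ρ.V (ρ.ρ g)) • x -
        (ur_w ρX (cya_eps p 𝒪 hp) (g * δ) - ur_w ρX (cya_eps p 𝒪 hp) g) x := by
    rw [LinearMap.sub_apply, hluc, sub_smul]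
    abel
  rw [h6]
  exact Submodule.sub_mem _ (Submodule.smul_mem_smul hT2 Submodule.mem_top) (hW2 x)

/-- **the exact Cayley–Hamilton identity on the eigenspace.** -/
theorem m59p_ch_exact (hp : (p : 𝒪) ∈ maximalIdeal 𝒪) (hpS : p ∈ S)
    (hNS : ∀ ℓ : ℕ, ℓ.Prime → ℓ ∣ N → ℓ ∈ S)
    (ρ : GaloisRepAdic 𝒪) (χ : heckeAlgebra N 2 (↑S : Set ℕ) →+* 𝒪) (hcompat : twt_CompatAdic χ ρ)
    {X : Type} [AddCommGroup X] [Module 𝒪 X] [Module.Finite 𝒪 X]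
    (ρX : GQ →* Module.End 𝒪 X) (hcont : GaloisActionIsAdicContinuous 𝒪 ρX)
    (Tl : ℕ → Module.End 𝒪 X)
    (hfrob : ∀ ℓ : ℕ, pk_Good N S ℓ → ∀ A : ValuationSubring Qbar, A.LiesOverPrime ℓ →
      ∀ φ : GQ, A.IsFrobeniusAt φ ℓ → ρX φ * ρX φ - Tl ℓ * ρX φ + (ℓ : 𝒪) • 1 = 0)
    (x : X) (hx : ∀ (ℓ : ℕ) (hℓ : ℓ.Prime) (hℓN : ¬ ℓ ∣ N) (hℓS : ℓ ∉ (↑S : Set ℕ)),
      Tl ℓ x = χ (heckeAlgebra.T hℓ hℓN hℓS) • x)
    (g : GQ) :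
    ρX g (ρX g x) - LinearMap.trace 𝒪 ρ.V (ρ.ρ g) • ρX g x + LinearMap.det (ρ.ρ g) • x = 0 := by
  -- `w(g) x = tr ρ(g) x`
  have hw : ur_w ρX (cya_eps p 𝒪 hp) g x = LinearMap.trace 𝒪 ρ.V (ρ.ρ g) • x := by
    rw [← sub_eq_zero]
    have hbot : (⨅ i : ℕ, (maximalIdeal 𝒪 ^ i) • (⊤ : Submodule 𝒪 X)) = ⊥ :=
      Ideal.iInf_pow_smul_eq_bot_of_isLocalRing (maximalIdeal 𝒪)
        (Ideal.IsMaximal.ne_top inferInstance)
    have hmem : ur_w ρX (cya_eps p 𝒪 hp) g x - LinearMap.trace 𝒪 ρ.V (ρ.ρ g) • x ∈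
        (⨅ i : ℕ, (maximalIdeal 𝒪 ^ i) • (⊤ : Submodule 𝒪 X)) := by
      rw [Submodule.mem_iInf]
      exact fun n => m59p_ch_approx hp hpS hNS ρ χ hcompat ρX hcont Tl hfrob x hx g n
    rw [hbot] at hmem
    exact (Submodule.mem_bot 𝒪).mp hmem
  have hdet : LinearMap.det (ρ.ρ g) = cya_eps p 𝒪 hp g := twt_da_det hp hNS χ ρ hcompat g
  have hgg : ρX g (ρX g⁻¹ x) = x := by
    rw [← Module.End.mul_apply, ← map_mul, mul_inv_cancel, map_one, Module.End.one_apply]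
  have h1 := congrArg (ρX g) hw
  unfold ur_w at h1
  rw [LinearMap.add_apply, LinearMap.smul_apply, map_add, map_smul, hgg, map_smul] at h1
  rw [hdet, ← h1]
  abel

end main

end Fermat.Agent.M59
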