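/-
S59 project, block [AtP] (helper10; prefix `m59p_`): (ES-p)₀, THE ABSTRACT CORE.

`O` a commutative ring, `ρ : G → GL₂(O)` (as matrices) spanning `M₂(O)`, `M` an `O`-module with an
`O`-linear action `α` of `G` satisfying the Cayley–Hamilton identities of `ρ`, `Tp` an endomorphism of
`M` commuting with `G`.  ORDINARY SHAPE at a subgroup `I` ("inertia"): `ρ g = (a t; 0 1)` for `g ∈ I`,
`ρ σ = (a t; 0 u)` for ONE element `σ` ("Frobenius"), `τ ∈ I` with `ρ τ = (c t; 0 1)`, `1 - c` a unit.
REDUCTION DATA: an additive subgroup `X0` of `M` ("the connected part") such that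
 (R1) `τ x = c x → x ∈ X0`;
 (R2) `σ² x - Tp σ x + p x ∈ X0` (Eichler–Shimura after reduction);
 (R3) (ND) a `G`-stable submodule of `X0` on which `(τ - c)(I - 1) = 0` is killed by `τ - c`.
THEN `u² - u Tp + p = 0` on `M`  (`m59p_core`).

The proof: Boston–Lenstra–Ribet over an arbitrary commutative ring (`ffc_blr`, main) makes `M` a
module over `M₂(O)`; in the ordinary basis `σ ≡ u` modulo `E₁₁ M ⊆ X0`, so `y := u² - u Tp + p` maps
`M` into `X0`; `y M` is `M₂(O)`-stable, (R3) gives `E₂₂ y = 0`, and `y = E₁₂ E₂₂ y E₂₁ = 0`.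
-/
import Mathlib
import Fermat.Agent.FF.Car.BLR

set_option autoImplicit false

namespace Fermat.Agent.M59

open Matrix Fermat.Agent.FF

section core

variable {O : Type*} [CommRing O] {G : Type*} [Group G]
  {M : Type*} [AddCommGroup M] [Module O M]

/-- an upper triangular `2 × 2` matrix in terms of matrix units. -/
theorem m59p_upper_eq (X : Matrix (Fin 2) (Fin 2) O) (h : X 1 0 = 0) :
    X = X 0 0 • Matrix.single 0 0 (1 : O) + X 0 1 • Matrix.single 0 1 (1 : O) +
      X 1 1 • Matrix.single 1 1 (1 : O) := by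
  ext i j
  fin_cases i <;> fin_cases j <;> simp [h]

/-- an endomorphism commuting with the group commutes with the image of `M₂(O)`. -/
theorem m59p_commute_Phi (ρ : G →* Matrix (Fin 2) (Fin 2) O) (α : G →* Module.End O M)
    (hspan : Submodule.span O (Set.range ρ) = ⊤)
    (Φ : Matrix (Fin 2) (Fin 2) O →ₐ[O] Module.End O M) (hΦ : ∀ g, Φ (ρ g) = α g)
    (y : Module.End O M) (hy : ∀ g, Commute y (α g)) (X : Matrix (Fin 2) (Fin 2) O) :
    Commute y (Φ X) := by
  have hX : X ∈ Submodule.span O (Set.range ρ) := hspan ▸ Submodule.mem_top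
  induction hX using Submodule.span_induction with
  | mem X hX =>
    obtain ⟨g, rfl⟩ := hX
    rw [hΦ]
    exact hy g
  | zero => rw [map_zero]; exact Commute.zero_right y
  | add X Y _ _ hX hY => rw [map_add]; exact hX.add_right hY
  | smul c X _ hX => rw [map_smul]; exact hX.smul_right c

/-- **(ES-p)₀, the abstract core.** -/
theorem m59p_core (p : ℕ) (ρ : G →* Matrix (Fin 2) (Fin 2) O) (α : G →* Module.End O M)
    (hspan : Submodule.span O (Set.range ρ) = ⊤)
    (hCH : ∀ g, α g * α g - (ρ g).trace • α g + (ρ g).det • (1 : Module.End O M) = 0)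
    (Tp : Module.End O M) (hTp : ∀ g, Commute Tp (α g))
    (I : Subgroup G) (σ τ : G) (hτ : τ ∈ I)
    (hσ : ρ σ 1 0 = 0) (u : O) (hu : ρ σ 1 1 = u)
    (hI : ∀ g ∈ I, ρ g 1 0 = 0 ∧ ρ g 1 1 = 1)
    (c : O) (hc : ρ τ 0 0 = c) (hc1 : IsUnit (1 - c))
    (X0 : AddSubgroup M)
    (hR1 : ∀ x : M, α τ x = c • x → x ∈ X0)
    (hR2 : ∀ x : M, α σ (α σ x) - Tp (α σ x) + (p : O) • x ∈ X0)
    (hR3 : ∀ M1 : Submodule O M, (∀ g, ∀ x ∈ M1, α g x ∈ M1) → (∀ x ∈ M1, x ∈ X0) →
      (∀ g ∈ I, ∀ x ∈ M1, α τ (α g x - x) = c • (α g x - x)) → ∀ x ∈ M1, α τ x = c • x)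
    (x : M) : u ^ 2 • x - u • Tp x + (p : O) • x = 0 := by
  classical
  obtain ⟨Φ, hΦ⟩ := ffc_blr ρ α hspan hCH
  -- the matrix units
  set e1 : Module.End O M := Φ (Matrix.single 0 0 (1 : O)) with he1
  set e2 : Module.End O M := Φ (Matrix.single 1 1 (1 : O)) with he2
  set n : Module.End O M := Φ (Matrix.single 0 1 (1 : O)) with hn
  set n' : Module.End O M := Φ (Matrix.single 1 0 (1 : O)) with hn'
  have h_sum : e1 + e2 = 1 := by
    rw [he1, he2, ← map_add, ← map_one Φ]
    congr 1
    ext i j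
    fin_cases i <;> fin_cases j <;> simp
  have h_e1n : e1 * n = n := by
    rw [he1, hn, ← map_mul, Matrix.single_mul_single_same, mul_one]
  have h_e2n : e2 * n = 0 := by
    rw [he2, hn, ← map_mul, Matrix.single_mul_single_of_ne _ _ _ _ (by decide), map_zero]
  have h_e2e2 : e2 * e2 = e2 := by
    rw [he2, ← map_mul, Matrix.single_mul_single_same, mul_one]
  have h_e2e1 : e2 * e1 = 0 := by
    rw [he2, he1, ← map_mul, Matrix.single_mul_single_of_ne _ _ _ _ (by decide), map_zero]
  have h_e1e1 : e1 * e1 = e1 := by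
    rw [he1, ← map_mul, Matrix.single_mul_single_same, mul_one]
  have h_ne2 : n * e2 = n := by
    rw [hn, he2, ← map_mul, Matrix.single_mul_single_same, mul_one]
  have h_nn' : n * n' = e1 := by
    rw [hn, hn', he1, ← map_mul, Matrix.single_mul_single_same, mul_one]
  -- the action of an upper triangular element
  have hupper : ∀ g, ρ g 1 0 = 0 →
      α g = ρ g 0 0 • e1 + ρ g 0 1 • n + ρ g 1 1 • e2 := by
    intro g hg
    rw [← hΦ g, he1, hn, he2, ← map_smul, ← map_smul, ← map_smul, ← map_add, ← map_add]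
    exact congrArg Φ (m59p_upper_eq (ρ g) hg)
  -- `α g ∘ e1 = (ρ g 0 0) e1` for upper triangular `g`
  have hge1 : ∀ g, ρ g 1 0 = 0 → α g * e1 = ρ g 0 0 • e1 := by
    intro g hg
    rw [hupper g hg, add_mul, add_mul, smul_mul_assoc, smul_mul_assoc, smul_mul_assoc, h_e1e1,
      h_e2e1, smul_zero, add_zero]
    have : n * e1 = 0 := by
      rw [hn, he1, ← map_mul, Matrix.single_mul_single_of_ne _ _ _ _ (by decide), map_zero]
    rw [this, smul_zero, add_zero]
  -- `Tp` and `y` commute with the image of `Φ`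
  set y : Module.End O M := (u ^ 2) • (1 : Module.End O M) - u • Tp + (p : O) • (1 : Module.End O M)
    with hy
  have hyα : ∀ g, Commute y (α g) := by
    intro g
    rw [hy]
    refine Commute.add_left (Commute.sub_left ?_ ?_) ?_
    · exact (Commute.one_left _).smul_left _
    · exact (hTp g).smul_left _
    · exact (Commute.one_left _).smul_left _
  have hyΦ := m59p_commute_Phi ρ α hspan Φ hΦ y hyα
  have hTΦ := m59p_commute_Phi ρ α hspan Φ hΦ Tp hTp
  -- Step A: `e1 M ⊆ X0`
  have hA : ∀ z : M, e1 z ∈ X0 := by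
    intro z
    apply hR1
    have h1 := LinearMap.congr_fun (hge1 τ (hI τ hτ).1) z
    rw [Module.End.mul_apply, LinearMap.smul_apply, hc] at h1
    exact h1
  -- Step B: `α σ z - u z ∈ e1 M`
  have hB : ∀ z : M, ∃ w : M, α σ z = u • z + e1 w := by
    intro z
    refine ⟨(ρ σ 0 0 - u) • z + ρ σ 0 1 • n z, ?_⟩
    have h1 := LinearMap.congr_fun (hupper σ hσ) z
    have h2 : e2 z = z - e1 z := by
      rw [eq_sub_iff_add_eq, add_comm, ← LinearMap.add_apply, h_sum, Module.End.one_apply]
    have h3 : e1 (n z) = n z := by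
      rw [← Module.End.mul_apply, h_e1n]
    rw [h1, hu]
    simp only [LinearMap.add_apply, LinearMap.smul_apply, map_add, map_smul, h3, h2]
    module
  -- Step C: `y z ∈ X0`
  have hC : ∀ z : M, y z ∈ X0 := by
    intro z
    obtain ⟨w, hw⟩ := hB z
    have h1 := hR2 z
    have h2 : α σ (e1 w) = e1 (ρ σ 0 0 • w) := by
      have := LinearMap.congr_fun (hge1 σ hσ) w
      rw [Module.End.mul_apply, LinearMap.smul_apply] at this
      rw [this, map_smul]
    have h3 : Tp (e1 w) = e1 (Tp w) := by
      have := LinearMap.congr_fun (hTΦ (Matrix.single 0 0 (1 : O))).eq w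
      rw [Module.End.mul_apply, Module.End.mul_apply] at this
      exact this
    have h4 : y z = (α σ (α σ z) - Tp (α σ z) + (p : O) • z) -
        e1 (u • w + ρ σ 0 0 • w - Tp w) := by
      have h5 : α σ (α σ z) = u • (u • z + e1 w) + e1 (ρ σ 0 0 • w) := by
        rw [hw, map_add, map_smul, hw, h2]
      have h6 : Tp (α σ z) = u • Tp z + e1 (Tp w) := by
        rw [hw, map_add, map_smul, h3]
      have h7 : y z = u ^ 2 • z - u • Tp z + (p : O) • z := by
        rw [hy]
        simp only [LinearMap.add_apply, LinearMap.sub_apply, LinearMap.smul_apply,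
          Module.End.one_apply]
      rw [h5, h6, h7]
      simp only [map_add, map_sub, map_smul]
      module
    rw [h4]
    exact X0.sub_mem h1 (hA _)
  -- Step D: (R3) on `range y`
  have hD : ∀ z : M, α τ (y z) = c • y z := by
    intro z
    refine hR3 (LinearMap.range y) ?_ ?_ ?_ (y z) ⟨z, rfl⟩
    · rintro g _ ⟨z', rfl⟩
      refine ⟨α g z', ?_⟩
      have := LinearMap.congr_fun (hyα g).eq z'
      rw [Module.End.mul_apply, Module.End.mul_apply] at this
      exact this
    · rintro _ ⟨z', rfl⟩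
      exact hC z'
    · rintro g hg _ ⟨z', rfl⟩
      obtain ⟨hg0, hg1⟩ := hI g hg
      have h1 := LinearMap.congr_fun (hupper g hg0) (y z')
      rw [hg1, one_smul] at h1
      have h2 : e2 (y z') = y z' - e1 (y z') := by
        rw [eq_sub_iff_add_eq, add_comm, ← LinearMap.add_apply, h_sum, Module.End.one_apply]
      have h3 : α g (y z') - y z' = e1 ((ρ g 0 0 - 1) • y z' + ρ g 0 1 • n (y z')) := by
        have h5 : e1 (n (y z')) = n (y z') := by
          rw [← Module.End.mul_apply, h_e1n]
        rw [h1]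
        simp only [LinearMap.add_apply, LinearMap.smul_apply, map_add, map_smul, h5, h2]
        module
      rw [h3]
      have := LinearMap.congr_fun (hge1 τ (hI τ hτ).1) ((ρ g 0 0 - 1) • y z' + ρ g 0 1 • n (y z'))
      rw [Module.End.mul_apply, LinearMap.smul_apply, hc] at this
      exact this
  -- `e2 y = 0`
  have hE : ∀ z : M, e2 (y z) = 0 := by
    intro z
    have h1 := LinearMap.congr_fun (hupper τ (hI τ hτ).1) (y z)
    rw [(hI τ hτ).2, hc, one_smul, hD z] at h1
    have h2 := congrArg e2 h1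
    simp only [LinearMap.add_apply, LinearMap.smul_apply, map_add, map_smul] at h2
    have h3 : e2 (e1 (y z)) = 0 := by rw [← Module.End.mul_apply, h_e2e1, LinearMap.zero_apply]
    have h4 : e2 (n (y z)) = 0 := by rw [← Module.End.mul_apply, h_e2n, LinearMap.zero_apply]
    have h5 : e2 (e2 (y z)) = e2 (y z) := by rw [← Module.End.mul_apply, h_e2e2]
    rw [h3, h4, h5, smul_zero, smul_zero, zero_add, zero_add] at h2
    have h6 : (1 - c) • e2 (y z) = 0 := by
      rw [sub_smul, one_smul, h2, sub_self]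
    obtain ⟨v, hv⟩ := hc1
    have h7 := congrArg (fun t => ((v⁻¹ : Oˣ) : O) • t) h6
    simp only [smul_zero] at h7
    rwa [← hv, smul_smul, Units.inv_mul, one_smul] at h7
  -- conclusion: `y = e1 y = n e2 y n'`
  have hF : y x = 0 := by
    have h1 : y x = e1 (y x) + e2 (y x) := by
      rw [← LinearMap.add_apply, h_sum, Module.End.one_apply]
    rw [h1, hE x, add_zero, ← h_nn', Module.End.mul_apply]
    have h2 : n' (y x) = y (n' x) := by
      have := LinearMap.congr_fun (hyΦ (Matrix.single 1 0 (1 : O))).eq x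
      rw [Module.End.mul_apply, Module.End.mul_apply] at this
      exact this.symm
    rw [h2, ← h_ne2, Module.End.mul_apply, hE, map_zero]
  have hG : y x = u ^ 2 • x - u • Tp x + (p : O) • x := by
    rw [hy]
    simp only [LinearMap.add_apply, LinearMap.sub_apply, LinearMap.smul_apply,
      Module.End.one_apply]
  rw [← hG]
  exact hF

end core

end Fermat.Agent.M59
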