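/-
S59 project, block [AtP] (helper10; prefix `m59p_`): (ES-p) in Pic⁰ form, a corollary of `ese_relation`.
`p ∤ M`, `A` over `p`, `σ₀` Frobenius at `A`, `z ∈ J₀(M)[p]`:  `red (T_p z) = red (σ₀ z)` (`m59p_esp`);
`m59p_red_line`: a point on which an inertia element acts by `c`, `c - 1` prime to `p`, has `red = 0`;
`m59p_red_eig`: the `T_p`-eigenvalue of `red v` is the Frobenius eigenvalue on the unramified quotient.
-/
import Mathlib
import Fermat.Agent.JT3.ES.Torsion
import Fermat.Agent.JT3.PlaceMap.WireNodeE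

set_option autoImplicit false
set_option synthInstance.maxHeartbeats 400000
set_option maxHeartbeats 1000000

noncomputable section

namespace Fermat.Agent.M59

open Fermat.Agent.JT3

open ModularCurve AlgebraicCurve

/-- **(ES-p)**: on `p`-torsion, at a place over `p ∤ M`, `T_p` acts after reduction as Frobenius. -/
theorem m59p_esp (M p : ℕ) [NeZero M] (hp : p.Prime) (hpM : ¬ p ∣ M)
    (A : ValuationSubring (AlgebraicClosure ℚ)) (hA : A.LiesOverPrime p)
    (σ₀ : AlgebraicClosure ℚ ≃ₐ[ℚ] AlgebraicClosure ℚ) (hσ₀ : A.IsFrobeniusAt σ₀ p)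
    (z : JZero M) (hz : p • z = 0) :
    reductionModL A M (heckeOperatorBar M ⟨p, hp⟩ z) = reductionModL A M (σ₀ • z) := by
  have : NeZero p := ⟨hp.ne_zero⟩
  have : Fact p.Prime := ⟨hp⟩
  have : CharP (IsLocalRing.ResidueField A) p := ese_charP hp hA
  have h := rpw_nodeE M p hp hpM A hA
  have hR := est_riemann_fbar M
  have key := ese_relation h hR (est_NL M p hp hpM A hA) (hib_heckeInputsAlong M p) σ₀ hσ₀
    (σ₀⁻¹ • z)
  rw [smul_inv_smul] at key
  have h0 : p • reductionModL A M (σ₀⁻¹ • z) = 0 := by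
    have e : p • (σ₀⁻¹ • z) = σ₀⁻¹ • (p • z) := est_nsmul_smul σ₀⁻¹ p z
    have e0 : σ₀⁻¹ • (0 : JZero M) = 0 := map_zero (DistribSMul.toAddMonoidHom (JZero M) σ₀⁻¹)
    rw [← map_nsmul, e, hz, e0, map_zero]
  rw [h0, add_zero, sub_eq_zero] at key
  exact key.symm

/-- (a): a point on which some inertia element acts by an integer `c` with `c - 1` prime to `p`, and
which is killed by a power of `p`, has trivial reduction. -/
theorem m59p_red_line (M p : ℕ) [NeZero M] (hp : p.Prime) (hpM : ¬ p ∣ M)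
    (A : ValuationSubring (AlgebraicClosure ℚ)) (hA : A.LiesOverPrime p)
    (τ : AlgebraicClosure ℚ ≃ₐ[ℚ] AlgebraicClosure ℚ) (hτ : τ ∈ A.inertiaSubgroupIn ℚ)
    (x : JZero M) (n : ℕ) (hx : p ^ n • x = 0) (c : ℤ) (hc : IsCoprime (c - 1) ((p : ℤ) ^ n))
    (hτx : τ • x = c • x) : reductionModL A M x = 0 := by
  have h := rpw_nodeE M p hp hpM A hA
  have hR := est_riemann_fbar M
  have h1 := egr_red_inertia h hR τ hτ x
  rw [hτx, map_zsmul] at h1
  have h2 : (c - 1) • reductionModL A M x = 0 := by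
    rw [sub_smul, one_smul, h1, sub_self]
  have h3 : ((p : ℤ) ^ n) • reductionModL A M x = 0 := by
    rw [← map_zsmul]
    have e : ((p : ℤ) ^ n) • x = p ^ n • x := by
      rw [← natCast_zsmul]; push_cast; rfl
    rw [e, hx, map_zero]
  obtain ⟨a, b, hab⟩ := hc
  have : (1 : ℤ) • reductionModL A M x = 0 := by
    rw [← hab, add_zsmul, mul_zsmul, mul_zsmul, h2, h3, smul_zero, smul_zero, add_zero]
  rwa [one_smul] at this

/-- (b): the `T_p`-eigenvalue of `red v` is the Frobenius eigenvalue on the unramified quotient. -/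
theorem m59p_red_eig (M p : ℕ) [NeZero M] (hp : p.Prime) (hpM : ¬ p ∣ M)
    (A : ValuationSubring (AlgebraicClosure ℚ)) (hA : A.LiesOverPrime p)
    (σ₀ : AlgebraicClosure ℚ ≃ₐ[ℚ] AlgebraicClosure ℚ) (hσ₀ : A.IsFrobeniusAt σ₀ p)
    (v x : JZero M) (hv : p • v = 0) (hx : reductionModL A M x = 0) (e c : ℤ)
    (hσv : σ₀ • v = e • v + c • x) :
    reductionModL A M (heckeOperatorBar M ⟨p, hp⟩ v) = e • reductionModL A M v := by
  rw [m59p_esp M p hp hpM A hA σ₀ hσ₀ v hv, hσv, map_add, map_zsmul, map_zsmul, hx, smul_zero,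
    add_zero]

end Fermat.Agent.M59

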