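/-
S59 project, block [AtP] (helper10; prefix `m59p_`): (ND) at GOOD reduction, in main's order vocabulary.
`p` odd, `p ∤ N`, `A` a place over `p`, `Γ = I_A`; `ι : F → J₀(N)[p^k]` an injective `Γ`-equivariant
additive map, `L ≤ F` with `Γ` acting trivially on `F / L`.  Then `ker (red ∘ ι) ⊆ L` (`m59p_ND_gen`);
`m59p_ND` is the special case `L = ℤ x₀`, `p v = 0`.
(BR') `m59p_BRprime` + (REL) `s56fo_rel_triv`.
-/
import Mathlib
import Fermat.Agent.M59.AtP.BRprime
import Fermat.Agent.S56.Flat.Ord.Line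

set_option autoImplicit false
set_option linter.style.haveILetI false
set_option linter.unusedSectionVars false

noncomputable section

namespace Fermat.Agent.M59

open Fermat.Agent.MZ

open ModularCurve AlgebraicCurve Fermat.Agent.JT3 Fermat.Agent.FF Fermat.Agent.S56

theorem m59p_ND (N : ℕ) [NeZero N] (p : ℕ) [Fact p.Prime] (hp2 : p ≠ 2) (hpN : ¬ p ∣ N) (k : ℕ)
    (A : ValuationSubring ff_Qb) (hA : A.LiesOverPrime p)
    {F : Type} [AddCommGroup F] [Finite F] [DistribMulAction ↥(A.inertiaSubgroupIn ℚ) F]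
    (ι : F →+ ↥(Submodule.torsionBy ℤ (JZero N) ((p : ℤ) ^ k))) (hι : Function.Injective ι)
    (hιe : ∀ (σ : ↥(A.inertiaSubgroupIn ℚ)) (w : F), ι (σ • w) = σ • ι w)
    (x₀ : F) (hx₀ : ∀ (σ : ↥(A.inertiaSubgroupIn ℚ)) (w : F),
      σ • w - w ∈ AddSubgroup.zmultiples x₀)
    (v : F) (hpv : p • v = 0)
    (hred : reductionModL A N ((ι v : ↥(Submodule.torsionBy ℤ (JZero N) ((p : ℤ) ^ k))) :
      JZero N) = 0) :
    v ∈ AddSubgroup.zmultiples x₀ := by
  have hctx := mzg_ctx p A hA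
  haveI := mzg_ctx_dvr p A hA
  haveI := ff_finite_tors N p k
  obtain ⟨H, hH, hbr⟩ := m59p_BRprime N p hpN k A hA
  have hH' := mzo_restr_isOrder (A := A) (Γ := ↥(A.inertiaSubgroupIn ℚ)) ι hι hιe hH
  have hX0 : ι v ∈ s56fl_X0 hH := (s56fl_mem_X0 hH (ι v)).mpr (hbr (ι v) hred)
  have hX0' : v ∈ s56fl_X0 hH' := s56fo_X0_restr ι hH hH' hX0
  have key := s56fo_rel_triv hctx hp2 hH' (QuotientAddGroup.mk' (AddSubgroup.zmultiples x₀))
    (QuotientAddGroup.mk'_surjective _)
    (fun σ w => by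
      rw [QuotientAddGroup.mk'_apply, QuotientAddGroup.mk'_apply]
      exact (QuotientAddGroup.eq_iff_sub_mem).mpr (by
        have := hx₀ σ w
        have h2 : w - σ • w = -(σ • w - w) := by abel
        rw [h2]
        exact neg_mem this) |>.symm)
    hX0' (by rw [← map_nsmul, hpv, map_zero])
  rwa [QuotientAddGroup.mk'_apply, QuotientAddGroup.eq_zero_iff] at key


/-- **(ND), general form** (`p^k`-torsion, any `Γ`-stable subgroup `L` with `Γ` trivial on `F / L`):
`ker (red ∘ ι) ⊆ L`. -/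
theorem m59p_ND_gen (N : ℕ) [NeZero N] (p : ℕ) [Fact p.Prime] (hp2 : p ≠ 2) (hpN : ¬ p ∣ N) (k : ℕ)
    (A : ValuationSubring ff_Qb) (hA : A.LiesOverPrime p)
    {F : Type} [AddCommGroup F] [Finite F] [DistribMulAction ↥(A.inertiaSubgroupIn ℚ) F]
    (ι : F →+ ↥(Submodule.torsionBy ℤ (JZero N) ((p : ℤ) ^ k))) (hι : Function.Injective ι)
    (hιe : ∀ (σ : ↥(A.inertiaSubgroupIn ℚ)) (w : F), ι (σ • w) = σ • ι w)
    (L : AddSubgroup F) (hL : ∀ (σ : ↥(A.inertiaSubgroupIn ℚ)) (w : F), σ • w - w ∈ L)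
    (v : F)
    (hred : reductionModL A N ((ι v : ↥(Submodule.torsionBy ℤ (JZero N) ((p : ℤ) ^ k))) :
      JZero N) = 0) :
    v ∈ L := by
  have hctx := mzg_ctx p A hA
  haveI := mzg_ctx_dvr p A hA
  haveI := ff_finite_tors N p k
  obtain ⟨H, hH, hbr⟩ := m59p_BRprime N p hpN k A hA
  have hH' := mzo_restr_isOrder (A := A) (Γ := ↥(A.inertiaSubgroupIn ℚ)) ι hι hιe hH
  have hX0 : ι v ∈ s56fl_X0 hH := (s56fl_mem_X0 hH (ι v)).mpr (hbr (ι v) hred)
  have hX0' : v ∈ s56fl_X0 hH' := s56fo_X0_restr ι hH hH' hX0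
  have hinv : ∀ (σ : ↥(A.inertiaSubgroupIn ℚ)) (w : F),
      QuotientAddGroup.mk' L (σ • w) = QuotientAddGroup.mk' L w := by
    intro σ w
    rw [QuotientAddGroup.mk'_apply, QuotientAddGroup.mk'_apply]
    refine ((QuotientAddGroup.eq_iff_sub_mem).mpr ?_).symm
    have h2 : w - σ • w = -(σ • w - w) := by abel
    rw [h2]
    exact neg_mem (hL σ w)
  -- induction on the exponent
  have key : ∀ n : ℕ, ∀ u ∈ s56fl_X0 hH', p ^ n • QuotientAddGroup.mk' L u = 0 →
      QuotientAddGroup.mk' L u = 0 := by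
    intro n
    induction n with
    | zero =>
      intro u _ h
      rwa [pow_zero, one_smul] at h
    | succ n ih =>
      intro u hu h
      have h1 : QuotientAddGroup.mk' L (p • u) = 0 := by
        refine ih (p • u) (AddSubgroup.nsmul_mem _ hu p) ?_
        rw [map_nsmul, smul_smul, ← pow_succ]
        exact h
      exact s56fo_rel_triv hctx hp2 hH' (QuotientAddGroup.mk' L)
        (QuotientAddGroup.mk'_surjective _) hinv hu (by rw [← map_nsmul]; exact h1)
  have hk : p ^ k • QuotientAddGroup.mk' L v = 0 := by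
    rw [← map_nsmul]
    have h0 : p ^ k • v = 0 := by
      apply hι
      rw [map_nsmul, map_zero]
      have := (ι v).2
      rw [Submodule.mem_torsionBy_iff] at this
      apply Subtype.ext
      rw [Submodule.coe_smul_of_tower, Submodule.coe_zero]
      have e : ((p ^ k : ℕ) : ℤ) = (p : ℤ) ^ k := by push_cast; rfl
      rw [← natCast_zsmul, e]
      exact this
    rw [h0, map_zero]
  have := key k v hX0' hk
  rwa [QuotientAddGroup.mk'_apply, QuotientAddGroup.eq_zero_iff] at this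

end Fermat.Agent.M59

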