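/-
S59 project, block [AtP] (helper10; prefix `m59p_`): (ES-p)₀, LAYER 1, the REDUCTION DATA on the
Tate module `T = T_p J₀(N)` (`p ∤ N`, `A` a place of `Q̄` over `p`):
* `m59p_RT1` : `τ ∈ I_A`, `τ t = c₀ t` with `1 - c₀ ∈ ℤ_pˣ`  ⟹  every component of `t` reduces to `0`;
* `m59p_RT2` : every component of `σ² t - T_p σ t + p t` reduces to `0` (`σ` a Frobenius at `A`);
* `m59p_RT3` : (ND) an inertia-stable subgroup `M1 ⊆ T` with all components reducing to `0`, on which
  `(τ - c₀)(g - 1) = 0` for all `g ∈ I_A`, is killed by `τ - c₀`.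
-/
import Mathlib
import Fermat.Agent.M59.AtP.ESp
import Fermat.Agent.M59.AtP.ND
import Fermat.Agent.JT3.Tate.Package

set_option autoImplicit false
set_option linter.unusedSectionVars false
set_option linter.style.haveILetI false
set_option synthInstance.maxHeartbeats 400000
set_option maxHeartbeats 1000000

noncomputable section

namespace Fermat.Agent.M59

open Fermat.Agent.JT3 Fermat.Agent.FF ModularCurve AlgebraicCurve

local notation "GQ" => (AlgebraicClosure ℚ ≃ₐ[ℚ] AlgebraicClosure ℚ)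
local notation "Qbar" => AlgebraicClosure ℚ

variable (N p : ℕ) [NeZero N] [hp : Fact p.Prime]

/-- the integer representing `c₀ mod p ^ n`, minus one, is prime to `p ^ n` when `1 - c₀` is a
unit. -/
theorem m59p_coprime_val (c₀ : ℤ_[p]) (hc : IsUnit (1 - c₀)) (n : ℕ) :
    IsCoprime ((((PadicInt.toZModPow n c₀).val : ℕ) : ℤ) - 1) ((p : ℤ) ^ n) := by
  rcases Nat.eq_zero_or_pos n with rfl | hn
  · have h0 : ((p : ℤ) ^ 0) = 1 := pow_zero _
    rw [h0]
    exact isCoprime_one_right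
  refine IsCoprime.pow_right ?_
  have hpp : Prime (p : ℤ) := Nat.prime_iff_prime_int.mp hp.out
  refine IsCoprime.symm ?_
  refine (Prime.coprime_iff_not_dvd hpp).mpr fun hdvd => ?_
  -- then `c ≡ 1 mod p`, so `c₀ ≡ 1 mod p`
  set c : ℕ := (PadicInt.toZModPow n c₀).val with hcdef
  have h1 : (c : ℤ_[p]) - c₀ ∈ Ideal.span {(p : ℤ_[p]) ^ n} := by
    rw [← PadicInt.ker_toZModPow, RingHom.mem_ker, map_sub, map_natCast, hcdef,
      ZMod.natCast_val, ZMod.cast_id', id, sub_self]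
  have h2 : (c : ℤ_[p]) - c₀ ∈ Ideal.span {(p : ℤ_[p])} := by
    refine (Ideal.span_singleton_le_span_singleton.mpr ?_) h1
    exact dvd_pow_self _ (Nat.pos_iff_ne_zero.mp hn)
  have h3 : ((c : ℤ_[p]) - 1) ∈ Ideal.span {(p : ℤ_[p])} := by
    obtain ⟨d, hd⟩ := hdvd
    rw [Ideal.mem_span_singleton]
    refine ⟨(d : ℤ_[p]), ?_⟩
    have := congrArg (fun z : ℤ => (z : ℤ_[p])) hd
    simp only [Int.cast_sub, Int.cast_natCast, Int.cast_one, Int.cast_mul] at this
    exact this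
  have h4 : (1 - c₀) ∈ Ideal.span {(p : ℤ_[p])} := by
    have : (1 - c₀) = ((c : ℤ_[p]) - c₀) - ((c : ℤ_[p]) - 1) := by ring
    rw [this]
    exact Ideal.sub_mem _ h2 h3
  rw [← PadicInt.maximalIdeal_eq_span_p] at h4
  exact (IsLocalRing.mem_maximalIdeal _).mp h4 hc

/-- **(R1) on the Tate module.** -/
theorem m59p_RT1 (hpN : ¬ p ∣ N) (A : ValuationSubring Qbar) (hA : A.LiesOverPrime p)
    (τ : GQ) (hτ : τ ∈ A.inertiaSubgroupIn ℚ) (c₀ : ℤ_[p]) (hc : IsUnit (1 - c₀))
    (t : tj_T N p) (ht : tj_rho N p τ t = c₀ • t) (n : ℕ) :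
    reductionModL A N (t.1 n) = 0 := by
  refine m59p_red_line N p hp.out hpN A hA τ hτ (t.1 n) n (tm_tor t n)
    (((PadicInt.toZModPow n c₀).val : ℕ) : ℤ) (m59p_coprime_val p c₀ hc n) ?_
  have h1 := congrArg (fun s : tj_T N p => s.1 n) ht
  simp only [tj_rho_apply, tm_smul_apply] at h1
  rw [h1, natCast_zsmul]

/-- **(R2) on the Tate module**: Eichler–Shimura at `p` after reduction. -/
theorem m59p_RT2 (hpN : ¬ p ∣ N) (A : ValuationSubring Qbar) (hA : A.LiesOverPrime p)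
    (σ : GQ) (hσ : A.IsFrobeniusAt σ p) (t : tj_T N p) (n : ℕ) :
    reductionModL A N ((tj_rho N p σ (tj_rho N p σ t) -
      tj_hecke N p ⟨p, hp.out⟩ (tj_rho N p σ t) + (p : ℤ_[p]) • t).1 n) = 0 := by
  have : NeZero p := ⟨hp.out.ne_zero⟩
  have : CharP (IsLocalRing.ResidueField A) p := ese_charP hp.out hA
  have h := rpw_nodeE N p hp.out hpN A hA
  have hR := est_riemann_fbar N
  have key := ese_relation h hR (est_NL N p hp.out hpN A hA) (hib_heckeInputsAlong N p) σ hσ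
    (t.1 n)
  rw [tm_add_apply, tm_sub_apply, tm_natCast_smul_apply, map_add, map_sub, map_nsmul]
  exact key

/-- **(ND), subgroup form**: `F ≤ J₀(N)[p^k]` stable under the inertia group of `A`, `L` a subgroup
containing `(σ - 1) F` for all `σ ∈ I_A`; then every point of `F` with trivial reduction is in `L`. -/
theorem m59p_ND_sub (hp2 : p ≠ 2) (hpN : ¬ p ∣ N) (k : ℕ)
    (A : ValuationSubring ff_Qb) (hA : A.LiesOverPrime p)
    (F L : AddSubgroup ↥(Submodule.torsionBy ℤ (JZero N) ((p : ℤ) ^ k)))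
    (hF : ∀ σ : GQ, σ ∈ A.inertiaSubgroupIn ℚ → ∀ w ∈ F, σ • w ∈ F)
    (hL : ∀ σ : GQ, σ ∈ A.inertiaSubgroupIn ℚ → ∀ w ∈ F, σ • w - w ∈ L)
    (v : ↥(Submodule.torsionBy ℤ (JZero N) ((p : ℤ) ^ k))) (hv : v ∈ F)
    (hred : reductionModL A N (v : JZero N) = 0) : v ∈ L := by
  haveI := ff_finite_tors N p k
  letI : DistribMulAction ↥(A.inertiaSubgroupIn ℚ) ↥F :=
    { smul := fun σ w => ⟨(σ : GQ) • (w : ↥(Submodule.torsionBy ℤ (JZero N) ((p : ℤ) ^ k))),
        hF σ.1 σ.2 w.1 w.2⟩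
      one_smul := fun w => Subtype.ext (one_smul GQ _)
      mul_smul := fun σ τ w => Subtype.ext (mul_smul (σ : GQ) (τ : GQ) _)
      smul_zero := fun σ => Subtype.ext (smul_zero (σ : GQ))
      smul_add := fun σ w w' => Subtype.ext (smul_add (σ : GQ) _ _) }
  have key := m59p_ND_gen N p hp2 hpN k A hA (F := ↥F) F.subtype F.subtype_injective
    (fun σ w => rfl) (L.comap F.subtype)
    (fun σ w => by
      rw [AddSubgroup.mem_comap, map_sub]
      exact hL σ.1 σ.2 w.1 w.2)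
    ⟨v, hv⟩ hred
  exact key

/-- the `n`-th component of the Tate module, with values in the `p ^ n`-torsion. -/
def m59p_projT (n : ℕ) : tj_T N p →+ ↥(Submodule.torsionBy ℤ (JZero N) ((p : ℤ) ^ n)) where
  toFun s := ⟨s.1 n, by
    rw [Submodule.mem_torsionBy_iff]
    have e : ((p : ℤ) ^ n) • s.1 n = p ^ n • s.1 n := by
      rw [← natCast_zsmul]; push_cast; rfl
    rw [e]
    exact tm_tor s n⟩
  map_zero' := rfl
  map_add' _ _ := rfl

theorem m59p_projT_coe (n : ℕ) (s : tj_T N p) : ((m59p_projT N p n s : _) : JZero N) = s.1 n := rfl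

/-- **(R3) on the Tate module** = (ND) at every finite level. -/
theorem m59p_RT3 (hp2 : p ≠ 2) (hpN : ¬ p ∣ N) (A : ValuationSubring Qbar)
    (hA : A.LiesOverPrime p) (τ : GQ) (c₀ : ℤ_[p])
    (M1 : AddSubgroup (tj_T N p))
    (hst : ∀ g : GQ, g ∈ A.inertiaSubgroupIn ℚ → ∀ t ∈ M1, tj_rho N p g t ∈ M1)
    (hred : ∀ t ∈ M1, ∀ n, reductionModL A N (t.1 n) = 0)
    (hI : ∀ g : GQ, g ∈ A.inertiaSubgroupIn ℚ → ∀ t ∈ M1,
      tj_rho N p τ (tj_rho N p g t - t) = c₀ • (tj_rho N p g t - t))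
    (t : tj_T N p) (ht : t ∈ M1) : tj_rho N p τ t = c₀ • t := by
  refine tm_ext fun n => ?_
  rw [tj_rho_apply, tm_smul_apply]
  set cn : ℕ := (PadicInt.toZModPow n c₀).val with hcn
  -- the subgroup `L` of the `p ^ n`-torsion on which `τ = cn`
  let L : AddSubgroup ↥(Submodule.torsionBy ℤ (JZero N) ((p : ℤ) ^ n)) :=
    { carrier := {w | τ • w = cn • w}
      zero_mem' := by
        show τ • (0 : ↥(Submodule.torsionBy ℤ (JZero N) ((p : ℤ) ^ n))) = cn • 0
        rw [smul_zero, smul_zero]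
      add_mem' := fun {a b} ha hb => by
        show τ • (a + b) = cn • (a + b)
        rw [smul_add, smul_add, ha, hb]
      neg_mem' := fun {a} ha => by
        show τ • (-a) = cn • (-a)
        rw [smul_neg, smul_neg, ha] }
  have key := m59p_ND_sub N p hp2 hpN n A hA (M1.map (m59p_projT N p n)) L
    (fun σ hσ w hw => by
      obtain ⟨s, hs, rfl⟩ := hw
      exact ⟨tj_rho N p σ s, hst σ hσ s hs, rfl⟩)
    (fun σ hσ w hw => by
      obtain ⟨s, hs, rfl⟩ := hw
      show τ • (σ • m59p_projT N p n s - m59p_projT N p n s) =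
        cn • (σ • m59p_projT N p n s - m59p_projT N p n s)
      have h1 := congrArg (m59p_projT N p n) (hI σ hσ s hs)
      have e1 : σ • m59p_projT N p n s - m59p_projT N p n s =
          m59p_projT N p n (tj_rho N p σ s - s) := by
        rw [map_sub]; rfl
      rw [e1]
      refine Eq.trans ?_ (h1.trans ?_)
      · rfl
      · rfl)
    (m59p_projT N p n t) ⟨t, ht, rfl⟩ (hred t ht n)
  have h2 : τ • m59p_projT N p n t = cn • m59p_projT N p n t := key
  exact congrArg (fun w : ↥(Submodule.torsionBy ℤ (JZero N) ((p : ℤ) ^ n)) => (w : JZero N)) h2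

end Fermat.Agent.M59
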