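/-
S59 project, block [AtP] (helper10; prefix `m59p_`): (ES-p)₀, LAYER 1, the coefficient algebra.

`Λ` a commutative ring (`ℤ_p`), `O` a `Λ`-algebra with a finite `Λ`-basis `b`, `T` a `Λ`-module.
* `m59p_kap b i : O ⊗[Λ] T →ₗ[Λ] T` : the `i`-th coordinate; it commutes with base-changed
  endomorphisms (`m59p_kap_baseChange`) and the coordinates separate (`m59p_kap_ext`);
* `m59p_Psi e : O ⊗[Λ] T →ₗ[O] (H →+ O)` for `e : T ≃ₗ[Λ] (H →+ Λ)` : BIJECTIVE
  (`m59p_Psi_injective`, `m59p_Psi_surjective`), and it carries a base-changed endomorphism which is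
  a precomposition on the lattice side to the same precomposition (`m59p_Psi_baseChange`).
-/
import Mathlib

set_option autoImplicit false
set_option linter.unusedSectionVars false

namespace Fermat.Agent.M59

open scoped TensorProduct

noncomputable section

section kap

variable {Λ : Type*} [CommRing Λ] {O : Type*} [CommRing O] [Algebra Λ O]
  {T : Type*} [AddCommGroup T] [Module Λ T] {ι : Type*} [Fintype ι] [DecidableEq ι]

/-- the `i`-th coordinate of `O ⊗ T` with respect to a `Λ`-basis of `O`. -/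
def m59p_kap (b : Module.Basis ι Λ O) (i : ι) : O ⊗[Λ] T →ₗ[Λ] T :=
  (TensorProduct.lid Λ T).toLinearMap ∘ₗ LinearMap.rTensor T (b.coord i)

theorem m59p_kap_tmul (b : Module.Basis ι Λ O) (i : ι) (a : O) (t : T) :
    m59p_kap b i (a ⊗ₜ[Λ] t) = b.repr a i • t := by
  simp [m59p_kap]

theorem m59p_kap_baseChange (b : Module.Basis ι Λ O) (i : ι) (f : T →ₗ[Λ] T) (x : O ⊗[Λ] T) :
    m59p_kap b i (f.baseChange O x) = f (m59p_kap b i x) := by
  induction x using TensorProduct.induction_on with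
  | zero => simp
  | tmul a t => rw [LinearMap.baseChange_tmul, m59p_kap_tmul, m59p_kap_tmul, map_smul]
  | add x y hx hy => rw [map_add, map_add, hx, hy, map_add, map_add]

theorem m59p_kap_sum (b : Module.Basis ι Λ O) (x : O ⊗[Λ] T) :
    x = ∑ i, b i ⊗ₜ[Λ] m59p_kap b i x := by
  induction x using TensorProduct.induction_on with
  | zero => simp
  | tmul a t =>
    simp only [m59p_kap_tmul, TensorProduct.tmul_smul]
    simp only [TensorProduct.smul_tmul']
    rw [← TensorProduct.sum_tmul]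
    congr 1
    exact (b.sum_repr a).symm
  | add x y hx hy =>
    simp only [map_add, TensorProduct.tmul_add, Finset.sum_add_distrib]
    rw [← hx, ← hy]

theorem m59p_kap_ext (b : Module.Basis ι Λ O) (x : O ⊗[Λ] T) (h : ∀ i, m59p_kap b i x = 0) :
    x = 0 := by
  rw [m59p_kap_sum b x]
  simp [h]

/-- scalars from `Λ` pass through the coordinates. -/
theorem m59p_kap_algebraMap_smul (b : Module.Basis ι Λ O) (i : ι) (c : Λ) (x : O ⊗[Λ] T) :
    m59p_kap b i (algebraMap Λ O c • x) = c • m59p_kap b i x := by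
  rw [algebraMap_smul, map_smul]

end kap

section Psi

variable {Λ : Type*} [CommRing Λ] {O : Type*} [CommRing O] [Algebra Λ O]
  {T : Type*} [AddCommGroup T] [Module Λ T] {ι : Type*} [Fintype ι] [DecidableEq ι]
  {H : Type*} [AddCommGroup H]

/-- `Hom(H, Λ) → Hom(H, O)`. -/
def m59p_cast : (H →+ Λ) →ₗ[Λ] (H →+ O) where
  toFun φ := (algebraMap Λ O).toAddMonoidHom.comp φ
  map_add' φ φ' := by
    ext h
    simp
  map_smul' c φ := by
    ext h
    simp [Algebra.smul_def]

theorem m59p_cast_apply (φ : H →+ Λ) (h : H) :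
    (m59p_cast (O := O) φ) h = algebraMap Λ O (φ h) := rfl

/-- `O ⊗ T → Hom(H, O)` for a lattice `e : T ≃ Hom(H, Λ)`. -/
def m59p_Psi (e : T ≃ₗ[Λ] (H →+ Λ)) : O ⊗[Λ] T →ₗ[O] (H →+ O) :=
  LinearMap.liftBaseChange O ((m59p_cast (O := O) (H := H)) ∘ₗ e.toLinearMap)

theorem m59p_Psi_tmul (e : T ≃ₗ[Λ] (H →+ Λ)) (a : O) (t : T) (h : H) :
    m59p_Psi e (a ⊗ₜ[Λ] t) h = a * algebraMap Λ O (e t h) := by
  rw [m59p_Psi, LinearMap.liftBaseChange_tmul]
  rfl

/-- the coordinates of `Ψ x` are the lattice points of the coordinates of `x`. -/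
theorem m59p_Psi_repr (b : Module.Basis ι Λ O) (e : T ≃ₗ[Λ] (H →+ Λ)) (x : O ⊗[Λ] T) (i : ι)
    (h : H) : b.repr (m59p_Psi e x h) i = e (m59p_kap b i x) h := by
  induction x using TensorProduct.induction_on with
  | zero => simp
  | tmul a t =>
    rw [m59p_Psi_tmul, m59p_kap_tmul, map_smul, mul_comm, ← Algebra.smul_def, map_smul]
    show (e t h • b.repr a) i = b.repr a i * e t h
    rw [Finsupp.smul_apply, smul_eq_mul, mul_comm]
  | add x y hx hy =>
    rw [map_add, AddMonoidHom.add_apply, map_add, Finsupp.add_apply, hx, hy, map_add, map_add,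
      AddMonoidHom.add_apply]

theorem m59p_Psi_injective (b : Module.Basis ι Λ O) (e : T ≃ₗ[Λ] (H →+ Λ)) :
    Function.Injective (m59p_Psi (O := O) e) := by
  rw [injective_iff_map_eq_zero]
  intro x hx
  refine m59p_kap_ext b x fun i => ?_
  apply e.injective
  rw [map_zero]
  ext h
  rw [← m59p_Psi_repr b e x i h, hx]
  simp

theorem m59p_Psi_surjective (b : Module.Basis ι Λ O) (e : T ≃ₗ[Λ] (H →+ Λ)) :
    Function.Surjective (m59p_Psi (O := O) e) := by
  intro ψ
  -- the coordinates of `ψ`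
  let φ : ι → (H →+ Λ) := fun i =>
    { toFun := fun h => b.repr (ψ h) i
      map_zero' := by simp
      map_add' := fun h h' => by simp }
  refine ⟨∑ i, b i ⊗ₜ[Λ] e.symm (φ i), ?_⟩
  ext h
  rw [map_sum, AddMonoidHom.finsetSum_apply]
  simp only [m59p_Psi_tmul, LinearEquiv.apply_symm_apply]
  have h1 : ∀ i, b i * algebraMap Λ O (φ i h) = b.repr (ψ h) i • b i := by
    intro i
    rw [mul_comm, ← Algebra.smul_def]
    rfl
  simp only [h1]
  exact b.sum_repr (ψ h)

/-- an endomorphism of `T` which is a precomposition on the lattice side. -/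
theorem m59p_Psi_baseChange (e : T ≃ₗ[Λ] (H →+ Λ)) (f : T →ₗ[Λ] T) (F : H →+ H)
    (hf : ∀ t, e (f t) = (e t).comp F) (x : O ⊗[Λ] T) :
    m59p_Psi e (f.baseChange O x) = (m59p_Psi e x).comp F := by
  induction x using TensorProduct.induction_on with
  | zero => simp
  | tmul a t =>
    ext h
    rw [LinearMap.baseChange_tmul, m59p_Psi_tmul, hf, AddMonoidHom.comp_apply,
      AddMonoidHom.comp_apply, m59p_Psi_tmul]
  | add x y hx hy =>
    rw [map_add, map_add, hx, hy, map_add]
    rfl

end Psi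

end

end Fermat.Agent.M59
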