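/-
S59 project, block [AtP] (helper10; prefix `m59p_`): (ES-p)₀, LAYER 1, the module
`X = 𝒪 ⊗_{ℤ_p} T_p J₀(N)`: the `χ`-eigenspace `m59p_M`, its Galois action `m59p_alpha`, the operator
`T_p` (`m59p_TpM`), the "connected part" `m59p_X0` and the three reduction properties
`m59p_RX1`, `m59p_RX2`, `m59p_RX3` (inputs (R1), (R2), (R3) of `m59p_core`).
-/
import Mathlib
import Fermat.Agent.M59.AtP.EspTensor
import Fermat.Agent.M59.AtP.EspRed
import Fermat.Agent.JT3.Pack.MainAux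

set_option autoImplicit false
set_option linter.unusedSectionVars false
set_option linter.style.haveILetI false
set_option synthInstance.maxHeartbeats 400000
set_option maxHeartbeats 1000000

noncomputable section

namespace Fermat.Agent.M59

open Fermat.Agent.JT3 Fermat.Agent.FF ModularCurve AlgebraicCurve CuspForm
open scoped TensorProduct

local notation "GQ" => (AlgebraicClosure ℚ ≃ₐ[ℚ] AlgebraicClosure ℚ)
local notation "Qbar" => AlgebraicClosure ℚ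

variable (N p : ℕ) [NeZero N] [hp : Fact p.Prime] (S : Finset ℕ)

/-- the Hecke operators on the Tate module commute (all primes not dividing the level). -/
theorem m59p_hecke_comm (ℓ ℓ' : ℕ) [hℓ : Fact ℓ.Prime] [hℓ' : Fact ℓ'.Prime] (hℓN : ¬ ℓ ∣ N)
    (hℓ'N : ¬ ℓ' ∣ N) :
    Commute (tj_hecke N p ⟨ℓ, hℓ.out⟩) (tj_hecke N p ⟨ℓ', hℓ'.out⟩) := by
  refine LinearMap.ext fun x => (tjp_lattice N p).injective ?_
  show tjp_lattice N p (tj_hecke N p ⟨ℓ, hℓ.out⟩ (tj_hecke N p ⟨ℓ', hℓ'.out⟩ x)) =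
    tjp_lattice N p (tj_hecke N p ⟨ℓ', hℓ'.out⟩ (tj_hecke N p ⟨ℓ, hℓ.out⟩ x))
  rw [tjp_lattice_hecke N p ℓ hℓN, tjp_lattice_hecke N p ℓ' hℓ'N, tjp_lattice_hecke N p ℓ' hℓ'N,
    tjp_lattice_hecke N p ℓ hℓN, AddMonoidHom.comp_assoc, AddMonoidHom.comp_assoc,
    t2k_TH_comm hℓ'N hℓN]

variable {𝒪 : Type} [CommRing 𝒪] [Algebra ℤ_[p] 𝒪]

/-- the `χ`-eigenspace of `X = 𝒪 ⊗ T_p J₀(N)`. -/
def m59p_M (χ : heckeAlgebra N 2 (↑S : Set ℕ) →+* 𝒪) : Submodule 𝒪 (𝒪 ⊗[ℤ_[p]] tj_T N p) where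
  carrier := {x | ∀ (ℓ : ℕ) (hℓ : ℓ.Prime) (hℓN : ¬ ℓ ∣ N) (hℓS : ℓ ∉ (↑S : Set ℕ)),
    (tjp_Tl N p S ℓ).baseChange 𝒪 x = χ (heckeAlgebra.T hℓ hℓN hℓS) • x}
  zero_mem' := fun ℓ hℓ hℓN hℓS => by rw [map_zero, smul_zero]
  add_mem' := fun {x y} hx hy ℓ hℓ hℓN hℓS => by
    rw [map_add, hx ℓ hℓ hℓN hℓS, hy ℓ hℓ hℓN hℓS, smul_add]
  smul_mem' := fun a x hx ℓ hℓ hℓN hℓS => by
    rw [map_smul, hx ℓ hℓ hℓN hℓS, smul_comm]

theorem m59p_mem_M (χ : heckeAlgebra N 2 (↑S : Set ℕ) →+* 𝒪) (x : 𝒪 ⊗[ℤ_[p]] tj_T N p) :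
    x ∈ m59p_M N p S χ ↔ ∀ (ℓ : ℕ) (hℓ : ℓ.Prime) (hℓN : ¬ ℓ ∣ N) (hℓS : ℓ ∉ (↑S : Set ℕ)),
      (tjp_Tl N p S ℓ).baseChange 𝒪 x = χ (heckeAlgebra.T hℓ hℓN hℓS) • x := Iff.rfl

/-- the additive group structure of the eigenspace, as a direct instance (nested instance problems
on `Module.End 𝒪 ↥M` cannot synthesize it through the tensor product). -/
instance m59p_instACG (χ : heckeAlgebra N 2 (↑S : Set ℕ) →+* 𝒪) :
    AddCommGroup ↥(m59p_M N p S χ) := Submodule.addCommGroup _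

/-- an endomorphism of the Tate module commuting with the good Hecke operators preserves the
eigenspace. -/
theorem m59p_M_stable (χ : heckeAlgebra N 2 (↑S : Set ℕ) →+* 𝒪) (f : Module.End ℤ_[p] (tj_T N p))
    (hf : ∀ ℓ, pk_Good N S ℓ → Commute (tjp_Tl N p S ℓ) f)
    (x : 𝒪 ⊗[ℤ_[p]] tj_T N p) (hx : x ∈ m59p_M N p S χ) :
    f.baseChange 𝒪 x ∈ m59p_M N p S χ := by
  intro ℓ hℓ hℓN hℓS
  have h1 : (tjp_Tl N p S ℓ).baseChange 𝒪 (f.baseChange 𝒪 x) =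
      f.baseChange 𝒪 ((tjp_Tl N p S ℓ).baseChange 𝒪 x) := by
    rw [← Module.End.mul_apply, ← Module.End.mul_apply, ← LinearMap.baseChange_mul,
      ← LinearMap.baseChange_mul, (hf ℓ ⟨hℓ, hℓN, hℓS⟩).eq]
  rw [h1, hx ℓ hℓ hℓN hℓS, map_smul]

/-- the Galois action on the eigenspace. -/
def m59p_alpha (χ : heckeAlgebra N 2 (↑S : Set ℕ) →+* 𝒪) :
    GQ →* Module.End 𝒪 ↥(m59p_M N p S χ) where
  toFun g := ((tj_rho N p g).baseChange 𝒪).restrict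
    (fun x hx => m59p_M_stable N p S χ _ (fun ℓ _ => tjp_Tl_rho N p S ℓ g) x hx)
  map_one' := by
    refine LinearMap.ext fun x => Subtype.ext ?_
    show (tj_rho N p 1).baseChange 𝒪 x.1 = x.1
    rw [map_one, LinearMap.baseChange_one, Module.End.one_apply]
  map_mul' g h := by
    refine LinearMap.ext fun x => Subtype.ext ?_
    show (tj_rho N p (g * h)).baseChange 𝒪 x.1 =
      (tj_rho N p g).baseChange 𝒪 ((tj_rho N p h).baseChange 𝒪 x.1)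
    rw [map_mul, LinearMap.baseChange_mul, Module.End.mul_apply]

theorem m59p_alpha_coe (χ : heckeAlgebra N 2 (↑S : Set ℕ) →+* 𝒪) (g : GQ)
    (x : ↥(m59p_M N p S χ)) :
    ((m59p_alpha N p S χ g x : ↥(m59p_M N p S χ)) : 𝒪 ⊗[ℤ_[p]] tj_T N p) =
      (tj_rho N p g).baseChange 𝒪 x.1 := rfl

/-- `T_p` commutes with the good Hecke operators. -/
theorem m59p_Tp_comm (hpN : ¬ p ∣ N) (ℓ : ℕ) (h : pk_Good N S ℓ) :
    Commute (tjp_Tl N p S ℓ) (tj_hecke N p ⟨p, hp.out⟩) := by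
  haveI : Fact ℓ.Prime := ⟨h.1⟩
  rw [tjp_Tl_good N p S h]
  exact m59p_hecke_comm N p ℓ p h.2.1 hpN

/-- `T_p` on the eigenspace. -/
def m59p_TpM (hpN : ¬ p ∣ N) (χ : heckeAlgebra N 2 (↑S : Set ℕ) →+* 𝒪) :
    Module.End 𝒪 ↥(m59p_M N p S χ) :=
  ((tj_hecke N p ⟨p, hp.out⟩).baseChange 𝒪).restrict
    (fun x hx => m59p_M_stable N p S χ _ (fun ℓ h => m59p_Tp_comm N p S hpN ℓ h) x hx)

theorem m59p_TpM_coe (hpN : ¬ p ∣ N) (χ : heckeAlgebra N 2 (↑S : Set ℕ) →+* 𝒪)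
    (x : ↥(m59p_M N p S χ)) :
    ((m59p_TpM N p S hpN χ x : ↥(m59p_M N p S χ)) : 𝒪 ⊗[ℤ_[p]] tj_T N p) =
      (tj_hecke N p ⟨p, hp.out⟩).baseChange 𝒪 x.1 := rfl

theorem m59p_TpM_comm (hpN : ¬ p ∣ N) (χ : heckeAlgebra N 2 (↑S : Set ℕ) →+* 𝒪) (g : GQ) :
    Commute (m59p_TpM N p S hpN χ) (m59p_alpha N p S χ g) := by
  refine LinearMap.ext fun x => Subtype.ext ?_
  show (tj_hecke N p ⟨p, hp.out⟩).baseChange 𝒪 ((tj_rho N p g).baseChange 𝒪 x.1) =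
    (tj_rho N p g).baseChange 𝒪 ((tj_hecke N p ⟨p, hp.out⟩).baseChange 𝒪 x.1)
  rw [← Module.End.mul_apply, ← Module.End.mul_apply, ← LinearMap.baseChange_mul,
    ← LinearMap.baseChange_mul, (tj_commute N p ⟨p, hp.out⟩ g).eq]

section red

variable {ι : Type} [Fintype ι] [DecidableEq ι] (b : Module.Basis ι ℤ_[p] 𝒪)
  (A : ValuationSubring Qbar)

/-- the `i`-th coordinate of a point of the eigenspace, as an additive map. -/
def m59p_coordM (χ : heckeAlgebra N 2 (↑S : Set ℕ) →+* 𝒪) (i : ι) :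
    ↥(m59p_M N p S χ) →+ tj_T N p :=
  (m59p_kap b i).toAddMonoidHom.comp (m59p_M N p S χ).subtype.toAddMonoidHom

theorem m59p_coordM_apply (χ : heckeAlgebra N 2 (↑S : Set ℕ) →+* 𝒪) (i : ι)
    (x : ↥(m59p_M N p S χ)) : m59p_coordM N p S b χ i x = m59p_kap b i x.1 := rfl

theorem m59p_coordM_alpha (χ : heckeAlgebra N 2 (↑S : Set ℕ) →+* 𝒪) (i : ι) (g : GQ)
    (x : ↥(m59p_M N p S χ)) :
    m59p_coordM N p S b χ i (m59p_alpha N p S χ g x) =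
      tj_rho N p g (m59p_coordM N p S b χ i x) := by
  rw [m59p_coordM_apply, m59p_alpha_coe, m59p_kap_baseChange]
  rfl

theorem m59p_coordM_Tp (hpN : ¬ p ∣ N) (χ : heckeAlgebra N 2 (↑S : Set ℕ) →+* 𝒪) (i : ι)
    (x : ↥(m59p_M N p S χ)) :
    m59p_coordM N p S b χ i (m59p_TpM N p S hpN χ x) =
      tj_hecke N p ⟨p, hp.out⟩ (m59p_coordM N p S b χ i x) := by
  rw [m59p_coordM_apply, m59p_TpM_coe, m59p_kap_baseChange]
  rfl

theorem m59p_coordM_smul (χ : heckeAlgebra N 2 (↑S : Set ℕ) →+* 𝒪) (i : ι) (c₀ : ℤ_[p])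
    (x : ↥(m59p_M N p S χ)) :
    m59p_coordM N p S b χ i (algebraMap ℤ_[p] 𝒪 c₀ • x) = c₀ • m59p_coordM N p S b χ i x := by
  rw [m59p_coordM_apply, Submodule.coe_smul, m59p_kap_algebraMap_smul]
  rfl

/-- the coordinates separate the points. -/
theorem m59p_coordM_ext (χ : heckeAlgebra N 2 (↑S : Set ℕ) →+* 𝒪) (x y : ↥(m59p_M N p S χ))
    (h : ∀ i, m59p_coordM N p S b χ i x = m59p_coordM N p S b χ i y) : x = y := by
  rw [← sub_eq_zero]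
  refine Subtype.ext (m59p_kap_ext b _ fun i => ?_)
  have := h i
  rw [← sub_eq_zero, ← map_sub] at this
  exact this

/-- the "connected part" of the eigenspace: all the components of all the coordinates reduce to
`0` at the place `A`. -/
def m59p_X0 (χ : heckeAlgebra N 2 (↑S : Set ℕ) →+* 𝒪) : AddSubgroup ↥(m59p_M N p S χ) where
  carrier := {x | ∀ (i : ι) (n : ℕ), reductionModL A N ((m59p_coordM N p S b χ i x).1 n) = 0}
  zero_mem' := fun i n => by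
    rw [map_zero]
    exact map_zero _
  add_mem' := fun {x y} hx hy i n => by
    rw [map_add, tm_add_apply, map_add, hx i n, hy i n, add_zero]
  neg_mem' := fun {x} hx i n => by
    rw [map_neg]
    show reductionModL A N (-((m59p_coordM N p S b χ i x).1 n)) = 0
    rw [map_neg, hx i n, neg_zero]

/-- **(R1)** -/
theorem m59p_RX1 (hpN : ¬ p ∣ N) (hA : A.LiesOverPrime p) (χ : heckeAlgebra N 2 (↑S : Set ℕ) →+* 𝒪)
    (τ : GQ) (hτ : τ ∈ A.inertiaSubgroupIn ℚ) (c₀ : ℤ_[p]) (hc : IsUnit (1 - c₀))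
    (x : ↥(m59p_M N p S χ)) (hx : m59p_alpha N p S χ τ x = algebraMap ℤ_[p] 𝒪 c₀ • x) :
    x ∈ m59p_X0 N p S b A χ := by
  intro i n
  refine m59p_RT1 N p hpN A hA τ hτ c₀ hc _ ?_ n
  rw [← m59p_coordM_alpha, hx, m59p_coordM_smul]

/-- **(R2)** -/
theorem m59p_RX2 (hpN : ¬ p ∣ N) (hA : A.LiesOverPrime p) (χ : heckeAlgebra N 2 (↑S : Set ℕ) →+* 𝒪)
    (σ : GQ) (hσ : A.IsFrobeniusAt σ p) (x : ↥(m59p_M N p S χ)) :
    m59p_alpha N p S χ σ (m59p_alpha N p S χ σ x) -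
      m59p_TpM N p S hpN χ (m59p_alpha N p S χ σ x) + (p : 𝒪) • x ∈ m59p_X0 N p S b A χ := by
  intro i n
  have hpp : (p : 𝒪) • x = algebraMap ℤ_[p] 𝒪 (p : ℤ_[p]) • x := by rw [map_natCast]
  have e1 : m59p_coordM N p S b χ i (m59p_alpha N p S χ σ (m59p_alpha N p S χ σ x)) =
      tj_rho N p σ (tj_rho N p σ (m59p_coordM N p S b χ i x)) :=
    (m59p_coordM_alpha N p S b χ i σ _).trans
      (congrArg (tj_rho N p σ) (m59p_coordM_alpha N p S b χ i σ x))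
  have e2 : m59p_coordM N p S b χ i (m59p_TpM N p S hpN χ (m59p_alpha N p S χ σ x)) =
      tj_hecke N p ⟨p, hp.out⟩ (tj_rho N p σ (m59p_coordM N p S b χ i x)) :=
    (m59p_coordM_Tp N p S b hpN χ i _).trans
      (congrArg (tj_hecke N p ⟨p, hp.out⟩) (m59p_coordM_alpha N p S b χ i σ x))
  have e3 : m59p_coordM N p S b χ i ((p : 𝒪) • x) = (p : ℤ_[p]) • m59p_coordM N p S b χ i x :=
    (congrArg (m59p_coordM N p S b χ i) hpp).trans (m59p_coordM_smul N p S b χ i _ x)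
  have h1 : m59p_coordM N p S b χ i (m59p_alpha N p S χ σ (m59p_alpha N p S χ σ x) -
      m59p_TpM N p S hpN χ (m59p_alpha N p S χ σ x) + (p : 𝒪) • x) =
      tj_rho N p σ (tj_rho N p σ (m59p_coordM N p S b χ i x)) -
        tj_hecke N p ⟨p, hp.out⟩ (tj_rho N p σ (m59p_coordM N p S b χ i x)) +
        (p : ℤ_[p]) • m59p_coordM N p S b χ i x :=
    ((m59p_coordM N p S b χ i).map_add _ _).trans
      (congrArg₂ (· + ·) (((m59p_coordM N p S b χ i).map_sub _ _).trans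
        (congrArg₂ (· - ·) e1 e2)) e3)
  have h2 := m59p_RT2 N p hpN A hA σ hσ (m59p_coordM N p S b χ i x) n
  exact (congrArg (fun t : tj_T N p => reductionModL A N (t.1 n)) h1).trans h2

/-- **(R3)** -/
theorem m59p_RX3 (hp2 : p ≠ 2) (hpN : ¬ p ∣ N) (hA : A.LiesOverPrime p)
    (χ : heckeAlgebra N 2 (↑S : Set ℕ) →+* 𝒪) (τ : GQ) (c₀ : ℤ_[p])
    (M1 : Submodule 𝒪 ↥(m59p_M N p S χ))
    (hst : ∀ g : GQ, ∀ x ∈ M1, m59p_alpha N p S χ g x ∈ M1)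
    (hX0 : ∀ x ∈ M1, x ∈ m59p_X0 N p S b A χ)
    (hI : ∀ g : GQ, g ∈ A.inertiaSubgroupIn ℚ → ∀ x ∈ M1,
      m59p_alpha N p S χ τ (m59p_alpha N p S χ g x - x) =
        algebraMap ℤ_[p] 𝒪 c₀ • (m59p_alpha N p S χ g x - x))
    (x : ↥(m59p_M N p S χ)) (hx : x ∈ M1) :
    m59p_alpha N p S χ τ x = algebraMap ℤ_[p] 𝒪 c₀ • x := by
  refine m59p_coordM_ext N p S b χ _ _ fun i => ?_
  rw [m59p_coordM_alpha, m59p_coordM_smul]
  refine m59p_RT3 N p hp2 hpN A hA τ c₀ (M1.toAddSubgroup.map (m59p_coordM N p S b χ i))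
    ?_ ?_ ?_ _ ⟨x, hx, rfl⟩
  · rintro g - t ⟨y, hy, rfl⟩
    exact ⟨m59p_alpha N p S χ g y, hst g y hy, m59p_coordM_alpha N p S b χ i g y⟩
  · rintro t ⟨y, hy, rfl⟩ n
    exact hX0 y hy i n
  · rintro g hg t ⟨y, hy, rfl⟩
    have h1 := congrArg (m59p_coordM N p S b χ i) (hI g hg y hy)
    rw [m59p_coordM_alpha, m59p_coordM_smul, AddMonoidHom.map_sub, m59p_coordM_alpha] at h1
    exact h1

end red

end Fermat.Agent.M59
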