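/-
S59 project, block [AtP] (helper10; prefix `m59p_`): (ES-p)₀, LAYER 1 = `m59p_EspForm_stmt` PROVED.

`m59p_esp_X`   : `u² - u T_p + p = 0` on the `χ`-eigenspace of `𝒪 ⊗ T_p J₀(N)` (instantiation of the
                 abstract core `m59p_core` with `m59p_ch_exact`, `m59p_RX1`, `m59p_RX2`, `m59p_RX3`);
`m59p_espForm` : `m59p_EspForm_stmt` (transport to `Hom(H₁(X₀(N)), 𝒪)` by the lattice `tjp_lattice`).
-/
import Mathlib
import Fermat.Agent.M59.AtP.Seams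
import Fermat.Agent.M59.AtP.EspCore
import Fermat.Agent.M59.AtP.EspCH
import Fermat.Agent.M59.AtP.EspX
import Fermat.Agent.S33.Top.Loc
import Fermat.Agent.TW.Easy.RO.PadicFinite
import Fermat.Agent.JT3.Tate.Inputs

set_option autoImplicit false
set_option linter.unusedSectionVars false
set_option linter.style.haveILetI false
set_option synthInstance.maxHeartbeats 400000
set_option maxHeartbeats 1000000

noncomputable section

namespace Fermat.Agent.M59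

open IsLocalRing Polynomial CuspForm Fermat.Agent.JT3 Fermat.Agent.TW Fermat.Agent.FF
  Fermat.Agent.S33 ModularCurve AlgebraicCurve
open scoped TensorProduct

local notation "GQ" => (AlgebraicClosure ℚ ≃ₐ[ℚ] AlgebraicClosure ℚ)
local notation "Qbar" => AlgebraicClosure ℚ

section mat

variable {O : Type*} [CommRing O] {V : Type*} [AddCommGroup V] [Module O V]

/-- an endomorphism preserving the line `O b₀` has lower left entry `0`. -/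
theorem m59p_mat_10 (bV : Module.Basis (Fin 2) O V) (f : Module.End O V)
    (h : f (bV 0) ∈ Submodule.span O {bV 0}) : LinearMap.toMatrix bV bV f 1 0 = 0 := by
  obtain ⟨a, ha⟩ := Submodule.mem_span_singleton.mp h
  rw [LinearMap.toMatrix_apply, ← ha, map_smul, bV.repr_self]
  simp

/-- an endomorphism acting by `z` modulo the line `O b₀` has lower right entry `z`. -/
theorem m59p_mat_11 (bV : Module.Basis (Fin 2) O V) (f : Module.End O V) (z : O)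
    (h : f (bV 1) - z • bV 1 ∈ Submodule.span O {bV 0}) : LinearMap.toMatrix bV bV f 1 1 = z := by
  obtain ⟨a, ha⟩ := Submodule.mem_span_singleton.mp h
  have h1 : f (bV 1) = z • bV 1 + a • bV 0 := by rw [ha]; abel
  rw [LinearMap.toMatrix_apply, h1, map_add, map_smul, map_smul, bV.repr_self, bV.repr_self]
  simp

end mat

section main

variable {p : ℕ} [hpF : Fact p.Prime] {N : ℕ} [NeZero N] {S : Finset ℕ}
  {𝒪 : Type} [CommRing 𝒪] [IsDomain 𝒪] [IsDiscreteValuationRing 𝒪]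
  [IsAdicComplete (maximalIdeal 𝒪) 𝒪] [Algebra ℤ_[p] 𝒪] [Module.Finite ℤ_[p] 𝒪]
  [Module.Free ℤ_[p] 𝒪]

/-- the Eichler–Shimura relation on `𝒪 ⊗ T_p J₀(N)`. -/
theorem m59p_frob_X (hpS : p ∈ S) (ℓ : ℕ) (hℓ : pk_Good N S ℓ) (A : ValuationSubring Qbar)
    (hA : A.LiesOverPrime ℓ) (φ : GQ) (hφ : A.IsFrobeniusAt φ ℓ) :
    pk_bc 𝒪 (tj_rho N p) φ * pk_bc 𝒪 (tj_rho N p) φ -
      (tjp_Tl N p S ℓ).baseChange 𝒪 * pk_bc 𝒪 (tj_rho N p) φ +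
      (ℓ : 𝒪) • (1 : Module.End 𝒪 (𝒪 ⊗[ℤ_[p]] tj_T N p)) = 0 := by
  have hℓp : ℓ ≠ p := fun h => hℓ.2.2 (h ▸ Finset.mem_coe.mpr hpS)
  have h1 := tj_frob N p (tji_nodeE N) (tji_S18 N) ℓ hℓ.1 hℓ.2.1 hℓp A hA φ hφ
  rw [← tjp_Tl_good N p S hℓ] at h1
  have h2 := congrArg (LinearMap.baseChange 𝒪) h1
  rw [LinearMap.baseChange_add, LinearMap.baseChange_sub, LinearMap.baseChange_mul,
    LinearMap.baseChange_mul, LinearMap.baseChange_smul, LinearMap.baseChange_one,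
    LinearMap.baseChange_zero] at h2
  have h3 : ((ℓ : ℤ_[p]) • (1 : Module.End 𝒪 (𝒪 ⊗[ℤ_[p]] tj_T N p))) = (ℓ : 𝒪) • 1 := by
    rw [Nat.cast_smul_eq_nsmul, Nat.cast_smul_eq_nsmul]
  rw [h3] at h2
  exact h2

/-- the matrices of `ρ` in a basis. -/
def m59p_rhom (ρ : GaloisRepAdic 𝒪) (bV : Module.Basis (Fin 2) 𝒪 ρ.V) :
    GQ →* Matrix (Fin 2) (Fin 2) 𝒪 :=
  ((LinearMap.toMatrixAlgEquiv bV : Module.End 𝒪 ρ.V ≃ₐ[𝒪] Matrix (Fin 2) (Fin 2) 𝒪) :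
    Module.End 𝒪 ρ.V →* Matrix (Fin 2) (Fin 2) 𝒪).comp ρ.ρ

theorem m59p_rhom_apply (ρ : GaloisRepAdic 𝒪) (bV : Module.Basis (Fin 2) 𝒪 ρ.V) (g : GQ) :
    m59p_rhom ρ bV g = LinearMap.toMatrix bV bV (ρ.ρ g) := rfl

theorem m59p_rhom_span (ρ : GaloisRepAdic 𝒪) (bV : Module.Basis (Fin 2) 𝒪 ρ.V)
    (habs : ρ.residual.IsAbsolutelyIrreducible) :
    Submodule.span 𝒪 (Set.range (m59p_rhom ρ bV)) = ⊤ := by
  have h1 := ur_tr_span_eq_top ρ habs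
  have h2 : Set.range (m59p_rhom ρ bV) =
      ((LinearMap.toMatrix bV bV : Module.End 𝒪 ρ.V ≃ₗ[𝒪] Matrix (Fin 2) (Fin 2) 𝒪) :
        Module.End 𝒪 ρ.V →ₗ[𝒪] Matrix (Fin 2) (Fin 2) 𝒪) '' Set.range ρ.ρ := by
    rw [← Set.range_comp]; rfl
  rw [h2, ← Submodule.map_span, h1, Submodule.map_top, LinearMap.range_eq_top]
  exact (LinearMap.toMatrix bV bV).surjective

theorem m59p_rhom_trace (ρ : GaloisRepAdic 𝒪) (bV : Module.Basis (Fin 2) 𝒪 ρ.V) (g : GQ) :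
    (m59p_rhom ρ bV g).trace = LinearMap.trace 𝒪 ρ.V (ρ.ρ g) :=
  (LinearMap.trace_eq_matrix_trace 𝒪 bV _).symm

theorem m59p_rhom_det (ρ : GaloisRepAdic 𝒪) (bV : Module.Basis (Fin 2) 𝒪 ρ.V) (g : GQ) :
    (m59p_rhom ρ bV g).det = LinearMap.det (ρ.ρ g) := LinearMap.det_toMatrix bV _

/-- from the identity on `X` to the identity in `End M`. -/
theorem m59p_CH_M (χ : heckeAlgebra N 2 (↑S : Set ℕ) →+* 𝒪) (g : GQ) (t d : 𝒪)
    (h : ∀ y ∈ m59p_M N p S χ, (tj_rho N p g).baseChange 𝒪 ((tj_rho N p g).baseChange 𝒪 y) -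
      t • (tj_rho N p g).baseChange 𝒪 y + d • y = 0) :
    m59p_alpha N p S χ g * m59p_alpha N p S χ g - t • m59p_alpha N p S χ g +
      d • (1 : Module.End 𝒪 ↥(m59p_M N p S χ)) = 0 :=
  LinearMap.ext fun y => Subtype.ext (h y.1 y.2)

/-- **the Cayley–Hamilton identities on the eigenspace.** -/
theorem m59p_CH_all (hp : (p : 𝒪) ∈ maximalIdeal 𝒪) (hpS : p ∈ S)
    (hNS : ∀ ℓ : ℕ, ℓ.Prime → ℓ ∣ N → ℓ ∈ S)
    (ρ : GaloisRepAdic 𝒪) (χ : heckeAlgebra N 2 (↑S : Set ℕ) →+* 𝒪)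
    (hcompat : twt_CompatAdic χ ρ) (bV : Module.Basis (Fin 2) 𝒪 ρ.V) (g : GQ) :
    m59p_alpha N p S χ g * m59p_alpha N p S χ g -
      (m59p_rhom ρ bV g).trace • m59p_alpha N p S χ g +
      (m59p_rhom ρ bV g).det • (1 : Module.End 𝒪 ↥(m59p_M N p S χ)) = 0 := by
  haveI hloc : IsLocalHom (algebraMap ℤ_[p] 𝒪) := pk_isLocalHom_padic p hp _
  have hcont : GaloisActionIsAdicContinuous 𝒪 (pk_bc 𝒪 (tj_rho N p)) :=
    pk_adicContinuous_bc (tj_rho N p) (tj_cont N p (tj_finite N p))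
  refine m59p_CH_M χ g _ _ fun y hy => ?_
  rw [m59p_rhom_trace, m59p_rhom_det]
  exact m59p_ch_exact hp hpS hNS ρ χ hcompat (X := 𝒪 ⊗[ℤ_[p]] tj_T N p)
    (pk_bc 𝒪 (tj_rho N p)) hcont (fun ℓ => (tjp_Tl N p S ℓ).baseChange 𝒪)
    (fun ℓ hℓ A hA φ hφ => m59p_frob_X hpS ℓ hℓ A hA φ hφ) y hy g

/-- **(ES-p)₀ on the `χ`-eigenspace of `𝒪 ⊗ T_p J₀(N)`.** -/
theorem m59p_esp_X (hp : (p : 𝒪) ∈ maximalIdeal 𝒪)
    (halg : ∀ a : ℤ_[p], algebraMap ℤ_[p] 𝒪 a = cya_padicHom p 𝒪 hp a)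
    (hp2 : p ≠ 2) (hpN : ¬ p ∣ N) (hpS : p ∈ S) (hNS : ∀ ℓ : ℕ, ℓ.Prime → ℓ ∣ N → ℓ ∈ S)
    (ρ : GaloisRepAdic 𝒪) (χ : heckeAlgebra N 2 (↑S : Set ℕ) →+* 𝒪)
    (habs : ρ.residual.IsAbsolutelyIrreducible) (hcompat : twt_CompatAdic χ ρ)
    (P : ValuationSubring Qbar) (hP : P.LiesOverPrime p) (σ : GQ) (hσ : P.IsFrobeniusAt σ p)
    (u : 𝒪) (hu : m59p_IsUrEig ρ P σ u) (x : ↥(m59p_M N p S χ)) :
    u ^ 2 • x - u • m59p_TpM N p S hpN χ x + (p : 𝒪) • x = 0 := by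
  classical
  obtain ⟨L, ⟨bV, hL⟩, hLD, hLI, hLσ⟩ := hu
  subst hL
  haveI hloc : IsLocalHom (algebraMap ℤ_[p] 𝒪) := pk_isLocalHom_padic p hp _
  obtain ⟨τ, hτ, hτu⟩ := s33tl_exists_tau0 (T := 𝒪) hp2 hp P hP
  have hc_eps : cya_eps p 𝒪 hp τ = algebraMap ℤ_[p] 𝒪 (cya_chi p τ) := by rw [halg]; rfl
  have hI10 : ∀ g ∈ P.decompositionSubgroup ℚ, m59p_rhom ρ bV g 1 0 = 0 := fun g hg =>
    m59p_mat_10 bV (ρ.ρ g) (hLD g hg (bV 0) (Submodule.mem_span_singleton_self _))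
  have hI11 : ∀ g ∈ P.inertiaSubgroupIn ℚ, m59p_rhom ρ bV g 1 1 = 1 := fun g hg =>
    m59p_mat_11 bV (ρ.ρ g) 1 (by rw [one_smul]; exact hLI g hg (bV 1))
  have hσ11 : m59p_rhom ρ bV σ 1 1 = u := m59p_mat_11 bV (ρ.ρ σ) u (hLσ (bV 1))
  have hτD := s33tl_inertia_le P hτ
  have hc : m59p_rhom ρ bV τ 0 0 = algebraMap ℤ_[p] 𝒪 (cya_chi p τ) := by
    rw [← hc_eps, ← twt_da_det hp hNS χ ρ hcompat τ, ← m59p_rhom_det ρ bV τ, Matrix.det_fin_two,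
      hI11 τ hτ, hI10 τ hτD, mul_one, mul_zero, sub_zero]
  have hc1 : IsUnit (1 - algebraMap ℤ_[p] 𝒪 (cya_chi p τ)) := by
    rw [← hc_eps, ← neg_sub]
    exact hτu.neg
  have hc1' : IsUnit (1 - cya_chi p τ) := by
    refine isUnit_of_map_unit (algebraMap ℤ_[p] 𝒪) _ ?_
    rw [map_sub, map_one]
    exact hc1
  exact m59p_core p (m59p_rhom ρ bV) (m59p_alpha N p S χ) (m59p_rhom_span ρ bV habs)
    (fun g => m59p_CH_all hp hpS hNS ρ χ hcompat bV g) (m59p_TpM N p S hpN χ)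
    (m59p_TpM_comm N p S hpN χ) (P.inertiaSubgroupIn ℚ) σ τ hτ
    (hI10 σ hσ.mem_decompositionSubgroup) u hσ11
    (fun g hg => ⟨hI10 g (s33tl_inertia_le P hg), hI11 g hg⟩)
    (algebraMap ℤ_[p] 𝒪 (cya_chi p τ)) hc hc1
    (m59p_X0 N p S (Module.Free.chooseBasis ℤ_[p] 𝒪) P χ)
    (fun y hy => m59p_RX1 N p S _ P hpN hP χ τ hτ (cya_chi p τ) hc1' y hy)
    (fun y => m59p_RX2 N p S _ P hpN hP χ σ hσ y)
    (fun M1 hst hX0 hI y hy =>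
      m59p_RX3 N p S _ P hp2 hpN hP χ τ (cya_chi p τ) M1 hst hX0 hI y hy) x

end main

/-- **(ES-p)₀, LAYER 1.** -/
theorem m59p_espForm : m59p_EspForm_stmt := by
  intro p _ hp2 N _ hpN S hpS hNS 𝒪 _ _ _ _ _ _ hp ρ χ habs hcompat P hP σ hσ u hu ψ hψ
  classical
  letI : Algebra ℤ_[p] 𝒪 := (cya_padicHom p 𝒪 hp).toAlgebra
  have hpp : p.Prime := Fact.out
  have hp0 : (p : 𝒪) ≠ 0 := by exact_mod_cast hpp.ne_zero
  haveI : Module.Finite ℤ_[p] 𝒪 := twfo_finite_padic p 𝒪 hp hp0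
  haveI : Module.Free ℤ_[p] 𝒪 := twfo_free_padic p 𝒪 hp
  have halg : ∀ a : ℤ_[p], algebraMap ℤ_[p] 𝒪 a = cya_padicHom p 𝒪 hp a := fun a => rfl
  obtain ⟨x, hx⟩ := m59p_Psi_surjective (O := 𝒪) (Module.Free.chooseBasis ℤ_[p] 𝒪)
    (tjp_lattice N p) ψ
  have hxM : x ∈ m59p_M N p S χ := by
    intro ℓ hℓ hℓN hℓS
    apply m59p_Psi_injective (Module.Free.chooseBasis ℤ_[p] 𝒪) (tjp_lattice N p)
    rw [m59p_Psi_baseChange (tjp_lattice N p) (tjp_Tl N p S ℓ) (t2f_TH N ℓ).toAddMonoidHom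
      (fun t => tjp_he N p S ℓ ⟨hℓ, hℓN, hℓS⟩ t) x, hx, map_smul, hx]
    exact hψ ℓ hℓ hℓN hℓS
  have hTp : ∀ t : tj_T N p, tjp_lattice N p (tj_hecke N p ⟨p, hpp⟩ t) =
      (tjp_lattice N p t).comp (t2f_TH N p).toAddMonoidHom := by
    intro t
    rw [tjp_lattice_hecke N p p hpN, t2f_TH_eq hpp hpN]
    rfl
  have key := m59p_esp_X hp halg hp2 hpN hpS hNS ρ χ habs hcompat P hP σ hσ u hu ⟨x, hxM⟩
  have key1 : u ^ 2 • x - u • (tj_hecke N p ⟨p, hpp⟩).baseChange 𝒪 x + (p : 𝒪) • x = 0 :=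
    congrArg (fun y : ↥(m59p_M N p S χ) => (y : 𝒪 ⊗[ℤ_[p]] tj_T N p)) key
  have key2 := congrArg (m59p_Psi (O := 𝒪) (tjp_lattice N p)) key1
  rw [map_add, map_sub, map_smul, map_smul, map_smul, map_zero,
    m59p_Psi_baseChange (tjp_lattice N p) (tj_hecke N p ⟨p, hpp⟩) (t2f_TH N p).toAddMonoidHom
      hTp x, hx] at key2
  exact key2


end Fermat.Agent.M59
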