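/-
Project M59 (S59), block [P-STEP] = AtP (architect helper10), cells (G3), (G4), tag `m59p_`.

THE GALOIS HALVES OF THE STEP AT `l = p`, in the `K`-valued shape of helper2's `m59epn_gal`
(M59/EP/NewGal.lean): `HX` a Hecke–Galois datum of level `Nb`, `χ : T_X → K` a point with values in
a big field `K ⊇ 𝒪`, `c : gh_H Nb →+ K` an eigenclass with the eigenvalues of `χ`; `z : T_X` the
eigenvalue of a Frobenius element at `p` on an unramified quotient line of `ρ_X`.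

* `m59p_exists_dvr` : twin of `twlg_nd_exists_dvr` exporting the finiteness of the residue field;
* `m59p_scale`      : an `E`-valued class of a finitely generated group has a multiple in `O'`;
* `m59p_espGal`     : (G3)  `p ∤ Nb`:  `χ(z)² c − χ(z) c ∘ T_p + p c = 0`   (from `m59p_espForm`);
* `m59p_newGal`     : (G4)  `Nb = N' p`, `c ≠ 0` killed by both transfers:  `χ(z)² = 1`
                      (from the hypothesis `m59p_StrictForm_stmt`).
-/
import Mathlib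
import Fermat.Agent.M59.AtP.EspForm
import Fermat.Agent.M59.AtP.UrEig
import Fermat.Agent.TW.LG.AsNewDesc
import Fermat.Agent.TW.Top.Out2
import Fermat.Agent.S58.Top.Glue

set_option autoImplicit false
set_option linter.unusedSectionVars false
set_option linter.unusedVariables false
set_option linter.style.haveILetI false
set_option synthInstance.maxHeartbeats 400000
set_option maxHeartbeats 1000000

noncomputable section

namespace Fermat.Agent.M59

open IsLocalRing Polynomial CuspForm Fermat.Agent.JT3 Fermat.Agent.TW Fermat.Agent.LR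
open scoped TensorProduct

local notation "GQ" => (AlgebraicClosure ℚ ≃ₐ[ℚ] AlgebraicClosure ℚ)
local notation "Qbar" => AlgebraicClosure ℚ

attribute [local instance] FractionRing.liftAlgebra FractionRing.isScalarTower_liftAlgebra

/-- the normalisation of `T ⧸ ker χ` inside `K`, with its fraction field (twin of
`twlg_nd_exists_dvr`, with the finiteness of the residue field). -/
theorem m59p_exists_dvr {𝒪 : Type} [CommRing 𝒪] [IsDomain 𝒪] [IsDiscreteValuationRing 𝒪]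
    [IsAdicComplete (maximalIdeal 𝒪) 𝒪] [Finite (ResidueField 𝒪)] [CharZero 𝒪]
    {p : ℕ} (hp𝒪 : (p : 𝒪) ∈ maximalIdeal 𝒪)
    {TX : Type} [CommRing TX] [IsLocalRing TX] [Algebra 𝒪 TX] [Module.Finite 𝒪 TX]
    (K : Type) [Field K] [Algebra 𝒪 K] (hK : Function.Injective (algebraMap 𝒪 K))
    (χ : TX →ₐ[𝒪] K) :
    ∃ (O' : Type) (_ : CommRing O') (_ : IsDomain O') (_ : IsDiscreteValuationRing O')
      (_ : IsAdicComplete (maximalIdeal O') O') (_ : CharZero O')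
      (_ : Finite (ResidueField O'))
      (E : Type) (_ : Field E) (_ : Algebra O' E) (_ : IsFractionRing O' E)
      (ψ : TX →+* O') (_ : IsLocalHom ψ) (ιE : E →+* K),
      (∀ x, ιE (algebraMap O' E (ψ x)) = χ x) ∧ (p : O') ∈ maximalIdeal O' := by
  classical
  let χr : TX →+* K := (χ : TX →+* K)
  let I : Ideal TX := RingHom.ker χr
  haveI hIprime : I.IsPrime := RingHom.ker_isPrime χr
  haveI : Module.Finite 𝒪 (TX ⧸ I) :=
    Module.Finite.of_surjective (Ideal.Quotient.mkₐ 𝒪 I).toLinearMap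
      (Ideal.Quotient.mkₐ_surjective 𝒪 I)
  have hinjD : Function.Injective (algebraMap 𝒪 (TX ⧸ I)) := by
    rw [injective_iff_map_eq_zero]
    intro x hx
    have h1 : algebraMap 𝒪 TX x ∈ I := by
      rw [← Ideal.Quotient.eq_zero_iff_mem]
      exact hx
    have h2 : χ (algebraMap 𝒪 TX x) = 0 := h1
    rw [AlgHom.commutes] at h2
    exact hK (h2.trans (map_zero _).symm)
  haveI : Module.IsTorsionFree 𝒪 (TX ⧸ I) :=
    Module.isTorsionFree_iff_algebraMap_injective.mpr hinjD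
  let χD : TX ⧸ I →+* K := RingHom.kerLift χr
  have hχD : Function.Injective χD := RingHom.kerLift_injective χr
  let Kf := FractionRing 𝒪
  let E := FractionRing (TX ⧸ I)
  haveI : FiniteDimensional Kf E := inferInstance
  let ιE : E →+* K := IsFractionRing.lift hχD
  have hιE : ∀ d : TX ⧸ I, ιE (algebraMap (TX ⧸ I) E d) = χD d := fun d =>
    IsFractionRing.lift_algebraMap hχD d
  haveI hloc : IsLocalRing (integralClosure 𝒪 E) := pkd_isLocalRing 𝒪 Kf E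
  haveI hdvr : IsDiscreteValuationRing (integralClosure 𝒪 E) := pkd_isDVR 𝒪 Kf E
  haveI hcomp : IsAdicComplete (maximalIdeal (integralClosure 𝒪 E)) (integralClosure 𝒪 E) :=
    pkd_isAdicComplete 𝒪 Kf E
  haveI hchar : CharZero (integralClosure 𝒪 E) := pkd_charZero 𝒪 Kf E
  have hfin : Finite (ResidueField (integralClosure 𝒪 E)) := pkd_finite_residue 𝒪 Kf E
  have hint : ∀ d : TX ⧸ I, algebraMap (TX ⧸ I) E d ∈ integralClosure 𝒪 E := fun d =>
    (Algebra.IsIntegral.isIntegral (R := 𝒪) d).map (IsScalarTower.toAlgHom 𝒪 (TX ⧸ I) E)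
  let φ : (TX ⧸ I) →ₐ[𝒪] integralClosure 𝒪 E :=
    (IsScalarTower.toAlgHom 𝒪 (TX ⧸ I) E).codRestrict (integralClosure 𝒪 E) hint
  have hφinj : Function.Injective φ := by
    intro a b hab
    have := congrArg (algebraMap (integralClosure 𝒪 E) E) hab
    exact IsFractionRing.injective (TX ⧸ I) E this
  have hφint : (φ : TX ⧸ I →+* integralClosure 𝒪 E).IsIntegral := by
    intro x
    have hx : IsIntegral 𝒪 x := Algebra.IsIntegral.isIntegral (R := 𝒪) x
    obtain ⟨P, hPm, hP0⟩ := hx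
    refine ⟨P.map (algebraMap 𝒪 (TX ⧸ I)), hPm.map _, ?_⟩
    rw [Polynomial.eval₂_map]
    have : (φ : TX ⧸ I →+* integralClosure 𝒪 E).comp (algebraMap 𝒪 (TX ⧸ I)) =
        algebraMap 𝒪 (integralClosure 𝒪 E) := by
      ext a
      simp
    rw [this]
    exact hP0
  let ψ : TX →+* integralClosure 𝒪 E :=
    (φ : TX ⧸ I →+* integralClosure 𝒪 E).comp (Ideal.Quotient.mk I)
  haveI h1 : IsLocalHom (Ideal.Quotient.mk I) :=
    IsLocalHom.of_surjective _ Ideal.Quotient.mk_surjective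
  haveI h2 : IsLocalHom (φ : TX ⧸ I →+* integralClosure 𝒪 E) := hφint.isLocalHom hφinj
  have hψ : IsLocalHom ψ := RingHom.isLocalHom_comp _ _
  have hιψ : ∀ x : TX, ιE (algebraMap (integralClosure 𝒪 E) E (ψ x)) = χ x := by
    intro x
    show ιE (algebraMap (TX ⧸ I) E (Ideal.Quotient.mk I x)) = χ x
    rw [hιE]
    rfl
  have hp' : (p : integralClosure 𝒪 E) ∈ maximalIdeal (integralClosure 𝒪 E) := by
    haveI := pkd_isLocalHom 𝒪 Kf E
    have := map_nonunit (algebraMap 𝒪 (integralClosure 𝒪 E)) (p : 𝒪) hp𝒪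
    rwa [map_natCast] at this
  exact ⟨integralClosure 𝒪 E, inferInstance, inferInstance, hdvr, hcomp, hchar, hfin, E,
    inferInstance, inferInstance, integralClosure.isFractionRing_of_finite_extension Kf E, ψ, hψ,
    ιE, hιψ, hp'⟩

/-- an `E`-valued additive class of a finitely generated group has a nonzero multiple with values
in `O'` (`E = Frac O'`). -/
theorem m59p_scale {O' E G : Type} [CommRing O'] [IsDomain O'] [Field E] [Algebra O' E]
    [IsFractionRing O' E] [AddCommGroup G] [AddGroup.FG G] (c : G →+ E) :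
    ∃ (d : O') (c₀ : G →+ O'), d ≠ 0 ∧
      ∀ g, algebraMap O' E (c₀ g) = algebraMap O' E d * c g := by
  classical
  obtain ⟨s, hs⟩ := (AddGroup.fg_def).1 (inferInstance : AddGroup.FG G)
  obtain ⟨b, hb⟩ :=
    IsLocalization.exist_integer_multiples_of_finset (nonZeroDivisors O') (s.image c)
  have hmem : ∀ g : G, ∃ x : O', algebraMap O' E x = algebraMap O' E b * c g := by
    intro g
    have hg : g ∈ AddSubgroup.closure (s : Set G) := by rw [hs]; trivial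
    induction hg using AddSubgroup.closure_induction with
    | mem x hx =>
      obtain ⟨y, hy⟩ := hb (c x) (Finset.mem_image_of_mem c hx)
      exact ⟨y, by rw [hy, Algebra.smul_def]⟩
    | zero => exact ⟨0, by rw [map_zero, map_zero, mul_zero]⟩
    | add x y _ _ hx hy =>
      obtain ⟨a, ha⟩ := hx
      obtain ⟨b', hb'⟩ := hy
      exact ⟨a + b', by rw [map_add, ha, hb', map_add, mul_add]⟩
    | neg x _ hx =>
      obtain ⟨a, ha⟩ := hx
      exact ⟨-a, by rw [map_neg, ha, map_neg, mul_neg]⟩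
  choose f hf using hmem
  have hinj := IsFractionRing.injective O' E
  refine ⟨b, AddMonoidHom.mk' f (fun x y => hinj ?_), nonZeroDivisors.coe_ne_zero b, hf⟩
  rw [map_add, hf, hf, hf, map_add, mul_add]

/-- `2 ≠ 0` in the residue field (`p` odd). -/
theorem m59p_two_ne_zero (p : ℕ) [Fact p.Prime] (hp2 : p ≠ 2) (O' : Type) [CommRing O']
    [IsLocalRing O'] (hp' : (p : O') ∈ maximalIdeal O') : (2 : ResidueField O') ≠ 0 := by
  intro h
  have hp0 : ((p : ℕ) : ResidueField O') = 0 := by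
    have := (residue_eq_zero_iff (p : O')).mpr hp'
    rwa [map_natCast] at this
  obtain ⟨m, hm⟩ := (Fact.out : p.Prime).odd_of_ne_two hp2
  have h10 : (1 : ResidueField O') = 0 := by
    have h3 : ((p : ℕ) : ResidueField O') = 2 * (m : ResidueField O') + 1 := by
      rw [hm]; push_cast; ring
    rw [hp0, h, zero_mul, zero_add] at h3
    exact h3.symm
  exact one_ne_zero h10

section gal

variable {𝒪 : Type} [CommRing 𝒪] [IsDomain 𝒪] [IsDiscreteValuationRing 𝒪]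
  [IsAdicComplete (maximalIdeal 𝒪) 𝒪]
  {p : ℕ} [Fact p.Prime]
  {Nb : ℕ} [NeZero Nb] {S' : Finset ℕ}
  {θX : heckeAlgebra Nb 2 (↑S' : Set ℕ) →+* ResidueField 𝒪}
  {TX : Type} [CommRing TX] [IsLocalRing TX] [IsNoetherianRing TX]
  [IsAdicComplete (maximalIdeal TX) TX] [Algebra 𝒪 TX] [IsLocalHom (algebraMap 𝒪 TX)]
  [Module.Finite 𝒪 TX] [Module.Free 𝒪 TX]

/-- the Frobenius polynomials of the base change of the representation of a datum to a point. -/
theorem m59p_charpoly_bc (HX : HeckeGaloisRepDatum Nb (↑S' : Set ℕ) 𝒪 θX TX)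
    {O' : Type} [CommRing O'] [IsLocalRing O'] (ψ : TX →+* O') (hψ : IsLocalHom ψ)
    (ℓ : ℕ) (hℓ : ℓ.Prime) (hℓN : ¬ ℓ ∣ Nb) (hℓS : ℓ ∉ (↑S' : Set ℕ))
    (B : ValuationSubring Qbar) (hB : B.LiesOverPrime ℓ) (τ : GQ) (hτ : B.IsFrobeniusAt τ ℓ) :
    LinearMap.charpoly ((HX.ρ.baseChangeAlong ψ hψ).ρ τ) =
      X ^ 2 - C ((ψ.comp HX.π) (heckeAlgebra.T hℓ hℓN hℓS)) * X + C ((ℓ : O')) := by
  have h6 := HX.charpoly_frob ℓ hℓ hℓN hℓS B hB τ hτ
  letI : Algebra TX O' := ψ.toAlgebra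
  change LinearMap.charpoly ((HX.ρ.ρ τ).baseChange O') = _
  rw [LinearMap.charpoly_baseChange, h6]
  simp only [Polynomial.map_add, Polynomial.map_sub, Polynomial.map_mul, Polynomial.map_pow,
    Polynomial.map_X, Polynomial.map_C, Polynomial.map_natCast, map_natCast]
  rfl

/-- (G3) at a complete DVR point `(O', E, ψ, ι_E)`. -/
theorem m59p_espGal_dvr (hp2 : p ≠ 2)
    (HX : HeckeGaloisRepDatum Nb (↑S' : Set ℕ) 𝒪 θX TX)
    (hpS : p ∈ S') (hNS : ∀ r : ℕ, r.Prime → r ∣ Nb → r ∈ S') (hpN : ¬ p ∣ Nb)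
    (K : Type) [Field K] [Algebra 𝒪 K]
    (χ : TX →ₐ[𝒪] K)
    (c : gh_H Nb →+ K)
    (hce : ∀ (ℓ : ℕ) (hℓ : ℓ.Prime) (h1 : ¬ ℓ ∣ Nb) (h2 : ℓ ∉ (↑S' : Set ℕ)) (h : gh_H Nb),
      c (t2f_TH Nb ℓ h) = χ (HX.π (heckeAlgebra.T hℓ h1 h2)) * c h)
    (O' : Type) [CommRing O'] [IsDomain O'] [IsDiscreteValuationRing O']
    [IsAdicComplete (maximalIdeal O') O'] [CharZero O'] [Finite (ResidueField O')]
    (E : Type) [Field E] [Algebra O' E] [IsFractionRing O' E]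
    (ψ : TX →+* O') (hψ : IsLocalHom ψ) (ιE : E →+* K)
    (hιψ : ∀ x, ιE (algebraMap O' E (ψ x)) = χ x) (hp' : (p : O') ∈ maximalIdeal O')
    (P : ValuationSubring Qbar) (hP : P.LiesOverPrime p) (σ : GQ) (hσ : P.IsFrobeniusAt σ p)
    (z : TX) (hz : m59p_IsUrEig HX.ρ P σ z) (h : gh_H Nb) :
    χ z ^ 2 * c h - χ z * c (t2f_TH Nb p h) + (p : K) * c h = 0 := by
  classical
  letI : Algebra E K := ιE.toAlgebra
  have halg : ∀ e : E, algebraMap E K e = ιE e := fun _ => rfl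
  rw [← Module.forall_dual_apply_eq_zero_iff E]
  intro r
  -- the `E`-valued class and its multiple in `O'`
  let c' : gh_H Nb →+ E := (r : K →+ E).comp c
  obtain ⟨d, c₀, hd, hc₀⟩ := m59p_scale (O' := O') c'
  have hinj := IsFractionRing.injective O' E
  have hd' : algebraMap O' E d ≠ 0 := fun h0 => hd (hinj (h0.trans (map_zero _).symm))
  -- `r` through the values of `χ`
  have hr : ∀ (x : TX) (k : K), r (χ x * k) = algebraMap O' E (ψ x) * r k := by
    intro x k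
    rw [← hιψ x, ← halg, ← Algebra.smul_def, map_smul, smul_eq_mul]
  have hrp : ∀ k : K, r ((p : K) * k) = (p : E) * r k := by
    intro k
    have : (p : K) = algebraMap E K (p : E) := (map_natCast _ p).symm
    rw [this, ← Algebra.smul_def, map_smul, smul_eq_mul]
  have hc₀e : ∀ (ℓ : ℕ) (hℓ : ℓ.Prime) (hℓN : ¬ ℓ ∣ Nb) (hℓS : ℓ ∉ (↑S' : Set ℕ)),
      c₀.comp (t2f_TH Nb ℓ).toAddMonoidHom =
        (ψ.comp HX.π) (heckeAlgebra.T hℓ hℓN hℓS) • c₀ := by
    intro ℓ hℓ hℓN hℓS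
    refine AddMonoidHom.ext fun x => hinj ?_
    show algebraMap O' E (c₀ (t2f_TH Nb ℓ x)) =
      algebraMap O' E (ψ (HX.π (heckeAlgebra.T hℓ hℓN hℓS)) * c₀ x)
    rw [hc₀, map_mul, hc₀]
    show _ * r (c (t2f_TH Nb ℓ x)) = _ * (_ * r (c x))
    rw [hce ℓ hℓ hℓN hℓS x, hr]
    ring
  have hmain := m59p_espForm p hp2 Nb hpN S' hpS hNS O' hp' (HX.ρ.baseChangeAlong ψ hψ)
    (ψ.comp HX.π)
    (twt_absIrr_baseChangeAlong ψ hψ HX.ρ (m59p_two_ne_zero p hp2 O' hp') HX.residual_absIrr)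
    (fun ℓ hℓ hℓN hℓS B hB τ hτ => m59p_charpoly_bc HX ψ hψ ℓ hℓ hℓN hℓS B hB τ hτ)
    P hP σ hσ (ψ z) (m59p_isUrEig_baseChange ψ hψ HX.ρ P σ z hz) c₀ hc₀e
  have h1 : ψ z ^ 2 * c₀ h - ψ z * c₀ (t2f_TH Nb p h) + (p : O') * c₀ h = 0 :=
    DFunLike.congr_fun hmain h
  have h2 : algebraMap O' E (ψ z) ^ 2 * (algebraMap O' E d * r (c h)) -
      algebraMap O' E (ψ z) * (algebraMap O' E d * r (c (t2f_TH Nb p h))) +
      (p : E) * (algebraMap O' E d * r (c h)) = 0 := by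
    have e1 : algebraMap O' E (c₀ h) = algebraMap O' E d * r (c h) := hc₀ h
    have e2 : algebraMap O' E (c₀ (t2f_TH Nb p h)) = algebraMap O' E d * r (c (t2f_TH Nb p h)) :=
      hc₀ _
    rw [← e1, ← e2, ← map_natCast (algebraMap O' E) p, ← map_pow, ← map_mul, ← map_mul,
      ← map_mul, ← map_sub, ← map_add, h1, map_zero]
  have h3 : algebraMap O' E d * (algebraMap O' E (ψ z) ^ 2 * r (c h) -
      algebraMap O' E (ψ z) * r (c (t2f_TH Nb p h)) + (p : E) * r (c h)) = 0 := by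
    rw [← h2]; ring
  have h4 := (mul_eq_zero.1 h3).resolve_left hd'
  rw [map_add, map_sub, pow_two, mul_assoc, hr, hr, hr, hrp, ← h4]
  ring

/-- **(G3), the Galois half of (ES-p)₀ in the `K`-valued shape**: `p ∤ Nb`, `c` an eigenclass of
level `Nb` with the eigenvalues of the point `χ` of a Hecke–Galois datum, `z` the eigenvalue of a
Frobenius element at `p` on an unramified quotient line: `χ(z)² c − χ(z) c ∘ T_p + p c = 0`. -/
theorem m59p_espGal [Finite (ResidueField 𝒪)] [CharZero 𝒪] (hp2 : p ≠ 2)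
    (hp𝒪 : (p : 𝒪) ∈ maximalIdeal 𝒪)
    (HX : HeckeGaloisRepDatum Nb (↑S' : Set ℕ) 𝒪 θX TX)
    (hpS : p ∈ S') (hNS : ∀ r : ℕ, r.Prime → r ∣ Nb → r ∈ S') (hpN : ¬ p ∣ Nb)
    (K : Type) [Field K] [Algebra 𝒪 K] (hK : Function.Injective (algebraMap 𝒪 K))
    (χ : TX →ₐ[𝒪] K)
    (c : gh_H Nb →+ K)
    (hce : ∀ (ℓ : ℕ) (hℓ : ℓ.Prime) (h1 : ¬ ℓ ∣ Nb) (h2 : ℓ ∉ (↑S' : Set ℕ)) (h : gh_H Nb),
      c (t2f_TH Nb ℓ h) = χ (HX.π (heckeAlgebra.T hℓ h1 h2)) * c h)
    (P : ValuationSubring Qbar) (hP : P.LiesOverPrime p) (σ : GQ) (hσ : P.IsFrobeniusAt σ p)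
    (z : TX) (hz : m59p_IsUrEig HX.ρ P σ z) (h : gh_H Nb) :
    χ z ^ 2 * c h - χ z * c (t2f_TH Nb p h) + (p : K) * c h = 0 := by
  obtain ⟨O', _, _, _, _, _, _, E, _, _, _, ψ, hψ, ιE, hιψ, hp'⟩ :=
    m59p_exists_dvr hp𝒪 K hK χ
  exact m59p_espGal_dvr hp2 HX hpS hNS hpN K χ c hce O' E ψ hψ ιE hιψ hp' P hP σ hσ z hz h

/-- (G4) at a complete DVR point `(O', E, ψ, ι_E)`. -/
theorem m59p_newGal_dvr (hstrict : m59p_StrictForm_stmt) (hp2 : p ≠ 2)
    (HX : HeckeGaloisRepDatum Nb (↑S' : Set ℕ) 𝒪 θX TX)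
    (hpS : p ∈ S') (hNS : ∀ r : ℕ, r.Prime → r ∣ Nb → r ∈ S')
    (K : Type) [Field K] [Algebra 𝒪 K]
    (χ : TX →ₐ[𝒪] K) (N' : ℕ) [NeZero N'] (hNb : Nb = N' * p) (hpN' : ¬ p ∣ N')
    (c : gh_H (N' * p) →+ K) (hc0 : c ≠ 0)
    (hce : ∀ (ℓ : ℕ) (hℓ : ℓ.Prime) (h1 : ¬ ℓ ∣ Nb) (h2 : ℓ ∉ (↑S' : Set ℕ))
      (h : gh_H (N' * p)),
      c (t2f_TH (N' * p) ℓ h) = χ (HX.π (heckeAlgebra.T hℓ h1 h2)) * c h)
    (hcA : c.comp (lrh_At hpN') = 0) (hcB : c.comp (lrh_Bt hpN') = 0)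
    (O' : Type) [CommRing O'] [IsDomain O'] [IsDiscreteValuationRing O']
    [IsAdicComplete (maximalIdeal O') O'] [CharZero O'] [Finite (ResidueField O')]
    (E : Type) [Field E] [Algebra O' E] [IsFractionRing O' E]
    (ψ : TX →+* O') (hψ : IsLocalHom ψ) (ιE : E →+* K)
    (hιψ : ∀ x, ιE (algebraMap O' E (ψ x)) = χ x) (hp' : (p : O') ∈ maximalIdeal O')
    (P : ValuationSubring Qbar) (hP : P.LiesOverPrime p) (σ : GQ) (hσ : P.IsFrobeniusAt σ p)
    (z' : TX) (hz' : m59p_IsUrEig HX.ρ P σ z') :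
    χ z' ^ 2 = 1 := by
  classical
  subst hNb
  letI : Algebra E K := ιE.toAlgebra
  have halg : ∀ e : E, algebraMap E K e = ιE e := fun _ => rfl
  obtain ⟨h₀, hh₀⟩ : ∃ h₀, c h₀ ≠ 0 := by
    by_contra hcon
    push Not at hcon
    exact hc0 (AddMonoidHom.ext fun h => by rw [hcon h]; rfl)
  obtain ⟨r, hr0⟩ := twlg_nd_exists_dual (E := E) hh₀
  let c' : gh_H (N' * p) →+ E := (r : K →+ E).comp c
  obtain ⟨d, c₀, hd, hc₀⟩ := m59p_scale (O' := O') c'
  have hinj := IsFractionRing.injective O' E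
  have hd' : algebraMap O' E d ≠ 0 := fun h0 => hd (hinj (h0.trans (map_zero _).symm))
  have hc₀ne : c₀ ≠ 0 := by
    intro h0
    have h1 := hc₀ h₀
    rw [h0] at h1
    have h2 : algebraMap O' E d * r (c h₀) = 0 := h1.symm.trans (map_zero _)
    exact (mul_ne_zero hd' hr0) h2
  have hr : ∀ (x : TX) (k : K), r (χ x * k) = algebraMap O' E (ψ x) * r k := by
    intro x k
    rw [← hιψ x, ← halg, ← Algebra.smul_def, map_smul, smul_eq_mul]
  have hc₀e : ∀ (ℓ : ℕ) (hℓ : ℓ.Prime) (hℓN : ¬ ℓ ∣ N' * p) (hℓS : ℓ ∉ (↑S' : Set ℕ)),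
      c₀.comp (t2f_TH (N' * p) ℓ).toAddMonoidHom =
        (ψ.comp HX.π) (heckeAlgebra.T hℓ hℓN hℓS) • c₀ := by
    intro ℓ hℓ hℓN hℓS
    refine AddMonoidHom.ext fun x => hinj ?_
    show algebraMap O' E (c₀ (t2f_TH (N' * p) ℓ x)) =
      algebraMap O' E (ψ (HX.π (heckeAlgebra.T hℓ hℓN hℓS)) * c₀ x)
    rw [hc₀, map_mul, hc₀]
    show _ * r (c (t2f_TH (N' * p) ℓ x)) = _ * (_ * r (c x))
    rw [hce ℓ hℓ hℓN hℓS x, hr]
    ring
  have hc₀A : c₀.comp (lrh_At hpN') = 0 := by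
    refine AddMonoidHom.ext fun x => hinj ?_
    show algebraMap O' E (c₀ (lrh_At hpN' x)) = algebraMap O' E 0
    rw [hc₀, map_zero]
    show _ * r (c (lrh_At hpN' x)) = 0
    have : c (lrh_At hpN' x) = 0 := DFunLike.congr_fun hcA x
    rw [this, map_zero, mul_zero]
  have hc₀B : c₀.comp (lrh_Bt hpN') = 0 := by
    refine AddMonoidHom.ext fun x => hinj ?_
    show algebraMap O' E (c₀ (lrh_Bt hpN' x)) = algebraMap O' E 0
    rw [hc₀, map_zero]
    show _ * r (c (lrh_Bt hpN' x)) = 0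
    have : c (lrh_Bt hpN' x) = 0 := DFunLike.congr_fun hcB x
    rw [this, map_zero, mul_zero]
  have hmain : ψ z' ^ 2 = 1 := hstrict p hp2 N' hpN' S' hpS
    (fun ℓ hℓ hdvd => hNS ℓ hℓ (Dvd.dvd.mul_right hdvd p)) O' hp'
    (HX.ρ.baseChangeAlong ψ hψ) (ψ.comp HX.π)
    (twt_absIrr_baseChangeAlong ψ hψ HX.ρ (m59p_two_ne_zero p hp2 O' hp') HX.residual_absIrr)
    (fun ℓ hℓ hℓN hℓS B hB τ hτ => m59p_charpoly_bc HX ψ hψ ℓ hℓ hℓN hℓS B hB τ hτ)
    P hP σ hσ (ψ z') (m59p_isUrEig_baseChange ψ hψ HX.ρ P σ z' hz') c₀ hc₀ne hc₀e hc₀A hc₀B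
  rw [← hιψ z', ← map_pow, ← map_pow, hmain, map_one, map_one]

/-- **(G4), the Galois half of [STRICT-p] in the `K`-valued shape**: `Nb = N' p`, `p ∤ N'`, `c ≠ 0`
an eigenclass of level `Nb` with the eigenvalues of the point `χ`, killed by both transfers from
the level `N'` (`p`-new), `z'` the eigenvalue of a Frobenius element at `p` on an unramified quotient
line: `χ(z')² = 1`. -/
theorem m59p_newGal (hstrict : m59p_StrictForm_stmt) [Finite (ResidueField 𝒪)] [CharZero 𝒪]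
    (hp2 : p ≠ 2) (hp𝒪 : (p : 𝒪) ∈ maximalIdeal 𝒪)
    (HX : HeckeGaloisRepDatum Nb (↑S' : Set ℕ) 𝒪 θX TX)
    (hpS : p ∈ S') (hNS : ∀ r : ℕ, r.Prime → r ∣ Nb → r ∈ S')
    (K : Type) [Field K] [Algebra 𝒪 K] (hK : Function.Injective (algebraMap 𝒪 K))
    (χ : TX →ₐ[𝒪] K) (N' : ℕ) [NeZero N'] (hNb : Nb = N' * p) (hpN' : ¬ p ∣ N')
    (c : gh_H (N' * p) →+ K) (hc0 : c ≠ 0)
    (hce : ∀ (ℓ : ℕ) (hℓ : ℓ.Prime) (h1 : ¬ ℓ ∣ Nb) (h2 : ℓ ∉ (↑S' : Set ℕ))
      (h : gh_H (N' * p)),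
      c (t2f_TH (N' * p) ℓ h) = χ (HX.π (heckeAlgebra.T hℓ h1 h2)) * c h)
    (hcA : c.comp (lrh_At hpN') = 0) (hcB : c.comp (lrh_Bt hpN') = 0)
    (P : ValuationSubring Qbar) (hP : P.LiesOverPrime p) (σ : GQ) (hσ : P.IsFrobeniusAt σ p)
    (z' : TX) (hz' : m59p_IsUrEig HX.ρ P σ z') :
    χ z' ^ 2 = 1 := by
  obtain ⟨O', _, _, _, _, _, _, E, _, _, _, ψ, hψ, ιE, hιψ, hp'⟩ :=
    m59p_exists_dvr hp𝒪 K hK χ
  exact m59p_newGal_dvr hstrict hp2 HX hpS hNS K χ N' hNb hpN' c hc0 hce hcA hcB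
    O' E ψ hψ ιE hιψ hp' P hP σ hσ z' hz'

end gal

end Fermat.Agent.M59
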