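/-
Project M59 (S59), block [P-STEP] = AtP (architect helper10), CLOSED, tag `m59p_`.

`m59p_chainP : m59p_ChainP_stmt`, NO HYPOTHESIS: the chain of [E'] with the step at `l = p` on top
(the input of leaf 16 `m59ci_CaseIII_stmt`).  Assembly:
* `m59p_chainP_of` (M59/AtP/ChainP.lean; helper3's `m59eps_chainP_of`, my `m59p_stepDataP_of`);
* (P3) `m59epn_espPt_closed`, (P4) `m59epn_newPtP_closed` (helper2, M59/EP/NewPClosed.lean; Galois
  halves `m59p_espGal`, `m59p_newGal` of M59/AtP/GalP.lean, Layer 1 `m59p_espForm`);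
* [STRICT-p] `m59st_strictForm` (helper4's wiring + `m59nf_nearFrob`, M59/Strict/Closed.lean).
-/
import Mathlib
import Fermat.Agent.M59.AtP.ChainP
import Fermat.Agent.M59.EP.NewPClosed
import Fermat.Agent.M59.Strict.Closed

set_option autoImplicit false

namespace Fermat.Agent.M59

/-- **[P-STEP], closed**: the chain with the `p`-step on top. -/
theorem m59p_chainP : m59p_ChainP_stmt :=
  m59p_chainP_of m59epn_espPt_closed (m59epn_newPtP_closed m59st_strictForm)

end Fermat.Agent.M59
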