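/-
S59 project, block [AtP] (helper10; prefix `m59p_`): twin of `S44/Old0/Dens.lean` for a GENERIC family
of primes (so that `p` itself may be in the family when `p ∤ M`).  Headline: `m59p_eigen_of_dens`.
-/
import Mathlib
import Fermat.Agent.S44.Old0.Dens

set_option autoImplicit false
set_option linter.unusedSectionVars false
set_option linter.style.haveILetI false
set_option synthInstance.maxHeartbeats 400000
set_option maxHeartbeats 1000000

noncomputable section

open CongruenceSubgroup ModularCurve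
open WeierstrassCurve
open Fermat.Agent.JT3

namespace Fermat.Agent.M59

open Fermat.Agent.S44

/-- **(CHAR-N), generic family**: the Nakayama glue for an ARBITRARY set `G` of primes (prime to `M`,
`p ∈ G` allowed) and eigenvalues `a : ℕ → ℤ`; output = the conclusion of `s44c_lift`. -/
theorem m59p_eigen_of_dens {M p : ℕ} [NeZero M] (hp : p.Prime) {V : Type*} [AddCommGroup V]
    (red : JZero M →+ V) (G : Set ℕ) (a : ℕ → ℤ) (t : Nat.Primes → V →+ V)
    (hred : ∀ ℓ : Nat.Primes, (ℓ : ℕ) ∈ G → ¬ (ℓ : ℕ) ∣ M →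
      ∀ z : JZero M, red (heckeOperatorBar M ℓ z) = t ℓ (red z))
    (hdens : ∀ (Qe : JZero M →+ JZero M) (Qb : V →+ V),
      (∀ (σ : s44_G) (x : JZero M), Qe (σ • x) = σ • Qe x) →
      (∀ x : JZero M, red (Qe x) = Qb (red x)) →
      (∀ x : JZero M, (∃ n : ℕ, p ^ n • x = 0) → Qe x = 0) →
      ∀ y : JZero M, p • red y = 0 → Qb (red y) = 0)
    (δ : V) (hδ0 : δ ≠ 0) (hpδ : p • δ = 0)
    (hδ : ∀ ℓ : Nat.Primes, (ℓ : ℕ) ∈ G → ¬ (ℓ : ℕ) ∣ M → t ℓ δ = (a ℓ) • δ)
    (y : JZero M) (hy : red y = δ) :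
    ∃ (g : CuspForm (Gamma0 M) 2) (𝔪' : Ideal (integralClosure ℤ ℂ)),
      g.IsNormalizedEigenform ∧ 𝔪'.IsMaximal ∧ ((p : ℕ) : integralClosure ℤ ℂ) ∈ 𝔪' ∧
      ∀ ℓ : ℕ, ℓ.Prime → ¬ ℓ ∣ M → ℓ ∈ G →
        ∃ b : integralClosure ℤ ℂ, (b : ℂ) = ModularFormClass.qCoeff g ℓ ∧
          b - ((a ℓ : ℤ) : integralClosure ℤ ℂ) ∈ 𝔪' := by
  classical
  haveI : Fact p.Prime := ⟨hp⟩
  -- the index set of good primes
  let Λ : Type := {ℓ : Nat.Primes // (ℓ : ℕ) ∈ G ∧ ¬ (ℓ : ℕ) ∣ M}
  let ℓΛ : Λ → Nat.Primes := fun i => i.1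
  have hℓM : ∀ i : Λ, ¬ ((ℓΛ i : ℕ) ∣ M) := fun i => i.2.2
  let aΛ : Λ → ℤ := fun i => a (i.1 : ℕ)
  haveI : Module.Finite ℤ (gh_H M) :=
    Module.Finite.equiv (ghf_basisEquiv M).symm.toIntLinearEquiv
  rcases s44c_nak (fun i : Λ => t2f_TH M (ℓΛ i : ℕ)) (s44c_TH_commute M ℓΛ hℓM) aΛ hp with
    ⟨v, hv0, hv⟩ | ⟨r, hrH, c, hrc⟩
  · -- an eigen-functional: Deligne–Serre
    exact s44c_lift hp G a v hv0 (fun ℓ hℓ hℓM' hG => hv ⟨⟨ℓ, hℓ⟩, hG, hℓM'⟩)
  · -- Nakayama: contradiction with (DENS-p)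
    exfalso
    let evJ : FreeAlgebra ℤ Λ →ₐ[ℤ] Module.End ℤ (JZero M) :=
      FreeAlgebra.lift ℤ (fun i => heckeOperatorBar M (ℓΛ i))
    let evV : FreeAlgebra ℤ Λ →ₐ[ℤ] Module.End ℤ V :=
      FreeAlgebra.lift ℤ (fun i => (t (ℓΛ i)).toIntLinearMap)
    -- (a) Galois equivariance
    have ha : ∀ (x : FreeAlgebra ℤ Λ) (σ : s44_G) (z : JZero M), evJ x (σ • z) = σ • evJ x z := by
      intro x
      induction x using FreeAlgebra.induction with
      | grade0 k =>
        intro σ z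
        rw [AlgHom.commutes, Module.algebraMap_end_apply, Module.algebraMap_end_apply]
        exact (map_zsmul (DistribSMul.toAddMonoidHom (JZero M) σ) k z).symm
      | grade1 i =>
        intro σ z
        show FreeAlgebra.lift ℤ (fun i => heckeOperatorBar M (ℓΛ i)) (FreeAlgebra.ι ℤ i) (σ • z) =
          σ • FreeAlgebra.lift ℤ (fun i => heckeOperatorBar M (ℓΛ i)) (FreeAlgebra.ι ℤ i) z
        rw [FreeAlgebra.lift_ι_apply]
        exact (egh_comm M (ℓΛ i) σ z).symm
      | mul x₁ x₂ h₁ h₂ =>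
        intro σ z
        rw [map_mul, Module.End.mul_apply, Module.End.mul_apply, h₂, h₁]
      | add x₁ x₂ h₁ h₂ =>
        intro σ z
        rw [map_add, LinearMap.add_apply, LinearMap.add_apply, h₁, h₂, smul_add]
    -- (b) compatibility with `red`
    have hb : ∀ (x : FreeAlgebra ℤ Λ) (z : JZero M), red (evJ x z) = evV x (red z) := by
      intro x
      induction x using FreeAlgebra.induction with
      | grade0 k =>
        intro z
        rw [AlgHom.commutes, AlgHom.commutes, Module.algebraMap_end_apply,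
          Module.algebraMap_end_apply, map_zsmul]
      | grade1 i =>
        intro z
        show red (FreeAlgebra.lift ℤ (fun i => heckeOperatorBar M (ℓΛ i)) (FreeAlgebra.ι ℤ i) z) =
          FreeAlgebra.lift ℤ (fun i => (t (ℓΛ i)).toIntLinearMap) (FreeAlgebra.ι ℤ i) (red z)
        rw [FreeAlgebra.lift_ι_apply, FreeAlgebra.lift_ι_apply]
        exact hred i.1 i.2.1 i.2.2 z
      | mul x₁ x₂ h₁ h₂ =>
        intro z
        rw [map_mul, map_mul, Module.End.mul_apply, Module.End.mul_apply, h₁, h₂]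
      | add x₁ x₂ h₁ h₂ =>
        intro z
        rw [map_add, map_add, LinearMap.add_apply, LinearMap.add_apply, map_add, h₁, h₂]
    -- eigenvalue of `evV x` on `δ`
    have hev : ∀ x : FreeAlgebra ℤ Λ, evV x δ = (FreeAlgebra.lift ℤ aΛ x) • δ := by
      intro x
      induction x using FreeAlgebra.induction with
      | grade0 k =>
        rw [AlgHom.commutes, AlgHom.commutes, Module.algebraMap_end_apply]
        rfl
      | grade1 i =>
        show FreeAlgebra.lift ℤ (fun i => (t (ℓΛ i)).toIntLinearMap) (FreeAlgebra.ι ℤ i) δ =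
          (FreeAlgebra.lift ℤ aΛ (FreeAlgebra.ι ℤ i)) • δ
        rw [FreeAlgebra.lift_ι_apply, FreeAlgebra.lift_ι_apply]
        exact hδ i.1 i.2.1 i.2.2
      | mul x₁ x₂ h₁ h₂ =>
        rw [map_mul, map_mul, Module.End.mul_apply, h₂, map_zsmul, h₁, smul_smul, mul_comm]
      | add x₁ x₂ h₁ h₂ =>
        rw [map_add, map_add, LinearMap.add_apply, h₁, h₂, add_smul]
    -- (c) `evJ r` kills the `p`-power torsion
    have hc : ∀ x : JZero M, (∃ n : ℕ, p ^ n • x = 0) → evJ r x = 0 := by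
      rintro x ⟨n, hn⟩
      exact s44c_free_kills_tors M p ℓΛ hℓM r hrH x n hn
    have h0 := hdens (evJ r).toAddMonoidHom (evV r).toAddMonoidHom (fun σ x => ha r σ x)
      (fun x => hb r x) hc y (by rw [hy]; exact hpδ)
    rw [hy] at h0
    have h1 : evV r δ = 0 := h0
    rw [hev r, hrc, add_smul, one_smul, mul_comm, mul_smul, natCast_zsmul, hpδ, smul_zero,
      add_zero] at h1
    exact hδ0 h1

end Fermat.Agent.M59

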