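/-
S59 project, block [AtP] (helper10; prefix `m59p_`): `m59p_IsUrEig` ALONG AN EQUIVALENCE OF
REPRESENTATIONS (glue for [CI3-ACT]: from a framing `r'` of `Lp.H'.ρ` with `(Z-ex)` back to `Lp.H'.ρ`).

* `m59p_isUrEig_equiv`     : `e : GaloisRepAdic.Equiv ρ₁ ρ₂`, `m59p_IsUrEig ρ₁ P σ z` ⟹
  `m59p_IsUrEig ρ₂ P σ z`;
* `m59p_isUrEig_isEquiv`   : the same for `ρ₁.IsEquiv ρ₂`; `m59p_isUrEig_isEquiv_iff`;
* `m59p_isUrEig_framed`    : for a framing `r` of `ρ` (`ρ.IsEquiv r.toGaloisRepAdic`):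
  `m59p_IsUrEig r.toGaloisRepAdic P σ z ↔ m59p_IsUrEig ρ P σ z`.
-/
import Mathlib
import Fermat.Agent.M59.AtP.UrEig
import Fermat.Agent.S53.Framed

set_option autoImplicit false
set_option linter.unusedSectionVars false
set_option linter.style.haveILetI false

noncomputable section

namespace Fermat.Agent.M59

open IsLocalRing Fermat.Agent.S53

local notation "GQ" => (AlgebraicClosure ℚ ≃ₐ[ℚ] AlgebraicClosure ℚ)
local notation "Qbar" => AlgebraicClosure ℚ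

variable {T : Type} [CommRing T] [IsLocalRing T]

/-- `m59p_IsUrEig` passes along an equivalence of representations. -/
theorem m59p_isUrEig_equiv {ρ₁ ρ₂ : GaloisRepAdic T} (e : GaloisRepAdic.Equiv ρ₁ ρ₂)
    (P : ValuationSubring Qbar) (σ : GQ) (z : T) (h : m59p_IsUrEig ρ₁ P σ z) :
    m59p_IsUrEig ρ₂ P σ z := by
  obtain ⟨L, ⟨b, rfl⟩, hD, hI, hz⟩ := h
  have hmem : ∀ w : ρ₂.V, w ∈ Submodule.span T {e.toLinearEquiv (b 0)} ↔
      e.toLinearEquiv.symm w ∈ Submodule.span T {b 0} := by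
    intro w
    rw [Submodule.mem_span_singleton, Submodule.mem_span_singleton]
    constructor
    · rintro ⟨a, rfl⟩
      exact ⟨a, by rw [map_smul, LinearEquiv.symm_apply_apply]⟩
    · rintro ⟨a, ha⟩
      refine ⟨a, ?_⟩
      rw [← map_smul, ha, LinearEquiv.apply_symm_apply]
  have hρ : ∀ (g : GQ) (w : ρ₂.V),
      e.toLinearEquiv.symm (ρ₂.ρ g w) = ρ₁.ρ g (e.toLinearEquiv.symm w) := by
    intro g w
    apply e.toLinearEquiv.injective
    rw [LinearEquiv.apply_symm_apply, e.map_apply, LinearEquiv.apply_symm_apply]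
  refine ⟨Submodule.span T {e.toLinearEquiv (b 0)}, ⟨b.map e.toLinearEquiv, ?_⟩, ?_, ?_, ?_⟩
  · rw [Module.Basis.map_apply]
  · intro g hg v hv
    rw [hmem, hρ]
    exact hD g hg _ ((hmem v).1 hv)
  · intro g hg v
    rw [hmem, map_sub, hρ]
    exact hI g hg _
  · intro v
    rw [hmem, map_sub, map_smul, hρ]
    exact hz _

/-- `m59p_IsUrEig` passes along `IsEquiv`. -/
theorem m59p_isUrEig_isEquiv {ρ₁ ρ₂ : GaloisRepAdic T} (he : ρ₁.IsEquiv ρ₂)
    (P : ValuationSubring Qbar) (σ : GQ) (z : T) (h : m59p_IsUrEig ρ₁ P σ z) :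
    m59p_IsUrEig ρ₂ P σ z := by
  obtain ⟨e⟩ := he
  exact m59p_isUrEig_equiv e P σ z h

theorem m59p_isUrEig_isEquiv_iff {ρ₁ ρ₂ : GaloisRepAdic T} (he : ρ₁.IsEquiv ρ₂)
    (P : ValuationSubring Qbar) (σ : GQ) (z : T) :
    m59p_IsUrEig ρ₁ P σ z ↔ m59p_IsUrEig ρ₂ P σ z := by
  obtain ⟨e⟩ := he
  exact ⟨m59p_isUrEig_equiv e P σ z, m59p_isUrEig_equiv e.symm P σ z⟩

/-- for a framing `r` of `ρ`. -/
theorem m59p_isUrEig_framed (ρ : GaloisRepAdic T) (r : FramedRep T)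
    (hr : ρ.IsEquiv r.toGaloisRepAdic) (P : ValuationSubring Qbar) (σ : GQ) (z : T) :
    m59p_IsUrEig r.toGaloisRepAdic P σ z ↔ m59p_IsUrEig ρ P σ z :=
  (m59p_isUrEig_isEquiv_iff hr P σ z).symm

end Fermat.Agent.M59
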